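import Fermat.Agent.Duality.Euler.Simple

/-!
# Characteristic polynomials determine additive invariants (Brauer–Nesbitt)

If two finite dimensional representations over a finite field have the same characteristic
polynomial at every group element, every invariant which is additive in short exact sequences
takes the same value on them.
-/

set_option autoImplicit false

namespace FermatAgent.Duality.Euler

open Module Polynomial
open scoped MonoidAlgebra

variable {k G : Type} [Field k] [Monoid G]

/-- The characteristic polynomial of `g`. -/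
noncomputable def FinRep.cp (R : FinRep k G) (g : G) : k[X] := (R.ρ g).charpoly

/-- Additivity in short exact sequences. -/
def IsExactAdditive {A : Type} [AddCommGroup A] (f : FinRep k G → A) : Prop :=
  ∀ (R S T : FinRep k G) (i : R.V →ₗ[k] S.V) (π : S.V →ₗ[k] T.V),
    (∀ g v, i (R.ρ g v) = S.ρ g (i v)) → (∀ g v, π (S.ρ g v) = T.ρ g (π v)) →
    Function.Injective i → Function.Surjective π → LinearMap.range i = LinearMap.ker π →
    f S = f R + f T

/-- The zero representation. -/
noncomputable def zeroRep (k G : Type) [Field k] [Monoid G] : FinRep k G :=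
  ⟨PUnit, (1 : Representation k G PUnit)⟩

lemma IsExactAdditive.map_zeroRep {A : Type} [AddCommGroup A] {f : FinRep k G → A}
    (hf : IsExactAdditive f) : f (zeroRep k G) = 0 := by
  have h := hf (zeroRep k G) (zeroRep k G) (zeroRep k G) 0 0
    (fun _ _ => Subsingleton.elim (α := PUnit) _ _) (fun _ _ => Subsingleton.elim (α := PUnit) _ _)
    (fun (a b : PUnit) _ => Subsingleton.elim a b) (fun (b : PUnit) => ⟨0, Subsingleton.elim _ b⟩)
    (Subsingleton.elim (α := Submodule k PUnit) _ _)
  simpa using h

lemma IsExactAdditive.map_subsingleton {A : Type} [AddCommGroup A] {f : FinRep k G → A}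
    (hf : IsExactAdditive f) {R : FinRep k G} (hR : Subsingleton R.V) : f R = 0 := by
  have h := hf (zeroRep k G) R (zeroRep k G) 0 0
    (fun _ _ => Subsingleton.elim _ _) (fun _ _ => Subsingleton.elim (α := PUnit) _ _)
    (fun (a b : PUnit) _ => Subsingleton.elim a b) (fun (b : PUnit) => ⟨0, Subsingleton.elim _ b⟩)
    (Subsingleton.elim _ _)
  simpa [hf.map_zeroRep] using h

lemma IsExactAdditive.map_iso {A : Type} [AddCommGroup A] {f : FinRep k G → A}
    (hf : IsExactAdditive f) {R S : FinRep k G} (h : R.Iso S) : f R = f S := by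
  obtain ⟨e, he⟩ := h
  have h := hf R S (zeroRep k G) e.toLinearMap 0
    he (fun _ _ => Subsingleton.elim (α := PUnit) _ _) e.injective
    (fun (b : PUnit) => ⟨0, Subsingleton.elim _ b⟩)
    (by rw [LinearMap.ker_zero, LinearMap.range_eq_top]; exact e.surjective)
  simpa [hf.map_zeroRep] using h.symm

/-- The subrepresentation on an invariant subspace. -/
noncomputable def FinRep.sub (R : FinRep k G) (W : Submodule k R.V) (hW : IsInvariantSub R.ρ W) :
    FinRep k G :=
  ⟨W, R.ρ.subrepresentation W hW⟩

/-- The quotient representation by an invariant subspace. -/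
noncomputable def FinRep.quot (R : FinRep k G) (W : Submodule k R.V) (hW : IsInvariantSub R.ρ W) :
    FinRep k G :=
  ⟨R.V ⧸ W, R.ρ.quotient W hW⟩

lemma IsExactAdditive.map_sub_add_quot {A : Type} [AddCommGroup A] {f : FinRep k G → A}
    (hf : IsExactAdditive f) (R : FinRep k G) (W : Submodule k R.V) (hW : IsInvariantSub R.ρ W) :
    f R = f (R.sub W hW) + f (R.quot W hW) :=
  hf (R.sub W hW) R (R.quot W hW) W.subtype W.mkQ (fun _ _ => rfl) (fun _ _ => rfl)
    W.injective_subtype W.mkQ_surjective (W.range_subtype.trans W.ker_mkQ.symm)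

open Module.Basis in
lemma charpoly_eq_mul_of_invariant {V : Type} [AddCommGroup V] [Module k V] [FiniteDimensional k V]
    (W : Submodule k V) (e : V →ₗ[k] V) (he : W ≤ W.comap e) :
    e.charpoly = (e.restrict he).charpoly * (W.mapQ W e he).charpoly := by
  let bW := Module.Free.chooseBasis k W
  let bQ := Module.Free.chooseBasis k (V ⧸ W)
  let b := sumQuot bW bQ
  have hmat : LinearMap.toMatrix b b e = Matrix.fromBlocks
      (LinearMap.toMatrix bW bW (e.restrict he))
      (Matrix.of fun i l => (b.repr (e (b (Sum.inr l)))) (Sum.inl i)) 0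
      (LinearMap.toMatrix bQ bQ (W.mapQ W e he)) := by
    ext u v
    cases u with
    | inl i =>
      cases v with
      | inl j =>
        simp only [b, sumQuot_inl, Matrix.fromBlocks_apply₁₁, LinearMap.toMatrix_apply]
        apply sumQuot_repr_inl_of_mem
      | inr l => simp [b, LinearMap.toMatrix_apply, Matrix.fromBlocks_apply₁₂]
    | inr j =>
      cases v with
      | inl l =>
        suffices W.mkQ (e (bW l)) = 0 by simp [LinearMap.toMatrix_apply, b, this]
        rw [← LinearMap.mem_ker, Submodule.ker_mkQ]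
        exact he (Submodule.coe_mem (bW l))
      | inr l =>
        simp only [LinearMap.toMatrix_apply, sumQuot_repr_inr, Matrix.fromBlocks_apply₂₂, b]
        rw [← sumQuot_inr bW bQ l, W.mapQ_apply]
        simp
  rw [← LinearMap.charpoly_toMatrix e b, hmat, Matrix.charpoly_fromBlocks_zero₂₁,
    LinearMap.charpoly_toMatrix, LinearMap.charpoly_toMatrix]

/-- Isomorphism classes of simple representations. -/
def simpleSetoid (k G : Type) [Field k] [Monoid G] : Setoid {R : FinRep k G // R.IsSimple} where
  r R S := R.1.Iso S.1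
  iseqv := ⟨fun R => .refl R.1, fun h => h.symm, fun h h' => h.trans h'⟩

/-- Isomorphism classes of simple representations. -/
abbrev SimpleClass (k G : Type) [Field k] [Monoid G] : Type 1 := Quotient (simpleSetoid k G)

lemma cp_eq_of_iso {R S : FinRep k G} (h : R.Iso S) (g : G) : R.cp g = S.cp g := by
  obtain ⟨e, he⟩ := h
  rw [FinRep.cp, FinRep.cp, ← e.charpoly_conj (R.ρ g)]
  congr 1
  ext v
  simp [LinearEquiv.conj_apply, he]

/-- The characteristic polynomial on a class. -/
noncomputable def SimpleClass.cp (c : SimpleClass k G) (g : G) : k[X] :=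
  Quotient.lift (fun R => R.1.cp g) (fun _ _ h => cp_eq_of_iso h g) c

lemma asAlgebraHom_eq_of_iso {R S : FinRep k G} (e : R.V ≃ₗ[k] S.V)
    (he : ∀ g v, e (R.ρ g v) = S.ρ g (e v)) (a : k[G]) :
    S.ρ.asAlgebraHom a = e.conj (R.ρ.asAlgebraHom a) := by
  induction a using MonoidAlgebra.induction_on with
  | of g => ext v; simp [LinearEquiv.conj_apply, he]
  | add x y hx hy => simp [map_add, hx, hy]
  | smul r x hx => simp [map_smul, hx]

/-- The trace of an element of the group algebra on a class. -/
noncomputable def SimpleClass.tr (c : SimpleClass k G) (a : k[G]) : k :=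
  Quotient.lift (fun R => LinearMap.trace k R.1.V (R.1.ρ.asAlgebraHom a)) (fun R S h => by
    obtain ⟨e, he⟩ := h
    show _ = LinearMap.trace k S.1.V _
    rw [asAlgebraHom_eq_of_iso e he, LinearMap.trace_conj']) c

lemma SimpleClass.tr_add (c : SimpleClass k G) (a b : k[G]) :
    c.tr (a + b) = c.tr a + c.tr b := by
  induction c using Quotient.inductionOn with
  | _ R => simp [SimpleClass.tr]

lemma SimpleClass.tr_smul (c : SimpleClass k G) (r : k) (a : k[G]) :
    c.tr (r • a) = r * c.tr a := by
  induction c using Quotient.inductionOn with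
  | _ R => simp [SimpleClass.tr]

lemma SimpleClass.monic_cp (c : SimpleClass k G) (g : G) : (c.cp g).Monic := by
  induction c using Quotient.inductionOn with
  | _ R => exact LinearMap.charpoly_monic _

lemma SimpleClass.tr_of (c : SimpleClass k G) (g : G) :
    c.tr (MonoidAlgebra.of k G g) = -(c.cp g).nextCoeff := by
  induction c using Quotient.inductionOn with
  | _ R =>
    show LinearMap.trace k R.1.V (R.1.ρ.asAlgebraHom _) = -((R.1.ρ g).charpoly).nextCoeff
    rw [Representation.asAlgebraHom_of,
      LinearMap.trace_eq_matrix_trace k (Module.Free.chooseBasis k R.1.V),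
      Matrix.trace_eq_neg_charpoly_nextCoeff, LinearMap.charpoly_toMatrix]

/-- The value of an additive invariant on a class. -/
def SimpleClass.value {A : Type} [AddCommGroup A] {f : FinRep k G → A} (hf : IsExactAdditive f)
    (c : SimpleClass k G) : A :=
  Quotient.lift (fun S : {R : FinRep k G // R.IsSimple} => f S.1) (fun _ _ h => hf.map_iso h) c

/-- `L` is a list of composition factors of `R`, as seen by characteristic polynomials and
additive invariants. -/
def IsFactorMultiset (R : FinRep k G) (L : Multiset (SimpleClass k G)) : Prop :=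
  (∀ g, R.cp g = (L.map (SimpleClass.cp · g)).prod) ∧
    ∀ (A : Type) [AddCommGroup A] (f : FinRep k G → A) (hf : IsExactAdditive f),
      f R = (L.map (SimpleClass.value hf)).sum

theorem exists_factorMultiset (R : FinRep k G) :
    ∃ L : Multiset (SimpleClass k G), IsFactorMultiset R L := by
  induction hn : finrank k R.V using Nat.strong_induction_on generalizing R with
  | _ n ih =>
  rcases subsingleton_or_nontrivial R.V with hs | hs
  · refine ⟨0, fun g => ?_, fun A _ f hf => by
      rw [Multiset.map_zero, Multiset.sum_zero, hf.map_subsingleton hs]⟩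
    simp only [Multiset.map_zero, Multiset.prod_zero, FinRep.cp]
    exact Polynomial.eq_one_of_monic_natDegree_zero (LinearMap.charpoly_monic _)
      (by rw [LinearMap.charpoly_natDegree]; exact finrank_zero_of_subsingleton)
  by_cases hsimp : R.IsSimple
  · exact ⟨{Quotient.mk (simpleSetoid k G) ⟨R, hsimp⟩}, fun g => by
        rw [Multiset.map_singleton, Multiset.prod_singleton]; rfl,
      fun A _ f hf => by rw [Multiset.map_singleton, Multiset.sum_singleton]; rfl⟩
  obtain ⟨W, hW, hW0, hW1⟩ : ∃ W : Submodule k R.V, IsInvariantSub R.ρ W ∧ W ≠ ⊥ ∧ W ≠ ⊤ := by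
    simp only [FinRep.IsSimple, hs, true_and, not_forall, not_or] at hsimp
    obtain ⟨W, hW, h⟩ := hsimp
    exact ⟨W, hW, h⟩
  obtain ⟨L₁, h1⟩ := ih (finrank k W) (hn ▸ Submodule.finrank_lt hW1) (R.sub W hW) rfl
  have hq : finrank k (R.V ⧸ W) < n := by
    have := W.finrank_quotient_add_finrank
    have : 0 < finrank k W := Nat.pos_of_ne_zero (by simp [Submodule.finrank_eq_zero, hW0])
    omega
  obtain ⟨L₂, h2⟩ := ih _ hq (R.quot W hW) rfl
  refine ⟨L₁ + L₂, fun g => ?_, fun A _ f hf => ?_⟩
  · rw [Multiset.map_add, Multiset.prod_add, ← h1.1, ← h2.1]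
    exact charpoly_eq_mul_of_invariant W (R.ρ g) (hW g)
  · rw [Multiset.map_add, Multiset.sum_add, ← h1.2 A f hf, ← h2.2 A f hf]
    exact hf.map_sub_add_quot R W hW

variable [Finite k]

omit [Finite k] in
theorem sum_tr_eq_of_prod_cp_eq {L₁ L₂ : Multiset (SimpleClass k G)}
    (h : ∀ g, (L₁.map (SimpleClass.cp · g)).prod = (L₂.map (SimpleClass.cp · g)).prod) (a : k[G]) :
    (L₁.map (SimpleClass.tr · a)).sum = (L₂.map (SimpleClass.tr · a)).sum := by
  induction a using MonoidAlgebra.induction_on with
  | of g =>
    have := congrArg Polynomial.nextCoeff (h g)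
    rw [Polynomial.Monic.nextCoeff_multiset_prod _ _ (fun c _ => c.monic_cp g),
      Polynomial.Monic.nextCoeff_multiset_prod _ _ (fun c _ => c.monic_cp g)] at this
    simp only [SimpleClass.tr_of]
    rw [Multiset.sum_map_neg, Multiset.sum_map_neg, this]
  | add x y hx hy => simp only [SimpleClass.tr_add, Multiset.sum_map_add, hx, hy]
  | smul r x hx => simp only [SimpleClass.tr_smul, Multiset.sum_map_mul_left, hx]

theorem exists_tr_separating (s : Finset (SimpleClass k G)) {c : SimpleClass k G} (hc : c ∈ s) :
    ∃ a : k[G], c.tr a ≠ 0 ∧ ∀ d ∈ s, d ≠ c → d.tr a = 0 := by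
  classical
  let out : SimpleClass k G → {R : FinRep k G // R.IsSimple} := Quotient.out
  have hout : ∀ d, Quotient.mk (simpleSetoid k G) (out d) = d := Quotient.out_eq
  obtain ⟨a, h1, h2⟩ := exists_trace_separating (fun d : s => (out d.1).1) (fun d => (out d.1).2)
    (fun d e hde h => hde (Subtype.ext (by rw [← hout d.1, ← hout e.1]; exact Quotient.sound h)))
    ⟨c, hc⟩
  refine ⟨a, ?_, fun d hd hdc => ?_⟩
  · rw [← hout c]; exact h1
  · rw [← hout d]; exact h2 ⟨d, hd⟩ (fun e => hdc (congrArg Subtype.val e))

/-- Equal characteristic polynomials force equal multisets of simple classes. -/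
theorem eq_of_prod_cp_eq {L₁ L₂ : Multiset (SimpleClass k G)}
    (h : ∀ g, (L₁.map (SimpleClass.cp · g)).prod = (L₂.map (SimpleClass.cp · g)).prod) :
    L₁ = L₂ := by
  classical
  induction hn : L₁.card + L₂.card using Nat.strong_induction_on generalizing L₁ L₂ with
  | _ n ih =>
  by_cases hcommon : ∃ c ∈ L₁, c ∈ L₂
  · obtain ⟨c, hc1, hc2⟩ := hcommon
    obtain ⟨M₁, rfl⟩ := Multiset.exists_cons_of_mem hc1
    obtain ⟨M₂, rfl⟩ := Multiset.exists_cons_of_mem hc2
    simp only [Multiset.card_cons] at hn
    congr 1
    refine ih _ (by omega) (fun g => ?_) rfl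
    have := h g
    simp only [Multiset.map_cons, Multiset.prod_cons] at this
    exact mul_left_cancel₀ (c.monic_cp g).ne_zero this
  push Not at hcommon
  obtain ⟨p, hp⟩ := CharP.exists k
  have hpp : p.Prime := CharP.char_is_prime k p
  have := Fact.mk hpp
  -- every multiplicity is divisible by `p`
  have hdvd : ∀ c, p ∣ L₁.count c ∧ p ∣ L₂.count c := by
    intro c
    by_cases hc : c ∈ L₁ + L₂
    · obtain ⟨a, ha, h0⟩ := exists_tr_separating (L₁ + L₂).toFinset (Multiset.mem_toFinset.mpr hc)
      have key : ∀ L : Multiset (SimpleClass k G), L ≤ L₁ + L₂ →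
          (L.map (SimpleClass.tr · a)).sum = L.count c • c.tr a := by
        intro L hL
        rw [Finset.sum_multiset_map_count, Finset.sum_eq_single c]
        · intro d hd hdc
          rw [h0 d (Multiset.mem_toFinset.mpr (Multiset.mem_of_le hL (Multiset.mem_toFinset.mp hd))) hdc,
            smul_zero]
        · intro hcL
          rw [Multiset.count_eq_zero.mpr (mt Multiset.mem_toFinset.mpr hcL), zero_smul]
      have := sum_tr_eq_of_prod_cp_eq h a
      rw [key L₁ (Multiset.le_add_right _ _), key L₂ (Multiset.le_add_left _ _), nsmul_eq_mul,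
        nsmul_eq_mul] at this
      have hcast := mul_right_cancel₀ ha this
      rcases Multiset.mem_add.mp hc with h1 | h1
      · have h2 : L₂.count c = 0 := Multiset.count_eq_zero.mpr (hcommon c h1)
        rw [h2, Nat.cast_zero, CharP.cast_eq_zero_iff k p] at hcast
        exact ⟨hcast, h2 ▸ dvd_zero p⟩
      · have h2 : L₁.count c = 0 := Multiset.count_eq_zero.mpr fun h' => hcommon c h' h1
        rw [h2, Nat.cast_zero, eq_comm, CharP.cast_eq_zero_iff k p] at hcast
        exact ⟨h2 ▸ dvd_zero p, hcast⟩
    · rw [Multiset.mem_add, not_or] at hc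
      rw [Multiset.count_eq_zero.mpr hc.1, Multiset.count_eq_zero.mpr hc.2]
      exact ⟨dvd_zero p, dvd_zero p⟩
  obtain ⟨M₁, hM₁⟩ := L₁.exists_smul_of_dvd_count (fun a _ => (hdvd a).1)
  obtain ⟨M₂, hM₂⟩ := L₂.exists_smul_of_dvd_count (fun a _ => (hdvd a).2)
  rcases Nat.eq_zero_or_pos n with h0 | hpos
  · rw [h0] at hn
    rw [Multiset.card_eq_zero.mp (by omega : L₁.card = 0),
      Multiset.card_eq_zero.mp (by omega : L₂.card = 0)]
  have hlt : M₁.card + M₂.card < n := by
    rw [hM₁, hM₂, Multiset.card_nsmul, Multiset.card_nsmul, ← mul_add] at hn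
    have := Nat.mul_le_mul_right (M₁.card + M₂.card) hpp.two_le
    omega
  have hM : ∀ g, (M₁.map (SimpleClass.cp · g)).prod = (M₂.map (SimpleClass.cp · g)).prod := by
    intro g
    have := h g
    rw [hM₁, hM₂, Multiset.map_nsmul, Multiset.map_nsmul, Multiset.prod_nsmul,
      Multiset.prod_nsmul] at this
    exact frobenius_inj k[X] p this
  rw [hM₁, hM₂, ih _ hlt hM rfl]

/-- **Brauer–Nesbitt**, for additive invariants. -/
theorem eq_of_cp_eq {A : Type} [AddCommGroup A] {f : FinRep k G → A} (hf : IsExactAdditive f)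
    {R S : FinRep k G} (h : ∀ g, R.cp g = S.cp g) : f R = f S := by
  obtain ⟨L₁, h1⟩ := exists_factorMultiset R
  obtain ⟨L₂, h2⟩ := exists_factorMultiset S
  have hL : L₁ = L₂ := eq_of_prod_cp_eq fun g => by rw [← h1.1, ← h2.1, h g]
  rw [h1.2 A f hf, h2.2 A f hf, hL]

end FermatAgent.Duality.Euler
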