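import Fermat.Agent.Duality.Euler.Restrict
import Fermat.Agent.Duality.Core.Coinvariants

/-!
# The Euler characteristic of `G_{ℚ,S}` on modules of a finite quotient

Finiteness and additivity of `h⁰ - h¹ + h²` on the representations of `Gal(L)`, given finiteness
over `L` and right exactness of `H²`, and Shapiro's lemma for the induced modules.
-/

set_option autoImplicit false

namespace FermatAgent.Duality.Euler

open FermatAgent.Duality Module

open scoped Classical

noncomputable section

local notation "Qb" => AlgebraicClosure ℚ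
local notation "GQ" => AlgebraicClosure ℚ ≃ₐ[ℚ] AlgebraicClosure ℚ

section Transport

variable {k G : Type*} [Field k] [Group G] {LG : LevelSystem G}
variable {M N : Type*} [AddCommGroup M] [Module k M] [AddCommGroup N] [Module k N]
  {ρ : Representation k G M} {σ : Representation k G N}

lemma isEquivariant_symm (e : M ≃ₗ[k] N) (he : ∀ g m, e (ρ g m) = σ g (e m)) :
    IsEquivariant σ ρ (MonoidHom.id G) e.symm.toLinearMap := fun g n => by
  apply e.injective
  rw [he]
  simp

/-- Isomorphic coefficients give isomorphic cohomology in degree `1`. -/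
def h1Equiv (e : M ≃ₗ[k] N) (he : ∀ g m, e (ρ g m) = σ g (e m)) : H1c LG ρ ≃ₗ[k] H1c LG σ :=
  LinearEquiv.ofLinearMap (map1 (φ := e.toLinearMap) ρ σ (isLevHom_id LG) he)
    (map1 σ ρ (isLevHom_id LG) (isEquivariant_symm e he))
    (LinearMap.ext fun x => by
      rw [LinearMap.comp_apply, map1_map1]
      induction x using Submodule.Quotient.induction_on with
      | _ z => exact congrArg (cl1 LG σ) (Subtype.ext (funext fun g => e.apply_symm_apply _)))
    (LinearMap.ext fun x => by
      rw [LinearMap.comp_apply, map1_map1]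
      induction x using Submodule.Quotient.induction_on with
      | _ z => exact congrArg (cl1 LG ρ) (Subtype.ext (funext fun g => e.symm_apply_apply _)))

/-- Isomorphic coefficients give isomorphic cohomology in degree `2`. -/
def h2Equiv (e : M ≃ₗ[k] N) (he : ∀ g m, e (ρ g m) = σ g (e m)) : H2c LG ρ ≃ₗ[k] H2c LG σ :=
  LinearEquiv.ofLinearMap (map2 (φ := e.toLinearMap) ρ σ (isLevHom_id LG) he)
    (map2 σ ρ (isLevHom_id LG) (isEquivariant_symm e he))
    (LinearMap.ext fun x => by
      rw [LinearMap.comp_apply, map2_map2]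
      induction x using Submodule.Quotient.induction_on with
      | _ z => exact congrArg (cl2 LG σ) (Subtype.ext (funext fun g => e.apply_symm_apply _)))
    (LinearMap.ext fun x => by
      rw [LinearMap.comp_apply, map2_map2]
      induction x using Submodule.Quotient.induction_on with
      | _ z => exact congrArg (cl2 LG ρ) (Subtype.ext (funext fun g => e.symm_apply_apply _)))

/-- Isomorphic coefficients give isomorphic invariants. -/
def h0Equiv (e : M ≃ₗ[k] N) (he : ∀ g m, e (ρ g m) = σ g (e m)) :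
    ρ.invariants ≃ₗ[k] σ.invariants :=
  e.submoduleMap ρ.invariants ≪≫ₗ LinearEquiv.ofEq _ _ (by
    refine le_antisymm ?_ fun n hn => ⟨e.symm n, fun g => ?_, e.apply_symm_apply n⟩
    · rintro _ ⟨m, hm, rfl⟩ g
      show σ g (e m) = e m
      rw [← he, hm g]
    · apply e.injective
      rw [he, e.apply_symm_apply]
      exact hn g)

end Transport

variable {p : ℕ} [Fact p.Prime] {L : IntermediateField ℚ Qb} [FiniteDimensional ℚ L]
  [L.fixingSubgroup.Normal] {S : Finset Nat.Primes}

variable (S) in
/-- `h⁰ - h¹ + h²` over `G_{ℚ,S}`. -/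
def chiS (R : FinRep (ZMod p) (GalL L)) : ℤ :=
  (finrank (ZMod p) (infl R.ρ).invariants : ℤ) -
    finrank (ZMod p) (H1c (sLevels S) (infl R.ρ)) + finrank (ZMod p) (H2c (sLevels S) (infl R.ρ))

omit [FiniteDimensional ℚ L] in
lemma trivialOn_infl {V : Type} [AddCommGroup V] [Module (ZMod p) V]
    (ρ : Representation (ZMod p) (GalL L) V) : TrivialOn L.fixingSubgroup (infl ρ) :=
  fun g hg m => by rw [infl_of_mem ρ hg]; rfl

omit [FiniteDimensional ℚ L] [L.fixingSubgroup.Normal] in
lemma exists_level_L (hS : L.IsUnramifiedOutside S) :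
    ∃ V ∈ (sLevels S).lev, V ≤ L.fixingSubgroup :=
  ⟨_, ⟨L, hS, rfl⟩, le_rfl⟩

section Shapiro

variable (B : Subgroup (GalL L)) (R : FinRep (ZMod p) (GalL L))

/-- The cosets of the preimage of `B`. -/
def cosetMap : GQ ⧸ preB B → GalL L ⧸ B :=
  Quotient.lift (fun g : GQ => (((g : GQ) : GalL L) : GalL L ⧸ B)) fun g h hgh =>
    QuotientGroup.eq.2 (show g⁻¹ * h ∈ preB B from QuotientGroup.leftRel_apply.1 hgh)

omit [FiniteDimensional ℚ L] in
lemma cosetMap_bijective : Function.Bijective (cosetMap B) := by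
  constructor
  · intro a b h
    induction a using QuotientGroup.induction_on with
    | _ g =>
    induction b using QuotientGroup.induction_on with
    | _ g' => exact QuotientGroup.eq.2 (show _ ∈ B from QuotientGroup.eq.1 h)
  · intro c
    induction c using QuotientGroup.induction_on with
    | _ y =>
    induction y using QuotientGroup.induction_on with
    | _ g => exact ⟨(g : GQ ⧸ preB B), rfl⟩

omit [FiniteDimensional ℚ L] in
lemma cosetMap_smul (g : GQ) (c : GQ ⧸ preB B) :
    cosetMap B (g • c) = ((g : GalL L)) • cosetMap B c := by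
  induction c using QuotientGroup.induction_on with
  | _ a => rfl

/-- Induced modules upstairs and downstairs. -/
def indEquiv [Finite (GalL L ⧸ B)] : (permRep (GalL L ⧸ B) R).V ≃ₗ[ZMod p] (GQ ⧸ preB B → R.V) :=
  LinearEquiv.funCongrLeft (ZMod p) R.V (Equiv.ofBijective _ (cosetMap_bijective B))

omit [FiniteDimensional ℚ L] in
lemma indEquiv_equivariant [Finite (GalL L ⧸ B)] (g : GQ) (φ : (permRep (GalL L ⧸ B) R).V) :
    indEquiv B R (infl (permRep (GalL L ⧸ B) R).ρ g φ) =
      indRep (preB B) (infl R.ρ) g (indEquiv B R φ) := by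
  funext c
  show R.ρ (g : GalL L) (φ ((g : GalL L)⁻¹ • cosetMap B c)) =
    R.ρ (g : GalL L) (φ (cosetMap B (g⁻¹ • c)))
  rw [cosetMap_smul, QuotientGroup.mk_inv]

lemma fintype_cosets : Nonempty (Fintype (GQ ⧸ preB B)) := by
  have := finiteIndex_fixingSubgroup L
  have : (preB B).FiniteIndex := Subgroup.finiteIndex_of_le (le_preB B)
  exact ⟨Fintype.ofFinite _⟩

omit [FiniteDimensional ℚ L] in
lemma exists_level_preB (hS : L.IsUnramifiedOutside S) :
    ∃ V ∈ (sLevels S).lev, V ≤ preB B :=
  ⟨_, ⟨L, hS, rfl⟩, le_preB B⟩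

/-- The Euler characteristic of an induced module is that of the preimage. -/
theorem chiS_permRep [Finite (GalL L ⧸ B)] (hS : L.IsUnramifiedOutside S) :
    chiS S (permRep (GalL L ⧸ B) R) =
      (finrank (ZMod p) (R.res B).ρ.invariants : ℤ) -
        finrank (ZMod p) (H1c (levU S B) (repU B R)) +
        finrank (ZMod p) (H2c (levU S B) (repU B R)) := by
  obtain ⟨_⟩ := fintype_cosets B
  have hU := exists_level_preB (S := S) B hS
  rw [chiS, (h1Equiv (LG := sLevels S) (indEquiv B R) (indEquiv_equivariant B R)).finrank_eq,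
    (h2Equiv (LG := sLevels S) (indEquiv B R) (indEquiv_equivariant B R)).finrank_eq,
    (h0Equiv (indEquiv B R) (indEquiv_equivariant B R)).finrank_eq,
    (LinearEquiv.ofBijective _ (shapiro1_bijective (preB B) (infl R.ρ) (sLevels S) hU)).finrank_eq,
    (LinearEquiv.ofBijective _ (shapiro2_bijective (preB B) (infl R.ρ) (sLevels S) hU)).finrank_eq,
    (LinearEquiv.ofBijective _ (shapiro0_bijective (preB B) (infl R.ρ))).finrank_eq]
  have e : Representation.invariants (MonoidHom.comp (infl R.ρ) (preB B).subtype) =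
      (R.res B).ρ.invariants := by
    ext v
    refine ⟨fun h b => ?_, fun h u => h ⟨_, u.2⟩⟩
    obtain ⟨g, hg⟩ := QuotientGroup.mk_surjective (b : GalL L)
    have := h ⟨g, show ((g : GQ) : GalL L) ∈ B from hg ▸ b.2⟩
    show R.ρ (b : GalL L) v = v
    rw [← hg]
    exact this
  rw [e]
  rfl

end Shapiro

section Finite

variable (hS : L.IsUnramifiedOutside S) (hfin1 : Module.Finite (ZMod p) (globalH1 p L S))
  (hfin2 : Module.Finite (ZMod p) (globalH2 p L S))
  (hR : RightExact2 p (sLevels S) L.fixingSubgroup)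

include hS hfin1 in
lemma finite_H1_preB_bot (R : FinRep (ZMod p) (GalL L)) :
    Module.Finite (ZMod p) (H1c (levU S (⊥ : Subgroup (GalL L))) (repU ⊥ R)) := by
  have := finite_galL L
  have : Fintype (preB (⊥ : Subgroup (GalL L)) ⧸ baseU (⊥ : Subgroup (GalL L))) :=
    Fintype.ofFinite _
  refine Module.Finite.of_injective (toHom1 S ⊥ R ∘ₗ res1 (levU S ⊥) (repU ⊥ R) (baseU ⊥))
    ((toHom1_bijective S ⊥ R).injective.comp ?_)
  refine (injective_iff_map_eq_zero _).2 fun x hx => ?_
  have h := cores1_res1 (baseU ⊥) (repU ⊥ R) (levU S ⊥) (exists_level_baseU S ⊥ hS) x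
  rw [hx, map_zero, Fintype.card_of_bijective (cosetToB_bijective (⊥ : Subgroup (GalL L))),
    ← Nat.card_eq_fintype_card, Subgroup.card_bot, one_smul] at h
  exact h.symm

include hS hfin2 in
lemma finite_H2_preB_bot (R : FinRep (ZMod p) (GalL L)) :
    Module.Finite (ZMod p) (H2c (levU S (⊥ : Subgroup (GalL L))) (repU ⊥ R)) := by
  have := finite_galL L
  have : Fintype (preB (⊥ : Subgroup (GalL L)) ⧸ baseU (⊥ : Subgroup (GalL L))) :=
    Fintype.ofFinite _
  refine Module.Finite.of_injective (toHom2 S ⊥ R ∘ₗ res2 (levU S ⊥) (repU ⊥ R) (baseU ⊥))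
    ((toHom2_bijective S ⊥ R).injective.comp ?_)
  refine (injective_iff_map_eq_zero _).2 fun x hx => ?_
  have h := cores2_res2 (baseU ⊥) (repU ⊥ R) (levU S ⊥) (exists_level_baseU S ⊥ hS) x
  rw [hx, map_zero, Fintype.card_of_bijective (cosetToB_bijective (⊥ : Subgroup (GalL L))),
    ← Nat.card_eq_fintype_card, Subgroup.card_bot, one_smul] at h
  exact h.symm

omit [FiniteDimensional ℚ L] in
lemma finite_carrier (R : FinRep (ZMod p) (GalL L)) : Finite R.V := Module.finite_of_finite (ZMod p)

include hS hfin2 hR in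
/-- Finiteness in degree `2`. -/
theorem finite_H2S (R : FinRep (ZMod p) (GalL L)) :
    Module.Finite (ZMod p) (H2c (sLevels S) (infl R.ρ)) := by
  have := finite_galL L
  have := finite_carrier R
  obtain ⟨_⟩ := fintype_cosets (⊥ : Subgroup (GalL L))
  have hU := exists_level_preB (S := S) (⊥ : Subgroup (GalL L)) hS
  have htriv : TrivialOn L.fixingSubgroup (indRep (preB (⊥ : Subgroup (GalL L))) (infl R.ρ)) := by
    intro n hn φ
    funext c
    rw [indRep_apply, trivialOn_infl R.ρ n hn]
    refine congrArg φ ?_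
    induction c using QuotientGroup.induction_on with
    | _ g =>
    refine QuotientGroup.eq.2 (le_preB ⊥ ?_)
    have := (inferInstance : L.fixingSubgroup.Normal).conj_mem n hn g⁻¹
    simpa [mul_assoc] using this
  have hsurj := hR (indRep (preB (⊥ : Subgroup (GalL L))) (infl R.ρ)) (infl R.ρ) (indSum _)
    (isEquivariant_indSum _ _) (indSum_surjective _) htriv
  have := finite_H2_preB_bot hS hfin2 R
  let e := LinearEquiv.ofBijective _
    (shapiro2_bijective (preB (⊥ : Subgroup (GalL L))) (infl R.ρ) (sLevels S) hU)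
  have : Module.Finite (ZMod p)
      (H2c (sLevels S) (indRep (preB (⊥ : Subgroup (GalL L))) (infl R.ρ))) :=
    Module.Finite.equiv e.symm
  exact Module.Finite.of_surjective _ hsurj

/-- A short exact sequence of representations of `Gal(L)`, inflated. -/
def sesOfExact {A B C : FinRep (ZMod p) (GalL L)} (i : A.V →ₗ[ZMod p] B.V)
    (π : B.V →ₗ[ZMod p] C.V) (hi : ∀ g v, i (A.ρ g v) = B.ρ g (i v))
    (hπ : ∀ g v, π (B.ρ g v) = C.ρ g (π v)) (hinj : Function.Injective i)
    (hsurj : Function.Surjective π) (hex : LinearMap.range i = LinearMap.ker π) :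
    SES (infl A.ρ) (infl B.ρ) (infl C.ρ) where
  incl := i
  proj := π
  incl_equiv _ := hi _
  proj_equiv _ := hπ _
  injective := hinj
  surjective := hsurj
  exact := LinearMap.exact_iff.2 hex.symm

include hS hfin1 hfin2 hR in
/-- Finiteness in degree `1`. -/
theorem finite_H1S (R : FinRep (ZMod p) (GalL L)) :
    Module.Finite (ZMod p) (H1c (sLevels S) (infl R.ρ)) := by
  have := finite_galL L
  obtain ⟨_⟩ := fintype_cosets (⊥ : Subgroup (GalL L))
  have hU := exists_level_preB (S := S) (⊥ : Subgroup (GalL L)) hS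
  let Q := permRep (GalL L ⧸ (⊥ : Subgroup (GalL L))) R
  let π : Q.V →ₗ[ZMod p] R.V := indSum (preB (⊥ : Subgroup (GalL L))) ∘ₗ (indEquiv ⊥ R).toLinearMap
  have hπ : ∀ g v, π (Q.ρ g v) = R.ρ g (π v) := by
    intro x v
    induction x using QuotientGroup.induction_on with
    | _ g =>
    show indSum _ (indEquiv ⊥ R (infl Q.ρ g v)) = infl R.ρ g (indSum _ (indEquiv ⊥ R v))
    rw [indEquiv_equivariant]
    exact isEquivariant_indSum _ (infl R.ρ) g _
  have hK : IsInvariantSub Q.ρ (LinearMap.ker π) := fun g v hv => by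
    show π (Q.ρ g v) = 0
    rw [hπ, LinearMap.mem_ker.1 hv, map_zero]
  let K := Q.sub (LinearMap.ker π) hK
  let T := sesOfExact (A := K) (B := Q) (C := R) (LinearMap.ker π).subtype π (fun _ _ => rfl) hπ
    (LinearMap.ker π).injective_subtype
    ((indSum_surjective _).comp (indEquiv ⊥ R).surjective) (Submodule.range_subtype _)
  have hsm : IsSmooth (sLevels S) (infl Q.ρ) :=
    (trivialOn_infl Q.ρ).isSmooth _ (exists_level_L hS)
  have hK2 := finite_H2S hS hfin2 hR K
  have := finite_H1_preB_bot hS hfin1 R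
  have hQ : Module.Finite (ZMod p) (H1c (sLevels S) (infl Q.ρ)) :=
    Module.Finite.equiv ((h1Equiv (LG := sLevels S) (indEquiv ⊥ R) (indEquiv_equivariant ⊥ R)).trans
      (LinearEquiv.ofBijective _ (shapiro1_bijective _ (infl R.ρ) (sLevels S) hU))).symm
  refine ⟨Submodule.fg_of_fg_map_of_fg_inf_ker (T.delta₁ (sLevels S) hsm)
    (IsNoetherian.noetherian _) ?_⟩
  rw [top_inf_eq, ← T.range_p1 (sLevels S) hsm, LinearMap.range_eq_map]
  exact Submodule.FG.map _ Module.Finite.fg_top

include hS hfin1 hfin2 hR in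
/-- Additivity. -/
theorem isExactAdditive_chiS :
    IsExactAdditive (chiS S : FinRep (ZMod p) (GalL L) → ℤ) := by
  intro A B C i π hi hπ hinj hsurj hex
  let T := sesOfExact i π hi hπ hinj hsurj hex
  have := finite_carrier B
  have hsm : IsSmooth (sLevels S) (infl B.ρ) :=
    (trivialOn_infl B.ρ).isSmooth _ (exists_level_L hS)
  have := finite_H1S hS hfin1 hfin2 hR A
  have := finite_H1S hS hfin1 hfin2 hR B
  have := finite_H1S hS hfin1 hfin2 hR C
  have := finite_H2S hS hfin2 hR A
  have := finite_H2S hS hfin2 hR B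
  have := finite_H2S hS hfin2 hR C
  -- the maps on invariants
  let i0 : (infl A.ρ).invariants →ₗ[ZMod p] (infl B.ρ).invariants :=
    (i ∘ₗ Submodule.subtype _).codRestrict _ fun a g => by
      show infl B.ρ g (i a.1) = i a.1
      exact (hi _ a.1).symm.trans (congrArg i (a.2 g))
  let p0 : (infl B.ρ).invariants →ₗ[ZMod p] (infl C.ρ).invariants :=
    (π ∘ₗ Submodule.subtype _).codRestrict _ fun b g => by
      show infl C.ρ g (π b.1) = π b.1
      exact (hπ _ b.1).symm.trans (congrArg π (b.2 g))
  have hi0 : Function.Injective i0 := fun a b h => Subtype.ext (hinj (congrArg Subtype.val h))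
  have hker0 : LinearMap.ker p0 = LinearMap.range i0 := by
    refine le_antisymm (fun b hb => ?_) ?_
    · obtain ⟨a, ha⟩ := (hex.ge (LinearMap.mem_ker.2 (congrArg Subtype.val hb)) :
        b.1 ∈ LinearMap.range i)
      refine ⟨⟨a, fun g => hinj ?_⟩, Subtype.ext ha⟩
      rw [show i (infl A.ρ g a) = infl B.ρ g (i a) from T.incl_equiv g a, ha, b.2 g]
    · rintro _ ⟨a, rfl⟩
      exact Subtype.ext (LinearMap.mem_ker.1 (hex.le ⟨a.1, rfl⟩ : i a.1 ∈ LinearMap.ker π))
  have hker1 : LinearMap.ker (T.delta₀ (sLevels S) hsm) = LinearMap.range p0 := by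
    ext c
    rw [LinearMap.mem_ker, T.delta₀_eq_zero_iff (sLevels S) hsm]
    exact ⟨fun ⟨b, hb, e⟩ => ⟨⟨b, hb⟩, Subtype.ext e⟩,
      fun ⟨b, hb⟩ => ⟨b.1, b.2, congrArg Subtype.val hb⟩⟩
  have htop : LinearMap.range (T.p2 (sLevels S)) = ⊤ :=
    LinearMap.range_eq_top.2 (hR (infl B.ρ) (infl C.ρ) π T.isEquivariant_proj hsurj
      (trivialOn_infl B.ρ))
  have e0 := p0.finrank_range_add_finrank_ker
  have e1 := (T.delta₀ (sLevels S) hsm).finrank_range_add_finrank_ker
  have e2 := (T.i1 (sLevels S)).finrank_range_add_finrank_ker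
  have e3 := (T.p1 (sLevels S)).finrank_range_add_finrank_ker
  have e4 := (T.delta₁ (sLevels S) hsm).finrank_range_add_finrank_ker
  have e5 := (T.i2 (sLevels S)).finrank_range_add_finrank_ker
  have e6 := (T.p2 (sLevels S)).finrank_range_add_finrank_ker
  rw [hker0, LinearMap.finrank_range_of_inj hi0] at e0
  rw [hker1] at e1
  rw [← T.range_delta₀ (sLevels S) hsm] at e2
  rw [← T.range_i1 (sLevels S) hsm] at e3
  rw [← T.range_p1 (sLevels S) hsm] at e4
  rw [← T.range_delta₁ (sLevels S) hsm] at e5
  rw [← T.range_i2 (sLevels S) hsm, htop, finrank_top] at e6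
  simp only [chiS]
  omega

end Finite

end

end FermatAgent.Duality.Euler
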