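import Fermat.Agent.ModCurve.Group.Orbits

/-!
# Permutations with equal fixed point counts of all powers are conjugate
-/

set_option autoImplicit false

namespace FermatAgent.Duality.Euler

open Function FermatAgent.ModCurveGroup

variable {X Y : Type*} [Finite X] [Finite Y]

lemma mem_periodicPts_perm (σ : Equiv.Perm X) (x : X) : x ∈ periodicPts σ :=
  mk_mem_periodicPts (orderOf_pos σ) (by
    rw [IsPeriodicPt, IsFixedPt, ← Equiv.Perm.coe_pow, pow_orderOf_eq_one]; rfl)

lemma card_iterate_fixed (σ : Equiv.Perm X) {d : ℕ} (hd : 0 < d) :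
    Nat.card {x // σ^[d] x = x} = ∑ e ∈ d.divisors, Nat.card {x // minimalPeriod σ x = e} := by
  classical
  have := Fintype.ofFinite X
  simp only [Nat.card_eq_fintype_card, Fintype.card_subtype]
  rw [Finset.card_eq_sum_card_fiberwise (f := fun x => minimalPeriod σ x) (t := d.divisors)
    (fun x hx => by
      simp only [Finset.coe_filter, Finset.mem_univ, true_and, Set.mem_ofPred_eq] at hx
      exact Nat.mem_divisors.mpr ⟨isPeriodicPt_iff_minimalPeriod_dvd.mp hx, hd.ne'⟩)]
  refine Finset.sum_congr rfl fun e he => ?_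
  congr 1
  ext x
  simp only [Finset.mem_filter, Finset.mem_univ, true_and, and_iff_right_iff_imp]
  rintro rfl
  exact isPeriodicPt_iff_minimalPeriod_dvd.mpr (Nat.mem_divisors.mp he).1

lemma card_minimalPeriod_eq (σ : Equiv.Perm X) (τ : Equiv.Perm Y)
    (h : ∀ d, 0 < d → Nat.card {x // σ^[d] x = x} = Nat.card {y // τ^[d] y = y}) (d : ℕ) :
    Nat.card {x // minimalPeriod σ x = d} = Nat.card {y // minimalPeriod τ y = d} := by
  induction d using Nat.strong_induction_on with
  | _ d ih =>
  rcases Nat.eq_zero_or_pos d with rfl | hd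
  · have h0 : ∀ {Z : Type _} [Finite Z] (π : Equiv.Perm Z) (z : Z), minimalPeriod π z ≠ 0 :=
      fun π z => (minimalPeriod_pos_of_mem_periodicPts (mem_periodicPts_perm π z)).ne'
    have hX : IsEmpty {x // minimalPeriod σ x = 0} := ⟨fun x => h0 σ x.1 x.2⟩
    have hY : IsEmpty {y // minimalPeriod τ y = 0} := ⟨fun y =>
      (minimalPeriod_pos_of_mem_periodicPts (mem_periodicPts_perm τ y.1)).ne' y.2⟩
    simp
  have h1 := card_iterate_fixed σ hd
  have h2 := card_iterate_fixed τ hd
  rw [← Nat.insert_self_properDivisors hd.ne',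
    Finset.sum_insert Nat.self_notMem_properDivisors] at h1 h2
  rw [h d hd, h2, Finset.sum_congr rfl
    (fun e he => ih e (Nat.mem_properDivisors.mp he).2)] at h1
  omega

lemma card_classes_mul (σ : Equiv.Perm X) (d : ℕ) :
    Nat.card {v : CycleClass σ // minimalPeriod σ v.out = d} * d =
      Nat.card {x // minimalPeriod σ x = d} := by
  classical
  have := Fintype.ofFinite X
  simp only [Nat.card_eq_fintype_card, Fintype.card_subtype]
  have hper : ∀ x : X, minimalPeriod σ (cycleClassMk σ x).out = minimalPeriod σ x := fun x =>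
    invariant_of_cycleClassMk_eq (a := fun z => minimalPeriod σ z)
      (fun z => minimalPeriod_apply (mem_periodicPts_perm σ z)) (by simp [cycleClassMk])
  rw [Finset.card_eq_sum_card_fiberwise
    (s := Finset.univ.filter fun x : X => minimalPeriod σ x = d)
    (f := cycleClassMk σ) (t := Finset.univ.filter fun v => minimalPeriod σ v.out = d)
    (fun x hx => by
      simp only [Finset.coe_filter, Finset.mem_univ, true_and, Set.mem_ofPred_eq] at hx ⊢
      rw [hper, hx]),
    Finset.sum_congr rfl, Finset.sum_const, smul_eq_mul]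
  intro v hv
  obtain ⟨x, rfl⟩ := cycleClassMk_surjective σ v
  simp only [Finset.mem_filter, Finset.mem_univ, true_and] at hv
  have hx : minimalPeriod σ x = d := by rw [← hper, hv]
  have hfib : (Finset.univ.filter fun z : X => minimalPeriod σ z = d).filter
      (fun z => cycleClassMk σ z = cycleClassMk σ x) =
      (Finset.range d).image (fun i => σ^[i] x) := by
    ext z
    simp only [Finset.mem_filter, Finset.mem_univ, true_and, Finset.mem_image, Finset.mem_range]
    constructor
    · rintro ⟨-, hz⟩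
      obtain ⟨i, -, rfl⟩ := (cycleClassMk_eq_iff.mp hz.symm).exists_pow_eq'
      refine ⟨i % d, Nat.mod_lt _ (hx ▸ minimalPeriod_pos_of_mem_periodicPts
        (mem_periodicPts_perm σ x)), ?_⟩
      rw [Equiv.Perm.coe_pow, ← hx, iterate_mod_minimalPeriod_eq]
    · rintro ⟨i, -, rfl⟩
      have hcl : cycleClassMk σ (σ^[i] x) = cycleClassMk σ x :=
        cycleClassMk_eq_iff.mpr (Equiv.Perm.SameCycle.symm ⟨i, by simp [Equiv.Perm.coe_pow]⟩)
      exact ⟨by rw [← hper, hcl, hper, hx], hcl⟩
  rw [hfib, Finset.card_image_of_injOn, Finset.card_range]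
  intro i hi j hj e
  rw [Finset.coe_range, ← hx] at hi hj
  exact iterate_injOn_Iio_minimalPeriod hi hj e

lemma iterate_eq_iff_mod {Z : Type*} [Finite Z] (π : Equiv.Perm Z) (z : Z) (a b : ℕ) :
    π^[a] z = π^[b] z ↔ a % minimalPeriod π z = b % minimalPeriod π z := by
  have hpos := minimalPeriod_pos_of_mem_periodicPts (mem_periodicPts_perm π z)
  rw [← iterate_eq_iterate_iff_of_lt_minimalPeriod (Nat.mod_lt a hpos) (Nat.mod_lt b hpos),
    iterate_mod_minimalPeriod_eq, iterate_mod_minimalPeriod_eq]

/-- Permutations of finite sets whose powers have as many fixed points are conjugate. -/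
theorem exists_conj_of_card_fixed_eq (σ : Equiv.Perm X) (τ : Equiv.Perm Y)
    (h : ∀ d, 0 < d → Nat.card {x // σ^[d] x = x} = Nat.card {y // τ^[d] y = y}) :
    ∃ e : X ≃ Y, ∀ x, e (σ x) = τ (e x) := by
  classical
  have := Fintype.ofFinite X
  have := Fintype.ofFinite Y
  have hclass : ∀ d, Nat.card {v : CycleClass σ // minimalPeriod σ v.out = d} =
      Nat.card {v : CycleClass τ // minimalPeriod τ v.out = d} := by
    intro d
    rcases Nat.eq_zero_or_pos d with rfl | hd
    · have hX : IsEmpty {v : CycleClass σ // minimalPeriod σ v.out = 0} := ⟨fun v =>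
        (minimalPeriod_pos_of_mem_periodicPts (mem_periodicPts_perm σ v.1.out)).ne' v.2⟩
      have hY : IsEmpty {v : CycleClass τ // minimalPeriod τ v.out = 0} := ⟨fun v =>
        (minimalPeriod_pos_of_mem_periodicPts (mem_periodicPts_perm τ v.1.out)).ne' v.2⟩
      simp
    · exact Nat.eq_of_mul_eq_mul_right hd
        (by rw [card_classes_mul, card_classes_mul, card_minimalPeriod_eq σ τ h])
  let φ : CycleClass σ ≃ CycleClass τ :=
    Equiv.ofFiberEquiv (f := fun v : CycleClass σ => minimalPeriod σ v.out)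
      (g := fun v : CycleClass τ => minimalPeriod τ v.out)
      (fun d => Classical.choice
        (Fintype.card_eq.mp (by simpa [Nat.card_eq_fintype_card] using hclass d)))
  have hφ : ∀ v, minimalPeriod τ (φ v).out = minimalPeriod σ v.out := fun v =>
    Equiv.ofFiberEquiv_map (f := fun v : CycleClass σ => minimalPeriod σ v.out)
      (g := fun v : CycleClass τ => minimalPeriod τ v.out) _ v
  have hrep : ∀ x : X, ∃ n, σ^[n] (cycleClassMk σ x).out = x := fun x => by
    have : σ.SameCycle (cycleClassMk σ x).out x :=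
      cycleClassMk_eq_iff.mp (by simp [cycleClassMk])
    obtain ⟨n, -, hn⟩ := this.exists_pow_eq'
    exact ⟨n, by rw [← Equiv.Perm.coe_pow]; exact hn⟩
  choose nX hnX using hrep
  let f : X → Y := fun x => τ^[nX x] (φ (cycleClassMk σ x)).out
  have hmk : ∀ n (v : CycleClass σ), cycleClassMk σ (σ^[n] v.out) = v := fun n v => by
    have : cycleClassMk σ (σ^[n] v.out) = cycleClassMk σ v.out :=
      cycleClassMk_eq_iff.mpr (Equiv.Perm.SameCycle.symm ⟨n, by simp [Equiv.Perm.coe_pow]⟩)
    rw [this]; simp [cycleClassMk]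
  have hmkY : ∀ n (w : CycleClass τ), cycleClassMk τ (τ^[n] w.out) = w := fun n w => by
    have : cycleClassMk τ (τ^[n] w.out) = cycleClassMk τ w.out :=
      cycleClassMk_eq_iff.mpr (Equiv.Perm.SameCycle.symm ⟨n, by simp [Equiv.Perm.coe_pow]⟩)
    rw [this]; simp [cycleClassMk]
  have hf : ∀ n (v : CycleClass σ), f (σ^[n] v.out) = τ^[n] (φ v).out := by
    intro n v
    have h1 := hnX (σ^[n] v.out)
    rw [hmk] at h1
    show τ^[nX (σ^[n] v.out)] (φ (cycleClassMk σ (σ^[n] v.out))).out = _
    rw [hmk, iterate_eq_iff_mod, hφ, ← iterate_eq_iff_mod]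
    exact h1
  have hinj : Function.Injective f := by
    intro x y e
    have hcl : cycleClassMk σ x = cycleClassMk σ y := by
      apply φ.injective
      rw [← hmkY (nX x) (φ (cycleClassMk σ x)), ← hmkY (nX y) (φ (cycleClassMk σ y))]
      exact congrArg (cycleClassMk τ) e
    rw [← hnX x, ← hnX y, hcl]
    change τ^[nX x] (φ (cycleClassMk σ x)).out = τ^[nX y] (φ (cycleClassMk σ y)).out at e
    rw [hcl, iterate_eq_iff_mod, hφ, ← iterate_eq_iff_mod] at e
    exact e
  have hsurj : Function.Surjective f := by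
    intro y
    obtain ⟨n, -, hn⟩ := (cycleClassMk_eq_iff.mp
      (show cycleClassMk τ (cycleClassMk τ y).out = cycleClassMk τ y by simp [cycleClassMk])).exists_pow_eq'
    refine ⟨σ^[n] (φ.symm (cycleClassMk τ y)).out, ?_⟩
    rw [hf, φ.apply_symm_apply, ← Equiv.Perm.coe_pow]
    exact hn
  refine ⟨Equiv.ofBijective f ⟨hinj, hsurj⟩, fun x => ?_⟩
  show f (σ x) = τ (f x)
  conv_lhs => rw [← hnX x, ← iterate_succ_apply' σ, hf]
  rw [iterate_succ_apply']

end FermatAgent.Duality.Euler
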