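import Fermat.Agent.Duality.Euler.BrauerNesbitt
import Fermat.Agent.Duality.Euler.PermConj

/-!
# Artin induction for additive invariants of `F_p[G]`-modules

An additive invariant of finite dimensional representations of a finite group `G` over `F_p` which
vanishes on all modules `G ⧸ B → V` (with the diagonal action) for `B` cyclic of order prime to
`p`, vanishes identically.
-/

set_option autoImplicit false

namespace FermatAgent.Duality.Euler

open Module Polynomial FermatAgent.ModCurveGroup

/-- The endomorphism `φ ↦ (x ↦ A (φ (σ⁻¹ x)))` of `X → V`. -/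
def twistEnd {k V X : Type*} [CommRing k] [AddCommGroup V] [Module k V] (σ : Equiv.Perm X)
    (A : V →ₗ[k] V) : (X → V) →ₗ[k] (X → V) :=
  LinearMap.pi fun x => A.comp (LinearMap.proj (σ.symm x))

lemma iterate_sumCongr {X Y : Type*} (σ : Equiv.Perm X) (τ : Equiv.Perm Y) (d : ℕ) (z : X ⊕ Y) :
    (Equiv.sumCongr σ τ)^[d] z = Sum.map (σ^[d]) (τ^[d]) z := by
  induction d with
  | zero => cases z <;> rfl
  | succ d ih =>
    rw [Function.iterate_succ_apply', ih, Function.iterate_succ' (f := ⇑σ),
      Function.iterate_succ' (f := ⇑τ)]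
    cases z <;> rfl

section Twist

variable {k V : Type*} [Field k] [AddCommGroup V] [Module k V] [FiniteDimensional k V]

lemma charpoly_twistEnd_conj {X Y : Type*} [Finite X] [Finite Y] (σ : Equiv.Perm X)
    (τ : Equiv.Perm Y) (e : X ≃ Y) (he : ∀ x, e (σ x) = τ (e x)) (A : V →ₗ[k] V) :
    (twistEnd σ A).charpoly = (twistEnd τ A).charpoly := by
  rw [← (LinearEquiv.funCongrLeft k V e.symm).charpoly_conj (twistEnd σ A)]
  congr 1
  ext φ y
  have h : σ.symm (e.symm y) = e.symm (τ.symm y) := by
    rw [Equiv.symm_apply_eq, ← e.injective.eq_iff, he, e.apply_symm_apply, e.apply_symm_apply,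
      τ.apply_symm_apply]
  simp [twistEnd, LinearEquiv.conj_apply, LinearEquiv.funCongrLeft, LinearMap.funLeft, h]

lemma charpoly_twistEnd_sum {X Y : Type*} [Finite X] [Finite Y] (σ : Equiv.Perm X)
    (τ : Equiv.Perm Y) (A : V →ₗ[k] V) :
    (twistEnd (Equiv.sumCongr σ τ) A).charpoly =
      (twistEnd σ A).charpoly * (twistEnd τ A).charpoly := by
  rw [← LinearMap.charpoly_prodMap,
    ← (LinearEquiv.sumArrowLequivProdArrow X Y k V).charpoly_conj (twistEnd _ A)]
  congr 1

lemma charpoly_twistEnd_empty {X : Type*} [IsEmpty X] (σ : Equiv.Perm X) (A : V →ₗ[k] V) :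
    (twistEnd σ A).charpoly = 1 :=
  Polynomial.eq_one_of_monic_natDegree_zero (LinearMap.charpoly_monic _)
    (by rw [LinearMap.charpoly_natDegree]; exact finrank_zero_of_subsingleton)

lemma charpoly_twistEnd_sigma {ι : Type*} [Fintype ι] {X : ι → Type*} [∀ i, Finite (X i)]
    (σ : ∀ i, Equiv.Perm (X i)) (A : V →ₗ[k] V) :
    (twistEnd (Equiv.sigmaCongrRight σ) A).charpoly =
      ∏ i, (twistEnd (σ i) A).charpoly := by
  induction h : Fintype.card ι generalizing ι with
  | zero =>
    have : IsEmpty ι := Fintype.card_eq_zero_iff.mp h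
    rw [charpoly_twistEnd_empty, Finset.univ_eq_empty, Finset.prod_empty]
  | succ n ih =>
    classical
    have : Nonempty ι := Fintype.card_pos_iff.mp (by omega)
    obtain ⟨i₀⟩ := this
    let ι' := {i // i ≠ i₀}
    have hc : Fintype.card ι' = n := by
      rw [Fintype.card_subtype_compl, Fintype.card_subtype_eq, h]; rfl
    let e : (X i₀ ⊕ (Σ i : ι', X i.1)) ≃ Σ i, X i :=
      { toFun := Sum.elim (Sigma.mk i₀) (fun p => ⟨p.1.1, p.2⟩)
        invFun := fun p => if h : p.1 = i₀ then Sum.inl (h ▸ p.2) else Sum.inr ⟨⟨p.1, h⟩, p.2⟩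
        left_inv := by
          rintro (a | ⟨⟨i, hi⟩, a⟩)
          · simp
          · simp [hi]
        right_inv := by
          rintro ⟨i, a⟩
          by_cases hi : i = i₀
          · subst hi; simp
          · simp [hi] }
    rw [← charpoly_twistEnd_conj (Equiv.sumCongr (σ i₀) (Equiv.sigmaCongrRight fun i : ι' => σ i.1))
      (Equiv.sigmaCongrRight σ) e (by rintro (a | ⟨i, a⟩) <;> rfl) A, charpoly_twistEnd_sum,
      ih (fun i : ι' => σ i.1) hc,
      Fintype.prod_eq_mul_prod_compl i₀ (fun i => (twistEnd (σ i) A).charpoly)]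
    congr 1
    exact (Finset.prod_subtype ({i₀}ᶜ : Finset ι) (fun i => by simp)
      (fun i => (twistEnd (σ i) A).charpoly)).symm

lemma charpoly_twistEnd_unique {X : Type*} [Unique X] (σ : Equiv.Perm X) (A : V →ₗ[k] V) :
    (twistEnd σ A).charpoly = A.charpoly := by
  rw [← (LinearEquiv.funUnique X k V).charpoly_conj (twistEnd σ A)]
  congr 1

end Twist

section Charpoly

variable {p : ℕ} [Fact p.Prime] {G : Type} [Group G]

lemma cp_pow_p (R : FinRep (ZMod p) G) (g : G) : R.cp (g ^ p) = R.cp g := by
  classical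
  unfold FinRep.cp
  let b := Module.Free.chooseBasis (ZMod p) R.V
  rw [map_pow, ← LinearMap.charpoly_toMatrix _ b, ← LinearMap.toMatrix_pow, ZMod.charpoly_pow_card,
    LinearMap.charpoly_toMatrix]

lemma cp_pow_p_pow (R : FinRep (ZMod p) G) (g : G) (a : ℕ) : R.cp (g ^ p ^ a) = R.cp g := by
  induction a with
  | zero => simp
  | succ a ih => rw [pow_succ, pow_mul, cp_pow_p, ih]

lemma exists_pow_p_not_dvd_orderOf [Finite G] (g : G) :
    ∃ a : ℕ, ¬ p ∣ orderOf (g ^ p ^ a) := by
  refine ⟨(orderOf g).factorization p, ?_⟩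
  have hd : p ^ (orderOf g).factorization p ∣ orderOf g := Nat.ordProj_dvd _ _
  rw [orderOf_pow' g (pow_ne_zero _ (Fact.out : p.Prime).ne_zero), Nat.gcd_eq_right hd]
  exact Nat.not_dvd_ordCompl Fact.out (orderOf_pos g).ne'

/-- The representation on `X → V` twisted by a permutation action on `X`. -/
noncomputable def permRep {k : Type} [Field k] (X : Type) [MulAction G X] [Finite X]
    (R : FinRep k G) : FinRep k G :=
  ⟨X → R.V,
    { toFun := fun g => twistEnd (MulAction.toPerm g) (R.ρ g)
      map_one' := by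
        ext φ x
        simp [twistEnd]
      map_mul' := fun g h => by
        ext φ x
        simp [twistEnd, mul_smul] }⟩

lemma cp_permRep {k : Type} [Field k] (X : Type) [MulAction G X] [Finite X] (R : FinRep k G)
    (g : G) : (permRep X R).cp g = (twistEnd (MulAction.toPerm g : Equiv.Perm X) (R.ρ g)).charpoly :=
  rfl

end Charpoly

section Identity

/-- A function on a finite poset whose sums over upper intervals are `1`. -/
theorem exists_upper_sum_eq_one (T : Type*) [PartialOrder T] [Fintype T]
    [DecidableRel ((· ≤ ·) : T → T → Prop)] :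
    ∃ c : T → ℤ, ∀ D, ∑ B ∈ Finset.univ.filter (fun B => D ≤ B), c B = 1 := by
  classical
  let F : ∀ D : T, (∀ B, B > D → ℤ) → ℤ := fun D rec =>
    1 - ∑ B : T, if h : D < B then rec B h else 0
  let c : T → ℤ := wellFounded_gt.fix F
  refine ⟨c, fun D => ?_⟩
  have hD : c D = F D (fun B _ => c B) := wellFounded_gt.fix_eq F D
  have hsplit : Finset.univ.filter (fun B => D ≤ B) =
      insert D (Finset.univ.filter (fun B => D < B)) := by
    ext B
    simp [le_iff_eq_or_lt, eq_comm]
  rw [hsplit, Finset.sum_insert (by simp), hD]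
  simp only [F, dite_eq_ite, Finset.sum_filter]
  abel

variable {G : Type} [Group G] [Finite G]

omit [Finite G] in
lemma card_fixed_quotient_mul (B : Subgroup G) (h : G) :
    Nat.card {q : G ⧸ B // h • q = q} * Nat.card B = Nat.card {x : G // x⁻¹ * h * x ∈ B} := by
  have hfix : ∀ x : G, h • (x : G ⧸ B) = x ↔ x⁻¹ * h * x ∈ B := by
    intro x
    rw [MulAction.Quotient.smul_coe, smul_eq_mul, QuotientGroup.eq]
    rw [show (h * x)⁻¹ * x = (x⁻¹ * h * x)⁻¹ by group]
    exact inv_mem_iff
  have e : {x : G // x⁻¹ * h * x ∈ B} ≃ B × {q : G ⧸ B | h • q = q} :=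
    (Equiv.subtypeEquivRight fun x => (hfix x).symm).trans
      (QuotientGroup.preimageMkEquivSubgroupProdSet B {q : G ⧸ B | h • q = q})
  rw [Nat.card_congr e, Nat.card_prod, mul_comm]
  rfl

variable (p : ℕ)

/-- The cyclic subgroups of order prime to `p`. -/
def IsCyclicPrime (B : Subgroup G) : Prop := IsCyclic B ∧ ¬ p ∣ Nat.card B

/-- Explicit Artin induction on elements of order prime to `p`. -/
theorem exists_artin_coeff :
    ∃ a : {B : Subgroup G // IsCyclicPrime p B} → ℤ, ∀ h : G, ¬ p ∣ orderOf h →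
      ∑ᶠ B, a B * Nat.card {q : G ⧸ B.1 // h • q = q} = Nat.card G := by
  classical
  have := Fintype.ofFinite G
  have := Fintype.ofFinite {B : Subgroup G // IsCyclicPrime p B}
  obtain ⟨c, hc⟩ := exists_upper_sum_eq_one {B : Subgroup G // IsCyclicPrime p B}
  refine ⟨fun B => c B * Nat.card B.1, fun h hh => ?_⟩
  rw [finsum_eq_sum_of_fintype]
  have step : ∀ x : G, ∑ B : {B : Subgroup G // IsCyclicPrime p B},
      (if x⁻¹ * h * x ∈ B.1 then c B else 0) = 1 := by
    intro x
    let D : {B : Subgroup G // IsCyclicPrime p B} :=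
      ⟨Subgroup.zpowers (x⁻¹ * h * x), Subgroup.isCyclic_zpowers _, by
        rw [Nat.card_zpowers]
        have : orderOf (x⁻¹ * h * x) = orderOf h := by
          have := orderOf_injective (MulAut.conj x⁻¹).toMonoidHom (MulAut.conj x⁻¹).injective h
          simpa [MulAut.conj_apply] using this
        rwa [this]⟩
    rw [← hc D, Finset.sum_filter]
    refine Finset.sum_congr rfl fun B _ => if_congr ?_ rfl rfl
    show _ ↔ Subgroup.zpowers (x⁻¹ * h * x) ≤ B.1
    rw [Subgroup.zpowers_le]
  calc ∑ B, c B * (Nat.card B.1 : ℤ) * Nat.card {q : G ⧸ B.1 // h • q = q}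
      = ∑ B : {B : Subgroup G // IsCyclicPrime p B},
          c B * Nat.card {x : G // x⁻¹ * h * x ∈ B.1} := by
        refine Finset.sum_congr rfl fun B _ => ?_
        rw [← card_fixed_quotient_mul, Nat.cast_mul]
        ring
    _ = ∑ B : {B : Subgroup G // IsCyclicPrime p B},
          ∑ x : G, if x⁻¹ * h * x ∈ B.1 then c B else 0 := by
        refine Finset.sum_congr rfl fun B _ => ?_
        rw [Finset.sum_ite, Finset.sum_const_zero, add_zero, Finset.sum_const, nsmul_eq_mul,
          Nat.card_eq_fintype_card, Fintype.card_subtype, mul_comm]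
    _ = Nat.card G := by
        rw [Finset.sum_comm]
        simp only [step]
        simp [Nat.card_eq_fintype_card]

end Identity

section Main

variable {p : ℕ} [Fact p.Prime] {G : Type} [Group G] [Finite G]

/-- **Artin induction** for additive invariants. -/
theorem eq_zero_of_permRep {f : FinRep (ZMod p) G → ℤ} (hf : IsExactAdditive f)
    (h : ∀ B : Subgroup G, IsCyclic B → ¬ p ∣ Nat.card B → ∀ R, f (permRep (G ⧸ B) R) = 0)
    (R : FinRep (ZMod p) G) : f R = 0 := by
  classical
  let T := {B : Subgroup G // IsCyclicPrime p B}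
  have : Fintype T := Fintype.ofFinite _
  obtain ⟨a, ha⟩ := exists_artin_coeff (G := G) p
  let P : T → ℕ := fun B => (a B).toNat
  let N : T → ℕ := fun B => (-a B).toNat
  obtain ⟨L, hL⟩ := exists_factorMultiset R
  choose LB hLB using fun B : T => exists_factorMultiset (permRep (G ⧸ B.1) R)
  -- the identity at elements of order prime to `p`
  have key : ∀ g : G, ¬ p ∣ orderOf g →
      R.cp g ^ Nat.card G * ∏ B : T, (permRep (G ⧸ B.1) R).cp g ^ N B =
        ∏ B : T, (permRep (G ⧸ B.1) R).cp g ^ P B := by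
    intro g hg
    let σ : ∀ B : T, Equiv.Perm (G ⧸ B.1) := fun B => MulAction.toPerm g
    let σp : Equiv.Perm (Σ i : (Σ B : T, Fin (P B)), G ⧸ i.1.1) :=
      Equiv.sigmaCongrRight fun i => σ i.1
    let σn : Equiv.Perm (Σ i : (Σ B : T, Fin (N B)), G ⧸ i.1.1) :=
      Equiv.sigmaCongrRight fun i => σ i.1
    let σ1 : Equiv.Perm (Σ _ : Fin (Nat.card G), Unit) :=
      Equiv.sigmaCongrRight fun _ => Equiv.refl Unit
    have hsig : ∀ {ι : Type} [Fintype ι] (X : ι → Type) [∀ i, Finite (X i)]
        (π : ∀ i, Equiv.Perm (X i)) (d : ℕ),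
        Nat.card {x : Σ i, X i // (Equiv.sigmaCongrRight π)^[d] x = x} =
          ∑ i, Nat.card {x : X i // (π i)^[d] x = x} := by
      intro ι _ X _ π d
      have hit : ∀ (i : ι) (x : X i),
          (Equiv.sigmaCongrRight π)^[d] ⟨i, x⟩ = ⟨i, (π i)^[d] x⟩ := by
        intro i x
        induction d with
        | zero => rfl
        | succ d ih => rw [Function.iterate_succ_apply', ih, Function.iterate_succ_apply']; rfl
      rw [← Nat.card_sigma]
      have key : ∀ (i : ι) (x : X i),
          (Equiv.sigmaCongrRight π)^[d] ⟨i, x⟩ = ⟨i, x⟩ ↔ (π i)^[d] x = x := fun i x => by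
        rw [hit]; simp
      exact Nat.card_congr
        { toFun := fun x => ⟨x.1.1, x.1.2, (key _ _).mp x.2⟩
          invFun := fun y => ⟨⟨y.1, y.2.1⟩, (key _ _).mpr y.2.2⟩
          left_inv := fun _ => rfl
          right_inv := fun _ => rfl }
    have hcount : ∀ d, 0 < d →
        Nat.card {x // (Equiv.sumCongr σ1 σn)^[d] x = x} = Nat.card {x // σp^[d] x = x} := by
      intro d hd
      have hgd : ¬ p ∣ orderOf (g ^ d) := fun hdv => hg (hdv.trans (orderOf_pow_dvd d))
      have hfix : ∀ B : T, Nat.card {x : G ⧸ B.1 // (σ B)^[d] x = x} =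
          Nat.card {x : G ⧸ B.1 // g ^ d • x = x} := by
        intro B
        refine Nat.card_congr (Equiv.subtypeEquivRight fun x => ?_)
        rw [show ⇑(σ B) = (g • ·) from rfl, smul_iterate]
      have hsum : Nat.card {x // (Equiv.sumCongr σ1 σn)^[d] x = x} =
          Nat.card {x // σ1^[d] x = x} + Nat.card {x // σn^[d] x = x} := by
        rw [← Nat.card_sum]
        refine Nat.card_congr ((Equiv.subtypeSum).trans (Equiv.sumCongr
          (Equiv.subtypeEquivRight fun x => by rw [iterate_sumCongr]; simp)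
          (Equiv.subtypeEquivRight fun x => by rw [iterate_sumCongr]; simp)))
      have h1 : Nat.card {x // σ1^[d] x = x} = Nat.card G := by
        rw [hsig]; simp
      rw [hsum, h1, hsig, hsig]
      have hid := ha (g ^ d) hgd
      rw [finsum_eq_sum_of_fintype] at hid
      have hN : ∑ i : (Σ B : T, Fin (N B)), Nat.card {x : G ⧸ i.1.1 // (σ i.1)^[d] x = x} =
          ∑ B : T, N B * Nat.card {x : G ⧸ B.1 // g ^ d • x = x} := by
        rw [Fintype.sum_sigma]; simp [hfix]
      have hP : ∑ i : (Σ B : T, Fin (P B)), Nat.card {x : G ⧸ i.1.1 // (σ i.1)^[d] x = x} =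
          ∑ B : T, P B * Nat.card {x : G ⧸ B.1 // g ^ d • x = x} := by
        rw [Fintype.sum_sigma]; simp [hfix]
      rw [hN, hP]
      zify
      rw [← hid, ← Finset.sum_add_distrib]
      refine Finset.sum_congr rfl fun B _ => ?_
      rw [← add_mul]
      congr 1
      simp only [N, P]
      omega
    obtain ⟨e, he⟩ := exists_conj_of_card_fixed_eq _ _ hcount
    have hcp := charpoly_twistEnd_conj _ _ e he (R.ρ g)
    rw [charpoly_twistEnd_sum, charpoly_twistEnd_sigma, charpoly_twistEnd_sigma,
      charpoly_twistEnd_sigma, Fintype.prod_sigma, Fintype.prod_sigma] at hcp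
    simp only [charpoly_twistEnd_unique, Finset.prod_const, Finset.card_univ, Fintype.card_fin,
      σ, ← cp_permRep] at hcp
    exact hcp
  have keyall : ∀ g : G, R.cp g ^ Nat.card G * ∏ B : T, (permRep (G ⧸ B.1) R).cp g ^ N B =
      ∏ B : T, (permRep (G ⧸ B.1) R).cp g ^ P B := by
    intro g
    obtain ⟨m, hm⟩ := exists_pow_p_not_dvd_orderOf (p := p) g
    simpa [cp_pow_p_pow] using key _ hm
  have hmulti : Nat.card G • L + ∑ B : T, N B • LB B = ∑ B : T, P B • LB B := by
    refine eq_of_prod_cp_eq fun g => ?_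
    have hsum : ∀ M : T → Multiset (SimpleClass (ZMod p) G),
        ((∑ B, M B).map (SimpleClass.cp · g)).prod =
          ∏ B, ((M B).map (SimpleClass.cp · g)).prod := by
      intro M
      induction (Finset.univ : Finset T) using Finset.induction_on with
      | empty => simp
      | insert B s hB ih =>
        rw [Finset.sum_insert hB, Multiset.map_add, Multiset.prod_add, ih, Finset.prod_insert hB]
    rw [Multiset.map_add, Multiset.prod_add, Multiset.map_nsmul, Multiset.prod_nsmul, hsum, hsum,
      ← hL.1]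
    simp only [Multiset.map_nsmul, Multiset.prod_nsmul, ← fun B => (hLB B).1 g]
    exact keyall g
  let val : Multiset (SimpleClass (ZMod p) G) →+ ℤ :=
    AddMonoidHom.mk' (fun s => (s.map (SimpleClass.value hf)).sum) (fun s t => by simp)
  have hval : ∀ B, val (LB B) = 0 := fun B => by
    show ((LB B).map _).sum = 0
    rw [← (hLB B).2 ℤ f hf]
    exact h B.1 B.2.1 B.2.2 R
  have := congrArg val hmulti
  simp only [map_add, map_nsmul, map_sum, hval, smul_zero, Finset.sum_const_zero, add_zero,
    nsmul_eq_mul] at this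
  rw [hL.2 ℤ f hf]
  exact (mul_eq_zero.mp this).resolve_left (by exact_mod_cast Nat.card_pos.ne')

/-- Additive invariants agreeing on induced modules agree. -/
theorem eq_of_permRep {f f' : FinRep (ZMod p) G → ℤ} (hf : IsExactAdditive f)
    (hf' : IsExactAdditive f')
    (h : ∀ B : Subgroup G, IsCyclic B → ¬ p ∣ Nat.card B →
      ∀ R, f (permRep (G ⧸ B) R) = f' (permRep (G ⧸ B) R))
    (R : FinRep (ZMod p) G) : f R = f' R := by
  have hd : IsExactAdditive fun S => f S - f' S := by
    intro A B C i π h1 h2 h3 h4 h5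
    simp only [hf A B C i π h1 h2 h3 h4 h5, hf' A B C i π h1 h2 h3 h4 h5]
    abel
  exact sub_eq_zero.mp (eq_zero_of_permRep hd (fun B h1 h2 S => sub_eq_zero.mpr (h B h1 h2 S)) R)

end Main

end FermatAgent.Duality.Euler
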