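import Fermat.Agent.Duality.Core.Conj
import Fermat.Agent.Duality.Core.Basic

/-!
# Conjugation on cohomology with trivial coefficients

For a normal subgroup `N` the conjugations `conjT1`, `conjT2` form an action of the ambient group
on `H¹(N, k)`, `H²(N, k)` in which `N` acts trivially. `cjT1`, `cjT2` are the transports between
two subgroups conjugated into one another.
-/

set_option autoImplicit false

namespace FermatAgent.Duality.Euler

open FermatAgent.Duality

noncomputable section

variable {k : Type*} [CommRing k] {G : Type*} [Group G] (L : LevelSystem G)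

section Between

/-- `n ↦ g⁻¹ n g` between two subgroups. -/
def cjHom {H H' : Subgroup G} (g : G) (h : ∀ n ∈ H, g⁻¹ * n * g ∈ H') : H →* H' where
  toFun n := ⟨g⁻¹ * n * g, h n n.2⟩
  map_one' := Subtype.ext (by simp)
  map_mul' a b := Subtype.ext (by simp [mul_assoc])

lemma coe_cjHom {H H' : Subgroup G} (g : G) (h : ∀ n ∈ H, g⁻¹ * n * g ∈ H') (n : H) :
    ((cjHom g h n : H') : G) = g⁻¹ * n * g := rfl

lemma isLevHom_cjHom {H H' : Subgroup G} (g : G) (h : ∀ n ∈ H, g⁻¹ * n * g ∈ H') :
    IsLevHom (L.comap H.subtype) (L.comap H'.subtype) (cjHom g h) := by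
  rintro _ ⟨U, hU, rfl⟩
  obtain ⟨V, hV, hle, hn⟩ := L.exists_normal hU
  exact ⟨_, ⟨V, hV, rfl⟩, fun n hn' => hle (by
    simpa [coe_cjHom] using hn.conj_mem _ hn' g⁻¹)⟩

variable {H H' : Subgroup G} (g : G) (h : ∀ n ∈ H, g⁻¹ * n * g ∈ H')

/-- Transport of classes of degree `1` along a conjugation. -/
def cjT1 : H1c (L.comap H'.subtype) (triv k H') →ₗ[k] H1c (L.comap H.subtype) (triv k H) :=
  map1 (φ := LinearMap.id) _ _ (isLevHom_cjHom L g h) (fun _ _ => rfl)

/-- Transport of classes of degree `2` along a conjugation. -/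
def cjT2 : H2c (L.comap H'.subtype) (triv k H') →ₗ[k] H2c (L.comap H.subtype) (triv k H) :=
  map2 (φ := LinearMap.id) _ _ (isLevHom_cjHom L g h) (fun _ _ => rfl)

end Between

section Natural

variable {H H' : Type*} [Group H] [Group H'] {LH : LevelSystem H} {LH' : LevelSystem H'}

/-- Cup products are natural. -/
theorem map2_cupTriv {f : H →* H'} (hf : IsLevHom LH LH' f)
    (x y : H1c LH' (triv k H')) :
    map2 (φ := LinearMap.id) _ (triv k H) hf (fun _ _ => rfl) (cupTriv k LH' x y) =
      cupTriv k LH (map1 (φ := LinearMap.id) (triv k H') (triv k H) hf (fun _ _ => rfl) x)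
        (map1 (φ := LinearMap.id) (triv k H') (triv k H) hf (fun _ _ => rfl) y) := by
  induction x using Submodule.Quotient.induction_on with
  | _ a =>
  induction y using Submodule.Quotient.induction_on with
  | _ b => rfl

/-- With trivial coefficients a class of degree `1` is its cocycle. -/
lemma cl1_triv_injective {LH : LevelSystem H} :
    Function.Injective (cl1 LH (triv k H)) := by
  refine (injective_iff_map_eq_zero _).2 fun f hf => ?_
  obtain ⟨m, hm⟩ := (cl1_eq_zero_iff _ _ f).1 hf
  refine Subtype.ext ?_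
  rw [← hm]
  funext g
  simp

end Natural

section Normal

variable (k) (N : Subgroup G) [N.Normal]

/-- The action of `g` on `H¹(N, k)`. -/
def conjT1 (g : G) : H1c (L.comap N.subtype) (triv k N) →ₗ[k] H1c (L.comap N.subtype) (triv k N) :=
  map1 (φ := LinearMap.id) _ _ (isLevHom_conjInv L N g) (fun _ _ => rfl)

/-- The action of `g` on `H²(N, k)`. -/
def conjT2 (g : G) : H2c (L.comap N.subtype) (triv k N) →ₗ[k] H2c (L.comap N.subtype) (triv k N) :=
  map2 (φ := LinearMap.id) _ _ (isLevHom_conjInv L N g) (fun _ _ => rfl)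

variable {N}

lemma conjT1_cl1_eq {g : G} {f f' : Z1 (L.comap N.subtype) (triv k N)}
    (h : ∀ n : N, f.1 (conjInv N g n) = f'.1 n) :
    conjT1 k L N g (cl1 (L.comap N.subtype) (triv k N) f) =
      cl1 (L.comap N.subtype) (triv k N) f' :=
  congrArg (fun z => cl1 (L.comap N.subtype) (triv k N) z) (Subtype.ext (funext h))

variable (N)

theorem conjT1_mul (g h : G) : conjT1 k L N (g * h) = conjT1 k L N g ∘ₗ conjT1 k L N h := by
  refine LinearMap.ext fun x => ?_
  induction x using Submodule.Quotient.induction_on with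
  | _ f =>
  refine conjT1_cl1_eq k L (N := N) fun n => ?_
  show f.1 _ = f.1 _
  exact congrArg f.1 (Subtype.ext (by simp [conjInv, mul_assoc]))

theorem conjT2_mul (g h : G) : conjT2 k L N (g * h) = conjT2 k L N g ∘ₗ conjT2 k L N h := by
  refine LinearMap.ext fun x => ?_
  induction x using Submodule.Quotient.induction_on with
  | _ f =>
  refine congrArg (fun z => cl2 (L.comap N.subtype) (triv k N) z) (Subtype.ext (funext fun q => ?_))
  show f.1 _ = f.1 _
  exact congrArg f.1 (Prod.ext (Subtype.ext (by simp [conjInv, mul_assoc]))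
    (Subtype.ext (by simp [conjInv, mul_assoc])))

variable {N}

theorem conjT1_of_mem {g : G} (hg : g ∈ N) : conjT1 k L N g = LinearMap.id := by
  refine LinearMap.ext fun x => ?_
  induction x using Submodule.Quotient.induction_on with
  | _ f =>
  refine conjT1_cl1_eq k L (N := N) fun n => ?_
  have hadd : ∀ a b : N, f.1 (a * b) = f.1 b + f.1 a := fun a b => f.2.2 a b
  have h0 : f.1 1 = 0 := by simpa using hadd 1 1
  have hn : conjInv N g n = (⟨g, hg⟩ : N)⁻¹ * n * ⟨g, hg⟩ := Subtype.ext rfl
  have hinv := hadd (⟨g, hg⟩ : N)⁻¹ ⟨g, hg⟩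
  rw [inv_mul_cancel, h0] at hinv
  rw [hn, hadd, hadd]
  linear_combination -hinv

theorem conjT2_of_mem {g : G} (hg : g ∈ N) : conjT2 k L N g = LinearMap.id := by
  refine LinearMap.ext fun x => ?_
  induction x using Submodule.Quotient.induction_on with
  | _ f =>
  refine sub_eq_zero.1 ((map_sub (cl2 _ _) _ _).symm.trans ((cl2_eq_zero_iff _ _ _).2 ?_))
  let n : N := ⟨g, hg⟩
  have hco : ∀ a b c : N, f.1 (a * b, c) + f.1 (a, b) = f.1 (b, c) + f.1 (a, b * c) :=
    fun a b c => f.2.2 a b c
  refine ⟨fun a => f.1 (n, n⁻¹ * a * n) - f.1 (a, n), ?_, funext fun q => ?_⟩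
  · obtain ⟨U, hU, hf⟩ := f.2.1
    obtain ⟨V, hV, hle, hnor⟩ := (L.comap N.subtype).exists_normal hU
    refine ⟨V, hV, fun a s hs => ?_⟩
    have e1 := hf n (n⁻¹ * a * n) 1 U.one_mem (n⁻¹ * s * n)
      (hle (by simpa using hnor.conj_mem s hs n⁻¹))
    have e2 := hf a n s (hle hs) 1 U.one_mem
    simp only [mul_one] at e1 e2
    show f.1 (n, n⁻¹ * (a * s) * n) - f.1 (a * s, n) = _
    rw [show n⁻¹ * (a * s) * n = n⁻¹ * a * n * (n⁻¹ * s * n) by group, e1, e2]
  · obtain ⟨a, b⟩ := q
    show _ = f.1 (conjInv N g a, conjInv N g b) - f.1 (a, b)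
    simp only [dd₁_apply, Representation.trivial_apply, show ∀ a : N,
      conjInv N g a = n⁻¹ * a * n from fun a => Subtype.ext rfl]
    have h1 := hco n (n⁻¹ * a * n) (n⁻¹ * b * n)
    have h2 := hco a n (n⁻¹ * b * n)
    have h3 := hco a b n
    rw [show n * (n⁻¹ * a * n) = a * n by group,
      show n⁻¹ * a * n * (n⁻¹ * b * n) = n⁻¹ * (a * b) * n by group] at h1
    rw [show n * (n⁻¹ * b * n) = b * n by group] at h2
    linear_combination h1 - h2 + h3

end Normal

end

end FermatAgent.Duality.Euler
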