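import Fermat.Agent.Duality.Euler.Invariants

/-!
# Characteristic polynomials in exact sequences and twists of representations
-/

set_option autoImplicit false

namespace FermatAgent.Duality.Euler

open Module Polynomial

variable {k : Type} [Field k] {G : Type} [Group G]

/-- Characteristic polynomials multiply in short exact sequences. -/
theorem cp_of_exact {R S T : FinRep k G} (i : R.V →ₗ[k] S.V) (π : S.V →ₗ[k] T.V)
    (hi : ∀ g v, i (R.ρ g v) = S.ρ g (i v)) (hπ : ∀ g v, π (S.ρ g v) = T.ρ g (π v))
    (hinj : Function.Injective i) (hsurj : Function.Surjective π)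
    (hexact : LinearMap.range i = LinearMap.ker π) (g : G) : S.cp g = R.cp g * T.cp g := by
  have hW : LinearMap.range i ≤ (LinearMap.range i).comap (S.ρ g) := by
    rintro _ ⟨v, rfl⟩
    exact ⟨R.ρ g v, hi g v⟩
  rw [FinRep.cp, charpoly_eq_mul_of_invariant _ (S.ρ g) hW]
  congr 1
  · rw [FinRep.cp, ← LinearEquiv.charpoly_conj (LinearEquiv.ofInjective i hinj) (R.ρ g)]
    congr 1
    refine LinearMap.ext fun w => Subtype.ext ?_
    obtain ⟨v, rfl⟩ := (LinearEquiv.ofInjective i hinj).surjective w
    rw [LinearEquiv.conj_apply_apply, LinearEquiv.symm_apply_apply]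
    exact (hi g v).symm
  · let e : (S.V ⧸ LinearMap.range i) ≃ₗ[k] T.V :=
      (Submodule.quotEquivOfEq _ _ hexact).trans (π.quotKerEquivOfSurjective hsurj)
    rw [FinRep.cp, ← LinearEquiv.charpoly_conj e]
    congr 1
    refine LinearMap.ext fun w => ?_
    obtain ⟨q, rfl⟩ := e.surjective w
    rw [LinearEquiv.conj_apply_apply, LinearEquiv.symm_apply_apply]
    induction q using Submodule.Quotient.induction_on with
    | _ v => exact hπ g v

/-- The twist of a representation by a character. -/
noncomputable def FinRep.tw (χ : G →* kˣ) (R : FinRep k G) : FinRep k G :=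
  ⟨R.V, { toFun := fun g => (χ g : k) • R.ρ g
          map_one' := by rw [map_one, map_one, Units.val_one, one_smul]
          map_mul' := fun g h => by
            rw [map_mul, map_mul, Units.val_mul, smul_mul_smul_comm] }⟩

/-- The characteristic polynomial of a multiple. -/
lemma charpoly_smul_of_ne_zero {V : Type} [AddCommGroup V] [Module k V] [FiniteDimensional k V]
    (f : V →ₗ[k] V) {c : k} (hc : c ≠ 0) :
    (c • f).charpoly = C (c ^ finrank k V) * f.charpoly.comp (C c⁻¹ * X) := by
  classical
  let b := Module.finBasis k V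
  rw [← LinearMap.charpoly_toMatrix (c • f) b, ← LinearMap.charpoly_toMatrix f b, map_smul]
  set M := LinearMap.toMatrix b b f
  let φ : k[X] →+* k[X] := compRingHom (C c⁻¹ * X)
  have h : Matrix.charmatrix (c • M) = C c • φ.mapMatrix (Matrix.charmatrix M) := by
    refine Matrix.ext fun i j => ?_
    simp only [φ, Matrix.charmatrix, Matrix.smul_apply, RingHom.mapMatrix_apply, Matrix.map_apply,
      Matrix.sub_apply, Matrix.scalar_apply, coe_compRingHom_apply, sub_comp, smul_eq_mul]
    by_cases hij : i = j
    · subst hij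
      rw [Matrix.diagonal_apply_eq, X_comp, C_comp, mul_sub, ← mul_assoc, ← C_mul, ← C_mul,
        mul_inv_cancel₀ hc, C_1, one_mul]
    · rw [Matrix.diagonal_apply_ne _ hij, zero_comp, C_comp, mul_sub, mul_zero, ← C_mul]
  rw [Matrix.charpoly, h, Matrix.det_smul, ← RingHom.map_det, Fintype.card_fin, ← C_pow]
  rfl

/-- Twisting respects equality of characteristic polynomials. -/
theorem cp_tw_congr (χ : G →* kˣ) {R S : FinRep k G} {g : G} (h : R.cp g = S.cp g) :
    (R.tw χ).cp g = (S.tw χ).cp g := by
  have hd : finrank k R.V = finrank k S.V := by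
    have h' := congrArg natDegree h
    simpa [FinRep.cp, LinearMap.charpoly_natDegree] using h'
  show ((χ g : k) • R.ρ g).charpoly = ((χ g : k) • S.ρ g).charpoly
  rw [charpoly_smul_of_ne_zero _ (χ g).ne_zero, charpoly_smul_of_ne_zero _ (χ g).ne_zero, hd]
  rw [FinRep.cp, FinRep.cp] at h
  rw [h]

end FermatAgent.Duality.Euler
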