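import Fermat.Agent.Duality.Euler.Artin

/-!
# Invariant homomorphisms as additive invariants

For a finite group `B` of invertible order and a representation `V`, the dimension of the space of
`B`-invariant maps `Vᵛ → W` is additive in `W`, hence determined by characteristic polynomials.
-/

set_option autoImplicit false

namespace FermatAgent.Duality.Euler

open Module Representation

variable {k : Type} [Field k] {G : Type} [Group G]

/-- The direct sum. -/
noncomputable def FinRep.prodRep (R S : FinRep k G) : FinRep k G :=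
  ⟨R.V × S.V, R.ρ.prod S.ρ⟩

lemma cp_prodRep (R S : FinRep k G) (g : G) : (R.prodRep S).cp g = R.cp g * S.cp g := by
  unfold FinRep.cp FinRep.prodRep
  rw [← LinearMap.charpoly_prodMap]
  rfl

lemma IsExactAdditive.map_prodRep {A : Type} [AddCommGroup A] {f : FinRep k G → A}
    (hf : IsExactAdditive f) (R S : FinRep k G) : f (R.prodRep S) = f R + f S :=
  hf R (R.prodRep S) S (LinearMap.inl k R.V S.V) (LinearMap.snd k R.V S.V)
    (fun g v => show ((R.ρ g v, (0 : S.V)) : R.V × S.V) = (R.ρ g v, S.ρ g 0) by rw [map_zero])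
    (fun _ _ => rfl) LinearMap.inl_injective LinearMap.snd_surjective
    (LinearMap.range_inl k R.V S.V)

/-- The one-dimensional representation of a character. -/
noncomputable def charRep (χ : G →* kˣ) : FinRep k G :=
  ⟨k, { toFun := fun g => (χ g : k) • LinearMap.id
        map_one' := by simp; rfl
        map_mul' := fun g h => by ext; simp [mul_comm] }⟩

/-- Restriction to a subgroup. -/
noncomputable def FinRep.res (R : FinRep k G) (B : Subgroup G) : FinRep k B :=
  ⟨R.V, R.ρ.comp B.subtype⟩

@[simp]
lemma cp_res (R : FinRep k G) (B : Subgroup G) (b : B) : (R.res B).cp b = R.cp (b : G) := rfl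

section HomInv

variable (B : Type) [Group B] [Finite B] (V : FinRep k B)

/-- The dimension of the invariant maps from the dual of `V`. -/
noncomputable def homInv (W : FinRep k B) : ℤ :=
  finrank k (linHom (dual V.ρ) W.ρ).invariants

variable {B}

omit [Finite B] in
lemma linHom_comp {W W' : FinRep k B} (h : W.V →ₗ[k] W'.V)
    (hh : ∀ g v, h (W.ρ g v) = W'.ρ g (h v)) (b : B) (T : Dual k V.V →ₗ[k] W.V) :
    linHom (dual V.ρ) W'.ρ b (h ∘ₗ T) = h ∘ₗ linHom (dual V.ρ) W.ρ b T := by
  ext l
  simp [linHom_apply, hh]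

variable (B)

/-- Postcomposition on invariant maps. -/
noncomputable def homInvMap {W W' : FinRep k B} (h : W.V →ₗ[k] W'.V)
    (hh : ∀ g v, h (W.ρ g v) = W'.ρ g (h v)) :
    (linHom (dual V.ρ) W.ρ).invariants →ₗ[k] (linHom (dual V.ρ) W'.ρ).invariants where
  toFun T := ⟨h ∘ₗ T.1, fun b => by rw [linHom_comp V h hh b, T.2 b]⟩
  map_add' S T := Subtype.ext (LinearMap.comp_add _ _ _)
  map_smul' r T := Subtype.ext (LinearMap.comp_smul _ _ _)

theorem isExactAdditive_homInv (hB : (Nat.card B : k) ≠ 0) : IsExactAdditive (homInv B V) := by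
  intro R S T i π hi hπ hinj hsurj hexact
  have := Fintype.ofFinite B
  have : Invertible (Fintype.card B : k) :=
    invertibleOfNonzero (by rwa [← Nat.card_eq_fintype_card])
  have hsurj' : Function.Surjective (homInvMap B V π hπ) := by
    intro U
    obtain ⟨s, hs⟩ := π.exists_rightInverse_of_surjective (LinearMap.range_eq_top.mpr hsurj)
    refine ⟨⟨averageMap _ (s ∘ₗ U.1), averageMap_invariant _ _⟩, Subtype.ext ?_⟩
    show π ∘ₗ averageMap (linHom (dual V.ρ) S.ρ) (s ∘ₗ U.1) = U.1
    have hcomp : π ∘ₗ averageMap (linHom (dual V.ρ) S.ρ) (s ∘ₗ U.1) =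
        averageMap (linHom (dual V.ρ) T.ρ) (π ∘ₗ (s ∘ₗ U.1)) := by
      refine LinearMap.ext fun l => ?_
      simp [averageMap, GroupAlgebra.average, map_sum, LinearMap.sum_apply, linHom_apply, hπ]
    rw [hcomp, ← LinearMap.comp_assoc, hs, LinearMap.id_comp, averageMap_id _ _ U.2]
  have hker : LinearMap.ker (homInvMap B V π hπ) = LinearMap.range (homInvMap B V i hi) := by
    refine le_antisymm ?_ ?_
    · intro U hU
      have hU' : π ∘ₗ U.1 = 0 := congrArg Subtype.val (LinearMap.mem_ker.mp hU)
      have hr : ∀ l, U.1 l ∈ LinearMap.range i := fun l => by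
        rw [hexact, LinearMap.mem_ker]
        exact LinearMap.congr_fun hU' l
      obtain ⟨U', hU'⟩ : ∃ U' : Dual k V.V →ₗ[k] R.V, i ∘ₗ U' = U.1 :=
        ⟨(LinearEquiv.ofInjective i hinj).symm.toLinearMap ∘ₗ U.1.codRestrict _ hr, by
          refine LinearMap.ext fun l => ?_
          exact congrArg Subtype.val ((LinearEquiv.ofInjective i hinj).apply_symm_apply ⟨_, hr l⟩)⟩
      refine ⟨⟨U', fun b => ?_⟩, Subtype.ext hU'⟩
      refine LinearMap.ext fun l => hinj ?_
      have h1 := linHom_comp V i hi b U'
      rw [hU', U.2 b] at h1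
      exact LinearMap.congr_fun h1.symm l |>.trans (LinearMap.congr_fun hU' l).symm
    · rintro _ ⟨U, rfl⟩
      rw [LinearMap.mem_ker]
      refine Subtype.ext (LinearMap.ext fun l => ?_)
      show π (i (U.1 l)) = 0
      rw [← LinearMap.mem_ker, ← hexact]
      exact ⟨_, rfl⟩
  have h1 := (homInvMap B V π hπ).finrank_range_add_finrank_ker
  rw [LinearMap.range_eq_top.mpr hsurj', finrank_top, hker, LinearMap.finrank_range_of_inj] at h1
  · simp only [homInv]
    omega
  · intro U U' h
    refine Subtype.ext (LinearMap.ext fun l => hinj ?_)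
    exact LinearMap.congr_fun (congrArg Subtype.val h) l

end HomInv

end FermatAgent.Duality.Euler
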