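import Mathlib

/-!
# Characteristic polynomials of endomorphisms of a lattice

An endomorphism of a lattice, its reduction modulo `p` and its real extension have the same
characteristic polynomial.
-/

set_option autoImplicit false

namespace FermatAgent.Duality.Euler

open Module Polynomial

variable {Λ : Type*} [AddCommGroup Λ] [Module.Free ℤ Λ] [Module.Finite ℤ Λ]

/-- An injective intertwining map sending a lattice basis to a basis computes the characteristic
polynomial. -/
theorem charpoly_eq_map_of_basis {R : Type*} [CommRing R] [Nontrivial R] {V : Type*}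
    [AddCommGroup V] [Module R V] [Module.Free R V] [Module.Finite R V] {n : Type*} [Fintype n]
    [DecidableEq n] (b : Basis n ℤ Λ) (c : Basis n R V) (Φ : Λ →+ V) (hb : ∀ i, Φ (b i) = c i)
    (f : Λ →ₗ[ℤ] Λ) (F : V →ₗ[R] V) (h : ∀ x, F (Φ x) = Φ (f x)) :
    F.charpoly = f.charpoly.map (Int.castRingHom R) := by
  rw [← LinearMap.charpoly_toMatrix F c, ← LinearMap.charpoly_toMatrix f b, ← Matrix.charpoly_map]
  congr 1
  ext i j
  have hΦ : ∀ x, Φ x = ∑ i, ((b.repr x i : ℤ) : R) • c i := fun x => by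
    conv_lhs => rw [← b.sum_repr x]
    rw [map_sum]
    refine Finset.sum_congr rfl fun i _ => ?_
    rw [map_zsmul, hb, Int.cast_smul_eq_zsmul]
  rw [LinearMap.toMatrix_apply, ← hb, h, hΦ, c.repr_sum_self, Matrix.map_apply,
    LinearMap.toMatrix_apply]
  rfl

/-- Reduction modulo `p`. -/
theorem charpoly_mod_prime {p : ℕ} [Fact p.Prime] {T : Type*} [AddCommGroup T] [Module (ZMod p) T]
    [Module.Finite (ZMod p) T] (π : Λ →+ T) (hs : Function.Surjective π)
    (hk : ∀ x, π x = 0 ↔ ∃ y, (p : ℤ) • y = x) (f : Λ →ₗ[ℤ] Λ) (F : T →ₗ[ZMod p] T)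
    (h : ∀ x, F (π x) = π (f x)) :
    F.charpoly = f.charpoly.map (Int.castRingHom (ZMod p)) := by
  classical
  let b := Free.chooseBasis ℤ Λ
  have hlin : LinearIndependent (ZMod p) fun i => π (b i) := by
    rw [Fintype.linearIndependent_iff]
    intro g hg i
    have h0 : π (∑ i, ((g i).val : ℤ) • b i) = 0 := by
      rw [map_sum, ← hg]
      refine Finset.sum_congr rfl fun i _ => ?_
      rw [map_zsmul, ← Int.cast_smul_eq_zsmul (ZMod p)]
      simp
    obtain ⟨y, hy⟩ := (hk _).1 h0
    have := congrArg (fun z => b.repr z i) hy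
    simp only [map_smul, Finsupp.smul_apply, b.repr_sum_self, smul_eq_mul] at this
    rw [← ZMod.natCast_zmod_val (g i), ← Int.cast_natCast, ← this]
    simp
  have hspan : ⊤ ≤ Submodule.span (ZMod p) (Set.range fun i => π (b i)) := by
    intro t _
    obtain ⟨x, rfl⟩ := hs t
    rw [← b.sum_repr x, map_sum]
    refine Submodule.sum_mem _ fun i _ => ?_
    rw [map_zsmul, ← Int.cast_smul_eq_zsmul (ZMod p)]
    exact Submodule.smul_mem _ _ (Submodule.subset_span ⟨i, rfl⟩)
  exact charpoly_eq_map_of_basis b (Basis.mk hlin hspan) π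
    (fun i => (Basis.mk_apply hlin hspan i).symm) f F h

/-- Real extension. -/
theorem charpoly_real {V : Type*} [AddCommGroup V] [Module ℝ V] [Module.Finite ℝ V] (Φ : Λ →+ V)
    (hspan : Submodule.span ℝ (Set.range Φ) = ⊤) (hrank : finrank ℤ Λ = finrank ℝ V)
    (f : Λ →ₗ[ℤ] Λ) (F : V →ₗ[ℝ] V) (h : ∀ x, F (Φ x) = Φ (f x)) :
    F.charpoly = f.charpoly.map (Int.castRingHom ℝ) := by
  classical
  let b := Free.chooseBasis ℤ Λ
  have hs : ⊤ ≤ Submodule.span ℝ (Set.range fun i => Φ (b i)) := by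
    rw [← hspan, Submodule.span_le]
    rintro _ ⟨x, rfl⟩
    rw [← b.sum_repr x, map_sum]
    refine Submodule.sum_mem _ fun i _ => ?_
    rw [map_zsmul, ← Int.cast_smul_eq_zsmul ℝ]
    exact Submodule.smul_mem _ _ (Submodule.subset_span ⟨i, rfl⟩)
  have hcard : Fintype.card (Free.ChooseBasisIndex ℤ Λ) = finrank ℝ V := by
    rw [← finrank_eq_card_chooseBasisIndex, hrank]
  let c := basisOfTopLeSpanOfCardEqFinrank (fun i => Φ (b i)) hs hcard
  exact charpoly_eq_map_of_basis b c Φ
    (fun i => by rw [coe_basisOfTopLeSpanOfCardEqFinrank]) f F h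

end FermatAgent.Duality.Euler
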