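import Fermat.Agent.Duality.Euler.SUnit
import Fermat.Agent.Duality.Euler.Lattice
import Fermat.Agent.Duality.Euler.Invariants

/-!
# The logarithmic lattice of the `S`-units

The logarithms at the infinite places and the orders at the places over `S`, together with the
constants on the infinite places, make the `S`-units a lattice in the functions on all these
places, on which `Gal(L)` acts by permutations.
-/

set_option autoImplicit false

open scoped Pointwise

namespace FermatAgent.Duality.Euler

open FermatAgent.Duality IsDedekindDomain NumberField Module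

noncomputable section

local notation "Qb" => AlgebraicClosure ℚ
local notation "GQ" => AlgebraicClosure ℚ ≃ₐ[ℚ] AlgebraicClosure ℚ

attribute [local instance] FermatAgent.RT.isGalois_algClosureRat Global.numberField_of_finite

section Perm

variable {X : Type} [Finite X]

/-- The permutation polynomial. -/
def permCharpoly (σ : Equiv.Perm X) : Polynomial ℤ :=
  (twistEnd σ (LinearMap.id : ℤ →ₗ[ℤ] ℤ)).charpoly

/-- The characteristic polynomial of a permutation does not depend on the coefficients. -/
theorem charpoly_twistEnd_id {R : Type*} [CommRing R] [Nontrivial R] (σ : Equiv.Perm X) :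
    (twistEnd σ (LinearMap.id : R →ₗ[R] R)).charpoly =
      (permCharpoly σ).map (Int.castRingHom R) := by
  classical
  have := Fintype.ofFinite X
  refine charpoly_eq_map_of_basis (Pi.basisFun ℤ X) (Pi.basisFun R X)
    (AddMonoidHom.mk' (fun φ x => ((φ x : ℤ) : R)) fun φ ψ => funext fun x => by simp)
    (fun i => funext fun x => by simp [Pi.single_apply]) _ _ fun φ => funext fun x => by
      simp [twistEnd]

end Perm

variable {L : IntermediateField ℚ Qb} [FiniteDimensional ℚ L] [L.fixingSubgroup.Normal]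
  {S : Finset Nat.Primes} (P : PlaceSystem L S)

/-- `Gal(L)` permutes the infinite places. -/
instance infAction : MulAction (GalL L) (InfinitePlace L) :=
  MulAction.compHom (InfinitePlace L) (galAut L)

omit [FiniteDimensional ℚ L] in
lemma infAction_apply (x : GalL L) (w : InfinitePlace L) (y : L) :
    (x • w) (galAut L x y) = w y := by
  show (galAut L x • w) (galAut L x y) = w y
  rw [InfinitePlace.smul_apply, AlgEquiv.symm_apply_apply]

/-- All the places: the infinite ones and those over `S`. -/
abbrev AllPlaces : Type := InfinitePlace L ⊕ P.ι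

/-- The permutation of all the places. -/
def allPerm (x : GalL L) : Equiv.Perm (AllPlaces P) :=
  Equiv.sumCongr (MulAction.toPerm x) (MulAction.toPerm x)

/-- Logarithms, orders and constants. -/
def logS : Additive (sUnitsL L S) × ℤ →ₗ[ℤ] (AllPlaces P → ℝ) :=
  (AddMonoidHom.mk'
    (fun un => Sum.elim
      (fun w => Real.log (w (((un.1.toMul : sUnitsL L S) : Lˣ) : L)) + (un.2 : ℝ))
      fun i => (ordS P un.1 i : ℝ))
    fun a b => funext fun z => by
      cases z with
      | inl w =>
        simp only [Sum.elim_inl, Prod.fst_add, Prod.snd_add, toMul_add, Subgroup.coe_mul,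
          Units.val_mul, map_mul, Pi.add_apply]
        rw [Real.log_mul (by simp) (by simp)]
        push_cast
        ring
      | inr i => simp [map_add]).toIntLinearMap

omit [L.fixingSubgroup.Normal] in
lemma logS_inl (u : Additive (sUnitsL L S)) (n : ℤ) (w : InfinitePlace L) :
    logS P (u, n) (Sum.inl w) =
      Real.log (w (((u.toMul : sUnitsL L S) : Lˣ) : L)) + (n : ℝ) := rfl

omit [L.fixingSubgroup.Normal] in
lemma logS_inr (u : Additive (sUnitsL L S)) (n : ℤ) (i : P.ι) :
    logS P (u, n) (Sum.inr i) = (ordS P u i : ℝ) := rfl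

/-- The Galois action on units and constants. -/
def addE' (x : GalL L) : Additive (sUnitsL L S) × ℤ →ₗ[ℤ] Additive (sUnitsL L S) × ℤ :=
  (addE x).prodMap LinearMap.id

theorem logS_addE' (x : GalL L) (v : Additive (sUnitsL L S) × ℤ) :
    logS P (addE' x v) = twistEnd (allPerm P x) (LinearMap.id : ℝ →ₗ[ℝ] ℝ) (logS P v) := by
  obtain ⟨u, n⟩ := v
  funext z
  obtain ⟨z, rfl⟩ := (allPerm P x).surjective z
  show _ = logS P (u, n) ((allPerm P x).symm (allPerm P x z))
  rw [Equiv.symm_apply_apply]
  cases z with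
  | inl w =>
    show Real.log ((x • w) (galAut L x (((u.toMul : sUnitsL L S) : Lˣ) : L))) + (n : ℝ) = _
    rw [infAction_apply]
    rfl
  | inr i =>
    show (ordS P (addE x u) (x • i) : ℝ) = _
    rw [ordS_addE]
    rfl

/-- A unit of the ring of integers as an `S`-unit. -/
def unitToE : (𝓞 L)ˣ →* sUnitsL L S :=
  (MulEquiv.subgroupCongr (sUnitsL_eq P)).symm.toMonoidHom.comp Global.unitsToT

omit [L.fixingSubgroup.Normal] in
lemma coe_unitToE (ε : (𝓞 L)ˣ) :
    (((unitToE P ε : sUnitsL L S) : Lˣ) : L) = ((ε : 𝓞 L) : L) := rfl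

omit [L.fixingSubgroup.Normal] in
lemma ordS_unitToE (ε : (𝓞 L)ˣ) : ordS P (Additive.ofMul (unitToE P ε)) = 0 :=
  funext fun i => (Global.unitsToT (T := ∅) ε).2 (primeOf P i) (Finset.notMem_empty _)

omit [L.fixingSubgroup.Normal] in
lemma exists_unitToE_of_ordS_eq_zero {u : Additive (sUnitsL L S)} (h : ordS P u = 0) :
    ∃ ε, Additive.ofMul (unitToE P ε) = u := by
  obtain ⟨ε, hε⟩ := Global.mem_range_unitsToT
    (x := MulEquiv.subgroupCongr (sUnitsL_eq P) u.toMul) fun v => by
      by_cases hv : v ∈ primesOverS P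
      · obtain ⟨i, -, rfl⟩ := Finset.mem_map.1 hv
        exact congrFun h i
      · exact ((sUnitsL_eq P).le u.toMul.2) v hv
  refine ⟨ε, ?_⟩
  show Additive.ofMul ((MulEquiv.subgroupCongr (sUnitsL_eq P)).symm (Global.unitsToT ε)) = u
  rw [hε, MulEquiv.symm_apply_apply, ofMul_toMul]

omit [L.fixingSubgroup.Normal] in
lemma sum_log_unit (hc : InfinitePlace.nrRealPlaces L = 0) (ε : (𝓞 L)ˣ) :
    ∑ w : InfinitePlace L, Real.log (w ((ε : 𝓞 L) : L)) = 0 := by
  classical
  have h := Units.sum_mult_mul_log ε
  have hm : ∀ w : InfinitePlace L, (w.mult : ℝ) = 2 := fun w => by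
    rw [InfinitePlace.mult, if_neg]
    · norm_num
    · intro hw
      have : 0 < InfinitePlace.nrRealPlaces L := Fintype.card_pos_iff.2 ⟨⟨w, hw⟩⟩
      omega
  simp only [hm, ← Finset.mul_sum] at h
  linarith

variable (hc : InfinitePlace.nrRealPlaces L = 0)

omit [L.fixingSubgroup.Normal] in
include hc in
/-- The kernel of `logS` consists of roots of unity. -/
theorem logS_eq_zero {v : Additive (sUnitsL L S) × ℤ} (h : logS P v = 0) :
    v.2 = 0 ∧ ∃ ε ∈ Units.torsion L, Additive.ofMul (unitToE P ε) = v.1 := by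
  obtain ⟨u, n⟩ := v
  obtain ⟨ε, rfl⟩ := exists_unitToE_of_ordS_eq_zero P (u := u) (funext fun i => by
    have := congrFun h (Sum.inr i)
    rw [logS_inr, Pi.zero_apply, Int.cast_eq_zero] at this
    exact this)
  have hw : ∀ w : InfinitePlace L, Real.log (w ((ε : 𝓞 L) : L)) + (n : ℝ) = 0 := fun w =>
    congrFun h (Sum.inl w)
  have hn : n = 0 := by
    have hs := Finset.sum_eq_zero (s := Finset.univ) fun w _ => hw w
    rw [Finset.sum_add_distrib, sum_log_unit hc, Finset.sum_const, zero_add, nsmul_eq_mul,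
      mul_eq_zero] at hs
    rcases hs with hs | hs
    · have : 0 < (Finset.univ : Finset (InfinitePlace L)).card := Finset.univ_nonempty.card_pos
      rw [Nat.cast_eq_zero] at hs
      omega
    · exact_mod_cast hs
  refine ⟨hn, ε, ?_, rfl⟩
  rw [Units.mem_torsion]
  intro w
  have h1 := hw w
  rw [hn, Int.cast_zero, add_zero] at h1
  have hpos : 0 < w ((ε : 𝓞 L) : L) := InfinitePlace.pos_iff.2 (by simp)
  rcases Real.log_eq_zero.1 h1 with h2 | h2 | h2
  · exact absurd h2 hpos.ne'
  · exact h2
  · linarith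

omit [L.fixingSubgroup.Normal] in
include hc in
lemma isOfFinAddOrder_of_logS_eq_zero {v : Additive (sUnitsL L S) × ℤ} (h : logS P v = 0) :
    IsOfFinAddOrder v := by
  obtain ⟨hn, ε, hε, he⟩ := logS_eq_zero P hc h
  rw [isOfFinAddOrder_iff_nsmul_eq_zero]
  obtain ⟨k, hk, hk'⟩ := isOfFinOrder_iff_pow_eq_one.1 ((CommGroup.mem_torsion ε).1 hε)
  refine ⟨k, hk, Prod.ext ?_ ?_⟩
  · show k • v.1 = 0
    rw [← he, ← ofMul_pow, ← map_pow, hk', map_one, ofMul_one]
  · show k • v.2 = 0
    rw [hn, smul_zero]

omit [L.fixingSubgroup.Normal] in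
lemma finite_sUnitsL (P : PlaceSystem L S) : Module.Finite ℤ (Additive (sUnitsL L S)) := by
  have := Global.finite_tUnits (T := primesOverS P)
  exact Module.Finite.equiv
    (MulEquiv.toAdditive (MulEquiv.subgroupCongr (sUnitsL_eq P)).symm).toIntLinearEquiv

lemma finrank_prod_int (E : Type*) [AddCommGroup E] [Module.Finite ℤ E] :
    finrank ℤ (E × ℤ) = finrank ℤ E + 1 := by
  have h := Submodule.finrank_quotient_add_finrank (LinearMap.ker (LinearMap.snd ℤ E ℤ))
  rw [((LinearMap.snd ℤ E ℤ).quotKerEquivOfSurjective LinearMap.snd_surjective).finrank_eq,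
    LinearMap.ker_snd, LinearMap.finrank_range_of_inj LinearMap.inl_injective,
    Module.finrank_self] at h
  omega

omit [L.fixingSubgroup.Normal] in
include hc in
theorem finrank_range_logS :
    finrank ℤ (LinearMap.range (logS P)) = Fintype.card (AllPlaces P) := by
  have := finite_sUnitsL P
  rw [FermatAgent.CFT.finrank_eq_of_ker_torsion (logS P) fun x hx =>
    isOfFinAddOrder_of_logS_eq_zero P hc hx, finrank_prod_int,
    ← (MulEquiv.toAdditive (MulEquiv.subgroupCongr (sUnitsL_eq P)).symm).toIntLinearEquiv.finrank_eq,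
    Global.finrank_tUnits, card_primesOverS, Units.rank, Fintype.card_sum]
  have : 0 < Fintype.card (InfinitePlace L) := Fintype.card_pos
  omega

omit [L.fixingSubgroup.Normal] in
include hc in
theorem span_range_logS : Submodule.span ℝ (Set.range (logS P)) = ⊤ := by
  classical
  set M := Submodule.span ℝ (Set.range (logS P))
  let one' : AllPlaces P → ℝ := Sum.elim (fun _ => 1) fun _ => 0
  have hone : one' ∈ M := Submodule.subset_span ⟨(0, 1), funext fun z => by
    cases z <;> simp [one', logS_inl, logS_inr]⟩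
  -- the functions on the infinite places
  let ext0 : (InfinitePlace L → ℝ) →ₗ[ℝ] (AllPlaces P → ℝ) :=
    { toFun := fun f => Sum.elim f fun _ => 0
      map_add' := fun f g => funext fun z => by cases z <;> simp
      map_smul' := fun r f => funext fun z => by cases z <;> simp }
  let res : (InfinitePlace L → ℝ) →ₗ[ℝ] Units.dirichletUnitTheorem.logSpace L :=
    LinearMap.pi fun w => (w.1.mult : ℝ) • LinearMap.proj w.1
  let Hyp : Submodule ℝ (InfinitePlace L → ℝ) :=
    LinearMap.ker (∑ w : InfinitePlace L, LinearMap.proj w : (InfinitePlace L → ℝ) →ₗ[ℝ] ℝ)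
  let N : Submodule ℝ (InfinitePlace L → ℝ) := M.comap ext0 ⊓ Hyp
  have hlog : ∀ ε : (𝓞 L)ˣ, (fun w : InfinitePlace L => Real.log (w ((ε : 𝓞 L) : L))) ∈ N :=
    fun ε => ⟨Submodule.subset_span ⟨(Additive.ofMul (unitToE P ε), 0), funext fun z => by
      cases z with
      | inl w => simp [ext0, logS_inl, coe_unitToE]
      | inr i => simp [ext0, logS_inr, ordS_unitToE]⟩, by
      simpa [Hyp, LinearMap.sum_apply] using sum_log_unit hc ε⟩
  have hN : N.map res = ⊤ := by
    rw [eq_top_iff, ← Units.dirichletUnitTheorem.unitLattice_span_eq_top, Submodule.span_le]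
    rintro _ ⟨ε, -, rfl⟩
    exact ⟨_, hlog ε.toMul, funext fun w => rfl⟩
  have hinf : ∀ f, ext0 f ∈ M := by
    intro f
    let c : ℝ := (∑ w, f w) / Fintype.card (InfinitePlace L)
    let g : InfinitePlace L → ℝ := fun w => f w - c
    obtain ⟨g', ⟨hg'M, hg'H⟩, hg'⟩ : res g ∈ N.map res := hN ▸ Submodule.mem_top
    have hsum : ∑ w, g w = 0 := by
      simp only [g, Finset.sum_sub_distrib, Finset.sum_const, Finset.card_univ, nsmul_eq_mul, c]
      rw [mul_div_cancel₀ _ (Nat.cast_ne_zero.2 Fintype.card_pos.ne'), sub_self]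
    have hg'sum : ∑ w, g' w = 0 := by simpa [Hyp, LinearMap.sum_apply] using hg'H
    have hne : ∀ w, w ≠ Units.dirichletUnitTheorem.w₀ → g' w = g w := fun w hw => by
      have := congrFun hg' ⟨w, hw⟩
      simpa [res, InfinitePlace.mult_coe_ne_zero] using this
    have heq : g' = g := funext fun w => by
      by_cases hw : w = Units.dirichletUnitTheorem.w₀
      · subst hw
        rw [Fintype.sum_eq_add_sum_subtype_ne _ Units.dirichletUnitTheorem.w₀] at hsum hg'sum
        rw [Finset.sum_congr rfl fun w _ => hne w.1 w.2] at hg'sum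
        linarith
      · exact hne w hw
    subst heq
    have e : ext0 f = ext0 g + c • one' := funext fun z => by
      cases z <;> simp [ext0, one', g]
    rw [e]
    exact M.add_mem hg'M (M.smul_mem c hone)
  -- the functions on the places over `S`
  have hfin : ∀ i, (Pi.single (Sum.inr i) 1 : AllPlaces P → ℝ) ∈ M := by
    intro i
    obtain ⟨x, hx, hx'⟩ := Global.exists_tUnit_ord (T := primesOverS P) (primeOf P i)
      (primeOf_mem P i)
    let u := Additive.ofMul ((MulEquiv.subgroupCongr (sUnitsL_eq P)).symm x)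
    have hu : ∀ j, ordS P u j = if j = i then (classNumber L : ℤ) else 0 := fun j => by
      split_ifs with hj
      · subst hj; exact hx
      · exact hx' _ fun e => hj (primeOf_injective P e)
    have h1 := M.sub_mem (Submodule.subset_span (Set.mem_range_self (u, (0 : ℤ))))
      (hinf fun w => logS P (u, 0) (Sum.inl w))
    have hcl : ((classNumber L : ℤ) : ℝ) ≠ 0 := by
      rw [Int.cast_natCast, Nat.cast_ne_zero, classNumber]
      exact Fintype.card_pos.ne'
    have e : (Pi.single (Sum.inr i) 1 : AllPlaces P → ℝ) = ((classNumber L : ℤ) : ℝ)⁻¹ •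
        (logS P (u, 0) - ext0 fun w => logS P (u, 0) (Sum.inl w)) := funext fun z => by
      cases z with
      | inl w => simp [ext0]
      | inr j =>
        simp only [Pi.smul_apply, Pi.sub_apply, logS_inr, hu, smul_eq_mul, ext0,
          LinearMap.coe_mk, AddHom.coe_mk, Sum.elim_inr, sub_zero, Pi.single_apply, Sum.inr.injEq]
        split_ifs with h
        · rw [inv_mul_cancel₀ hcl]
        · simp
    rw [e]
    exact M.smul_mem _ h1
  refine eq_top_iff.2 fun f _ => ?_
  have e : f = ext0 (fun w => f (Sum.inl w)) + ∑ i, f (Sum.inr i) • Pi.single (Sum.inr i) 1 :=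
    funext fun z => by cases z <;> simp [ext0, Finset.sum_apply, Pi.single_apply]
  rw [e]
  exact M.add_mem (hinf _) (M.sum_mem fun i _ => M.smul_mem _ (hfin i))

include hc in
/-- A homomorphism on units and constants which kills the roots of unity and has kernel the
multiples of `p` modulo them has the permutation of all places as characteristic polynomial. -/
theorem charpoly_reduction {p : ℕ} [Fact p.Prime] {T : Type*} [AddCommGroup T] [Module (ZMod p) T]
    [Module.Finite (ZMod p) T] (π : Additive (sUnitsL L S) × ℤ →ₗ[ℤ] T)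
    (hs : Function.Surjective π) (h0 : ∀ v, logS P v = 0 → π v = 0)
    (hk : ∀ v, π v = 0 → ∃ v' v₀, logS P v₀ = 0 ∧ v = (p : ℤ) • v' + v₀) (x : GalL L)
    (F : T →ₗ[ZMod p] T) (hF : ∀ v, F (π v) = π (addE' x v)) :
    F.charpoly = (permCharpoly (allPerm P x)).map (Int.castRingHom (ZMod p)) := by
  classical
  have := finite_sUnitsL P
  set lg := logS P
  let Λ := LinearMap.range lg
  have : IsTorsionFree ℤ Λ := inferInstance
  have : Module.Finite ℤ Λ := Module.Finite.range lg
  have : Module.Free ℤ Λ := Module.free_of_finite_type_torsion_free'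
  let FR : (AllPlaces P → ℝ) →ₗ[ℝ] (AllPlaces P → ℝ) := twistEnd (allPerm P x) LinearMap.id
  have hstab : ∀ y ∈ Λ, FR y ∈ Λ := by
    rintro _ ⟨v, rfl⟩
    exact ⟨addE' x v, logS_addE' P x v⟩
  let f : Λ →ₗ[ℤ] Λ := (FR.restrictScalars ℤ).restrict hstab
  have hreal : FR.charpoly = f.charpoly.map (Int.castRingHom ℝ) := by
    refine charpoly_real Λ.subtype.toAddMonoidHom ?_ ?_ f FR fun y => rfl
    · rw [show Set.range Λ.subtype.toAddMonoidHom = Set.range lg from
        Subtype.range_coe.trans (LinearMap.coe_range lg)]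
      exact span_range_logS P hc
    · rw [finrank_range_logS P hc, Module.finrank_fintype_fun_eq_card]
  have hf : f.charpoly = permCharpoly (allPerm P x) := by
    refine Polynomial.map_injective (Int.castRingHom ℝ) Int.cast_injective ?_
    rw [← hreal, charpoly_twistEnd_id]
  -- the reduction factors through the lattice
  let q : (_ ⧸ LinearMap.ker lg) ≃ₗ[ℤ] Λ := lg.quotKerEquivRange
  let πΛ : Λ →ₗ[ℤ] T := ((LinearMap.ker lg).liftQ π fun v hv => h0 v hv) ∘ₗ q.symm.toLinearMap
  have hπ : ∀ v, πΛ ⟨lg v, LinearMap.mem_range_self lg v⟩ = π v := fun v => by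
    show (LinearMap.ker lg).liftQ π (fun v hv => h0 v hv) (q.symm _) = _
    rw [show q.symm ⟨lg v, LinearMap.mem_range_self lg v⟩ = Submodule.Quotient.mk v from
      lg.quotKerEquivRange_symm_apply_image v (LinearMap.mem_range_self lg v)]
    rfl
  rw [← hf]
  refine charpoly_mod_prime πΛ.toAddMonoidHom ?_ ?_ f F ?_
  · intro t
    obtain ⟨v, rfl⟩ := hs t
    exact ⟨_, hπ v⟩
  · rintro ⟨_, v, rfl⟩
    constructor
    · intro h
      obtain ⟨v', v₀, h₀, rfl⟩ := hk v ((hπ v).symm.trans h)
      exact ⟨⟨lg v', LinearMap.mem_range_self lg v'⟩, Subtype.ext (by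
        simp only [SetLike.val_smul, map_add, map_smul, h₀, add_zero])⟩
    · rintro ⟨y, hy⟩
      rw [← hy, LinearMap.toAddMonoidHom_coe, map_smul, ← Int.cast_smul_eq_zsmul (ZMod p),
        Int.cast_natCast, ZMod.natCast_self, zero_smul]
  · rintro ⟨_, v, rfl⟩
    show F (πΛ _) = πΛ (f _)
    rw [hπ, hF, ← hπ]
    exact congrArg πΛ (Subtype.ext (logS_addE' P x v))

end

end FermatAgent.Duality.Euler
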