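import Fermat.Agent.Duality.Euler.Kummer
import Fermat.Agent.Duality.Euler.LogLattice
import Fermat.Agent.Duality.Euler.Exact
import Fermat.Prelude.Def_GaloisRep_ComplexConjugation

/-!
# `H¹(G_{L,S}, 𝔽_p)` as a representation of `Gal(L)`, up to semisimplification

For big `S` the characteristic polynomials on `H¹(G_{L,S}, 𝔽_p) ⊗ ω` are those of the roots of
unity, the permutation of the infinite places and that of the places over `S`, less one trivial
line.
-/

set_option autoImplicit false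

open scoped Pointwise

namespace FermatAgent.Duality.Euler

open FermatAgent.Duality NumberField Module

noncomputable section

local notation "Qb" => AlgebraicClosure ℚ
local notation "GQ" => AlgebraicClosure ℚ ≃ₐ[ℚ] AlgebraicClosure ℚ

attribute [local instance] FermatAgent.RT.isGalois_algClosureRat Global.numberField_of_finite

variable {p : ℕ} [Fact p.Prime] {L : IntermediateField ℚ Qb}

section Roots

variable (hL : ContainsMuP p L)

include hL in
lemma zeta_mem_of_containsMuP : (Global.muGlobal hL).ζ ∈ L := by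
  have h : (Global.muGlobal hL).ζ ∈ IntermediateField.fixedField L.fixingSubgroup := fun σ =>
    (Global.muGlobal hL).fixed σ σ.2
  rwa [InfiniteGalois.fixedField_fixingSubgroup] at h

/-- The chosen primitive root of unity, in `L`. -/
def zetaL : L := ⟨_, zeta_mem_of_containsMuP hL⟩

lemma isPrimitiveRoot_zetaL : IsPrimitiveRoot (zetaL hL) p :=
  IsPrimitiveRoot.of_map_of_injective (f := L.val) (Global.muGlobal hL).isPrimitiveRoot
    L.val.injective

/-- The chosen primitive root of unity, as an `S`-unit. -/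
def zetaE (S : Finset Nat.Primes) : sUnitsL L S :=
  ⟨Units.mk0 (zetaL hL) ((isPrimitiveRoot_zetaL hL).ne_zero (Fact.out : p.Prime).ne_zero),
    fun q _ A _ => by
      have h : A.valuation (Global.muGlobal hL).ζ ^ p = 1 := by
        rw [← map_pow, (Global.muGlobal hL).isPrimitiveRoot.pow_eq_one, map_one]
      exact (pow_eq_one_iff.1 h).resolve_right (Fact.out : p.Prime).ne_zero⟩

lemma zetaE_pow (S : Finset Nat.Primes) : zetaE hL S ^ p = 1 :=
  Subtype.ext (Units.ext (isPrimitiveRoot_zetaL hL).pow_eq_one)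

lemma zsmul_zetaE_eq_zero (S : Finset Nat.Primes) {a : ℤ}
    (h : a • Additive.ofMul (zetaE hL S) = 0) : (a : ZMod p) = 0 := by
  rw [ZMod.intCast_zmod_eq_zero_iff_dvd, ← (isPrimitiveRoot_zetaL hL).zpow_eq_one_iff_dvd]
  have := congrArg (fun z : Additive (sUnitsL L S) => ((z.toMul : Lˣ) : L)) h
  simpa [zetaE] using this

variable [L.fixingSubgroup.Normal]

lemma addE_zetaE (S : Finset Nat.Primes) (x : GalL L) :
    addE x (Additive.ofMul (zetaE hL S)) =
      ((omegaL hL x : ZMod p).val : ℤ) • Additive.ofMul (zetaE hL S) := by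
  induction x using QuotientGroup.induction_on with
  | _ g =>
  rw [addE_apply, natCast_zsmul, ← ofMul_pow, omegaL_mk]
  refine congrArg Additive.ofMul (Subtype.ext (Units.ext (Subtype.ext ?_)))
  refine (coe_galE g _).trans ?_
  have hζ := (Global.muGlobal hL).isPrimitiveRoot
  have : NeZero p := ⟨(Fact.out : p.Prime).ne_zero⟩
  have h := modularCyclotomicCharacter.spec Qb (ExtCitation.card_rootsOfUnity_eq_self p)
    (g : Qb ≃+* Qb) (t := (hζ.isUnit (NeZero.ne p)).unit)
    (by rw [mem_rootsOfUnity]; exact Units.ext (by simpa using hζ.pow_eq_one))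
  exact h

end Roots

variable [FiniteDimensional ℚ L] [L.fixingSubgroup.Normal] {S : Finset Nat.Primes}
  (hL : ContainsMuP p L) (hS : L.IsUnramifiedOutside S) (hpS : ExtCitation.pPrime p ∈ S)
  (P : PlaceSystem L S)

include hL in
omit [L.fixingSubgroup.Normal] in
lemma nrRealPlaces_eq_zero (hp : p ≠ 2) : InfinitePlace.nrRealPlaces L = 0 := by
  classical
  exact InfinitePlace.IsPrimitiveRoot.nrRealPlaces_eq_zero_of_two_lt
    (lt_of_le_of_ne (Fact.out : p.Prime).two_le (Ne.symm hp)) (isPrimitiveRoot_zetaL hL)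

include hL hS hpS in
omit [L.fixingSubgroup.Normal] in
theorem finite_globalH1_of_kappaS [L.fixingSubgroup.Normal] (P : PlaceSystem L S)
    (hsurj : Function.Surjective (kappaS hL hS hpS)) :
    Module.Finite (ZMod p) (globalH1 p L S) := by
  have := finite_sUnitsL P
  have : Module.Finite ℤ (globalH1 p L S) :=
    Module.Finite.of_surjective (kappaS hL hS hpS).toIntLinearMap hsurj
  exact Module.Finite.of_restrictScalars_finite ℤ (ZMod p) _

variable (p L S) in
/-- `H¹(G_{L,S}, 𝔽_p)`, bundled. -/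
@[reducible] def h1Rep (h : Module.Finite (ZMod p) (globalH1 p L S)) : FinRep (ZMod p) (GalL L) :=
  haveI := h
  ⟨globalH1 p L S, gal1 p L S⟩

include P in
/-- The characteristic polynomials on `H¹(G_{L,S}, 𝔽_p) ⊗ ω` for big `S`. -/
theorem cp_h1Rep [Finite (GalL L)] (hp : p ≠ 2)
    (hsurj : Function.Surjective (kappaS hL hS hpS)) (x : GalL L) :
    ((h1Rep p L S (finite_globalH1_of_kappaS hL hS hpS P hsurj)).tw (omegaL hL)).cp x *
        (charRep (1 : GalL L →* (ZMod p)ˣ)).cp x =
      (charRep (omegaL hL)).cp x *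
        ((permRep (InfinitePlace L) (charRep 1)).cp x * (permRep P.ι (charRep 1)).cp x) := by
  classical
  have hfin := finite_globalH1_of_kappaS hL hS hpS P hsurj
  have hc := nrRealPlaces_eq_zero hL hp
  let W := (h1Rep p L S hfin).tw (omegaL hL)
  let κ : Additive (sUnitsL L S) →+ W.V := kappaS hL hS hpS
  have hκ : ∀ y u, W.ρ y (κ u) = κ (addE y u) := fun y u => by
    show ((omegaL hL y : (ZMod p)ˣ) : ZMod p) • gal1 p L S y (kappaS hL hS hpS u) = _
    rw [gal1_kappaS, smul_smul, Units.mul_inv, one_smul]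
    rfl
  -- the roots of unity
  obtain ⟨g₀, hg₀⟩ := IsCyclic.exists_generator (α := Units.torsion L)
  let ξ : Additive (sUnitsL L S) := Additive.ofMul (unitToE P g₀.1)
  have hgen : ∀ v : Additive (sUnitsL L S), logS P (v, 0) = 0 → ∃ j : ℤ, j • ξ = v := by
    intro v hv
    obtain ⟨-, ε, hε, he⟩ := logS_eq_zero P hc hv
    obtain ⟨j, hj⟩ := Subgroup.mem_zpowers_iff.1 (hg₀ ⟨ε, hε⟩)
    refine ⟨j, ?_⟩
    rw [← ofMul_zpow, ← map_zpow, ← SubgroupClass.coe_zpow, hj]
    exact he
  have hlogtors : ∀ (v : Additive (sUnitsL L S)) (a : ℤ), a ≠ 0 → logS P (a • v, 0) = 0 →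
      logS P (v, 0) = 0 := by
    intro v a ha h
    have h' : a • logS P (v, 0) = 0 := by rw [← map_smul, Prod.smul_mk, smul_zero]; exact h
    exact (smul_eq_zero.1 h').resolve_left ha
  have hξ : logS P (ξ, 0) = 0 := by
    obtain ⟨k, hk, hk'⟩ := isOfFinOrder_iff_pow_eq_one.1 ((CommGroup.mem_torsion g₀.1).1 g₀.2)
    refine hlogtors ξ k (by exact_mod_cast hk.ne') ?_
    rw [natCast_zsmul, ← ofMul_pow, ← map_pow, hk', map_one, ofMul_one]
    exact map_zero _
  have hpz : (p : ℤ) ≠ 0 := by exact_mod_cast (Fact.out : p.Prime).ne_zero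
  have hz : logS P (Additive.ofMul (zetaE hL S), 0) = 0 := by
    refine hlogtors _ p hpz ?_
    rw [natCast_zsmul, ← ofMul_pow, zetaE_pow, ofMul_one]
    exact map_zero _
  obtain ⟨t, ht⟩ := hgen _ hz
  have hξ0 : κ ξ ≠ 0 := by
    intro h
    obtain ⟨b, hb⟩ := (kappaS_eq_zero_iff hL hS hpS ξ).1 h
    obtain ⟨k, rfl⟩ := hgen b (hlogtors b p hpz (by rw [hb]; exact hξ))
    have h1 : ((p : ℤ) * k - 1) • Additive.ofMul (zetaE hL S) = 0 := by
      rw [← ht, smul_comm, sub_smul, mul_smul, hb, one_smul, sub_self, smul_zero]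
    have := zsmul_zetaE_eq_zero hL S h1
    simp at this
  have heig : ∀ y, W.ρ y (κ ξ) = ((omegaL hL y : (ZMod p)ˣ) : ZMod p) • κ ξ := by
    intro y
    obtain ⟨j, hj⟩ := hgen (addE y ξ) (by
      rw [show ((addE y ξ, (0 : ℤ)) : Additive (sUnitsL L S) × ℤ) = addE' y (ξ, 0) from rfl,
        logS_addE', hξ, map_zero])
    have h1 : (j - ((omegaL hL y : ZMod p).val : ℤ)) • Additive.ofMul (zetaE hL S) = 0 := by
      have h2 := addE_zetaE hL S y
      rw [← ht, map_smul, ← hj, smul_comm, ht, ← sub_eq_zero, ← sub_smul] at h2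
      exact h2
    have h3 := zsmul_zetaE_eq_zero hL S h1
    rw [Int.cast_sub, Int.cast_natCast, ZMod.natCast_zmod_val, sub_eq_zero] at h3
    rw [hκ, ← hj, map_zsmul, ← Int.cast_smul_eq_zsmul (ZMod p), h3]
  let i : (charRep (omegaL hL)).V →ₗ[ZMod p] W.V := LinearMap.toSpanSingleton (ZMod p) W.V (κ ξ)
  have hi : ∀ y c, i ((charRep (omegaL hL)).ρ y c) = W.ρ y (i c) := fun y (c : ZMod p) => by
    show ((omegaL hL y : ZMod p) * c) • κ ξ = W.ρ y (c • κ ξ)
    rw [map_smul, heig, smul_smul, mul_comm]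
  have hR : IsInvariantSub W.ρ (LinearMap.range i) := by
    rintro y _ ⟨c, rfl⟩
    exact ⟨_, hi y c⟩
  let Q := W.quot (LinearMap.range i) hR
  rw [cp_of_exact (R := charRep (omegaL hL)) (S := W) (T := Q) i (Submodule.mkQ _) hi
    (fun _ _ => rfl) (fun a b h => smul_left_injective (ZMod p) hξ0 h) (Submodule.mkQ_surjective _)
    (Submodule.ker_mkQ _).symm, mul_assoc, ← cp_prodRep]
  congr 1
  -- the quotient is the reduction of the logarithmic lattice
  let π : Additive (sUnitsL L S) × ℤ →ₗ[ℤ] (Q.prodRep (charRep 1)).V :=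
    (AddMonoidHom.mk' (fun v => ((Submodule.mkQ _ (κ v.1), (v.2 : ZMod p)) :
      (W.V ⧸ LinearMap.range i) × ZMod p)) fun a b => by
        simp).toIntLinearMap
  have key := charpoly_reduction P hc π ?_ ?_ ?_ x ((Q.prodRep (charRep 1)).ρ x) ?_
  · refine key.trans ?_
    rw [← charpoly_twistEnd_id, allPerm, charpoly_twistEnd_sum]
    have h1 : (charRep (1 : GalL L →* (ZMod p)ˣ)).ρ x = LinearMap.id := by
      refine LinearMap.ext fun c => ?_
      simp [charRep]
      rfl
    rw [cp_permRep, cp_permRep, h1]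
    rfl
  · rintro ⟨q, c⟩
    obtain ⟨w, rfl⟩ := Submodule.mkQ_surjective _ q
    obtain ⟨u, rfl⟩ := hsurj w
    exact ⟨(u, ((c : ZMod p).val : ℤ)), Prod.ext rfl (by
      show ((((c : ZMod p).val : ℤ)) : ZMod p) = c
      rw [Int.cast_natCast, ZMod.natCast_zmod_val])⟩
  · rintro ⟨u, n⟩ h
    obtain ⟨hn, -⟩ := logS_eq_zero P hc h
    obtain rfl : n = 0 := hn
    obtain ⟨j, rfl⟩ := hgen u h
    refine Prod.ext ?_ (Int.cast_zero (R := ZMod p))
    refine (Submodule.Quotient.mk_eq_zero _).2 ⟨(j : ZMod p), ?_⟩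
    rw [map_zsmul, ← Int.cast_smul_eq_zsmul (ZMod p)]
    rfl
  · rintro ⟨u, n⟩ h
    obtain ⟨c, hc'⟩ := (Submodule.Quotient.mk_eq_zero _).1 (congrArg Prod.fst h)
    obtain ⟨m, rfl⟩ := (ZMod.intCast_zmod_eq_zero_iff_dvd n p).1 (congrArg Prod.snd h)
    obtain ⟨b, hb⟩ := (kappaS_eq_zero_iff hL hS hpS (u - (c.val : ℤ) • ξ)).1 (by
      rw [map_sub, map_zsmul, sub_eq_zero, ← Int.cast_smul_eq_zsmul (ZMod p), Int.cast_natCast,
        ZMod.natCast_zmod_val]
      exact hc'.symm)
    refine ⟨(b, m), ((c.val : ℤ) • ξ, 0), ?_, Prod.ext ?_ ?_⟩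
    · rw [show (((c.val : ℤ) • ξ, (0 : ℤ)) : Additive (sUnitsL L S) × ℤ) = (c.val : ℤ) • (ξ, 0) by
        rw [Prod.smul_mk, smul_zero], map_smul, hξ, smul_zero]
    · show u = (p : ℤ) • b + (c.val : ℤ) • ξ
      rw [hb, sub_add_cancel]
    · show (p : ℤ) * m = (p : ℤ) • m + 0
      rw [add_zero, smul_eq_mul]
  · rintro ⟨u, n⟩
    refine Prod.ext ?_ ?_
    · show Submodule.mkQ _ (W.ρ x (κ u)) = Submodule.mkQ _ (κ (addE x u))
      rw [hκ]
    · show (charRep (1 : GalL L →* (ZMod p)ˣ)).ρ x (n : ZMod p) = (n : ZMod p)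
      simp [charRep]
      rfl

/-- Complex conjugation in `Gal(L)`. -/
def ccL (L : IntermediateField ℚ Qb) [L.fixingSubgroup.Normal] : GalL L :=
  (complexConjugation : GalL L)

omit [FiniteDimensional ℚ L] in
lemma ccL_mul_self : ccL L * ccL L = 1 := by
  rw [ccL, ← QuotientGroup.mk_mul, complexConjugation_mul_self, QuotientGroup.mk_one]

omit [FiniteDimensional ℚ L] in
lemma omegaL_ccL : ((omegaL hL (ccL L) : (ZMod p)ˣ) : ZMod p) = -1 := by
  have : NeZero p := ⟨(Fact.out : p.Prime).ne_zero⟩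
  have hζ := (Global.muGlobal hL).isPrimitiveRoot
  set ζ := (Global.muGlobal hL).ζ
  have h := modularCyclotomicCharacter.spec Qb (ExtCitation.card_rootsOfUnity_eq_self p)
    (complexConjugation : Qb ≃+* Qb) (t := (hζ.isUnit (NeZero.ne p)).unit)
    (by rw [mem_rootsOfUnity]; exact Units.ext (by simpa using hζ.pow_eq_one))
  have hinv : complexConjugation ζ = ζ⁻¹ := by
    apply complexEmbedding.toRingHom.injective
    show complexEmbedding (complexConjugation ζ) = complexEmbedding ζ⁻¹
    rw [complexEmbedding_complexConjugation, map_inv₀]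
    have h1 : ‖complexEmbedding ζ‖ = 1 := Complex.norm_eq_one_of_pow_eq_one
      (by rw [← map_pow, hζ.pow_eq_one, map_one]) (NeZero.ne p)
    rw [Complex.inv_def, Complex.normSq_eq_norm_sq, h1]
    simp
  set a : ZMod p := ((omegaL hL (ccL L) : (ZMod p)ˣ) : ZMod p)
  have hpow : ζ ^ a.val = ζ⁻¹ := h.symm.trans hinv
  have h2 : ζ ^ (a.val + 1) = 1 := by
    rw [pow_succ, hpow, inv_mul_cancel₀ (hζ.ne_zero (NeZero.ne p))]
  have h3 := (ZMod.natCast_eq_zero_iff _ p).2 ((hζ.pow_eq_one_iff_dvd _).1 h2)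
  rw [Nat.cast_add, Nat.cast_one, ZMod.natCast_zmod_val, add_eq_zero_iff_eq_neg] at h3
  exact h3

omit [FiniteDimensional ℚ L] in
/-- The infinite places are the cosets of complex conjugation. -/
theorem exists_equiv_infinitePlace [Finite (GalL L)] :
    ∃ e : GalL L ⧸ Subgroup.zpowers (ccL L) ≃ InfinitePlace L,
      ∀ (y : GalL L) q, e (y • q) = y • e q := by
  have := isGalois_of_normal_fixingSubgroup L
  let φ₀ : L →+* ℂ := complexEmbedding.toRingHom.comp L.val.toRingHom
  let w₀ : InfinitePlace L := InfinitePlace.mk φ₀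
  have hcc : ComplexEmbedding.IsConj φ₀ (galAut L (ccL L)) := by
    refine RingHom.ext fun y => ?_
    show starRingEnd ℂ (complexEmbedding (y : Qb)) =
      complexEmbedding ((galAut L (ccL L) y : L) : Qb)
    rw [ccL, coe_galAut, complexEmbedding_complexConjugation]
  have hstab : ∀ y, y • w₀ = w₀ ↔ y ∈ Subgroup.zpowers (ccL L) := by
    intro y
    constructor
    · intro hy
      rcases (InfinitePlace.mem_stabilizer_mk_iff φ₀ (galAut L y)).1 hy with e | e
      · rw [galAut_injective (e.trans (map_one (galAut L)).symm)]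
        exact one_mem _
      · rw [galAut_injective (e.ext hcc)]
        exact Subgroup.mem_zpowers _
    · intro hy
      have h1 : Subgroup.zpowers (ccL L) ≤ MulAction.stabilizer (GalL L) w₀ :=
        Subgroup.zpowers_le.2
          ((InfinitePlace.mem_stabilizer_mk_iff φ₀ (galAut L (ccL L))).2 (Or.inr hcc))
      exact h1 hy
  let f : GalL L ⧸ Subgroup.zpowers (ccL L) → InfinitePlace L :=
    Quotient.lift (fun y => y • w₀) fun y z hyz => by
      have h := (hstab _).2 (QuotientGroup.leftRel_apply.1 hyz)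
      conv_lhs => rw [← h]
      rw [← mul_smul, mul_inv_cancel_left]
  have hf : Function.Bijective f := by
    constructor
    · intro a b hab
      induction a using QuotientGroup.induction_on with
      | _ y =>
      induction b using QuotientGroup.induction_on with
      | _ z =>
      refine QuotientGroup.eq.2 ((hstab _).1 ?_)
      change y • w₀ = z • w₀ at hab
      rw [mul_smul, ← hab, inv_smul_smul]
    · intro w
      obtain ⟨σ, hσ⟩ := InfinitePlace.exists_smul_eq_of_comap_eq (k := ℚ) (w := w₀) (w' := w)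
        (Subsingleton.elim _ _)
      obtain ⟨g, hg⟩ := AlgEquiv.restrictNormalHom_surjective (F := ℚ) (K₁ := L) Qb σ
      exact ⟨((g : GalL L) : GalL L ⧸ Subgroup.zpowers (ccL L)), by
        show galAut L (g : GalL L) • w₀ = w
        rw [← hσ, ← hg]
        rfl⟩
  refine ⟨Equiv.ofBijective f hf, fun y q => ?_⟩
  induction q using QuotientGroup.induction_on with
  | _ z => exact mul_smul y z w₀

end

end FermatAgent.Duality.Euler
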