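import Fermat.Agent.Duality.Euler.Conj
import Fermat.Agent.Duality.Local.Interface
import Fermat.Agent.Duality.Local.Kummer
import Fermat.Agent.TW.Decomposition

/-!
# The decomposition group on local `H²` away from `p`

For `ℓ ≠ p` an element `d` of the decomposition group acts on `H²(D, 𝔽_p)`, `D` a local group of a
field containing `μ_p`, by the inverse of the cyclotomic character: `H²` is spanned by the cup
product of an unramified class, fixed by `d`, with a Kummer class, multiplied by `ω(d)⁻¹` modulo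
unramified ones.
-/

set_option autoImplicit false

open scoped Pointwise

namespace FermatAgent.Duality.Euler

open FermatAgent.Duality FermatAgent.Local

noncomputable section

local notation "Qb" => AlgebraicClosure ℚ
local notation "GQ" => AlgebraicClosure ℚ ≃ₐ[ℚ] AlgebraicClosure ℚ
local notation "ZB" => integralClosure ℤ (AlgebraicClosure ℚ)

attribute [local instance] FermatAgent.RT.isGalois_algClosureRat

variable {A : ValuationSubring Qb} {ℓ : ℕ}

/-- The residual action of a decomposition group is abelian. -/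
theorem commutator_mem_inertia (hℓ : ℓ.Prime) (hA : A.LiesOverPrime ℓ) {σ τ : GQ}
    (hσ : σ ∈ A.decompositionSubgroup ℚ) (hτ : τ ∈ A.decompositionSubgroup ℚ) :
    (τ * σ)⁻¹ * (σ * τ) ∈ A.inertiaSubgroupIn ℚ := by
  refine TW.mem_inertia_of_forall_centre hℓ hA
    (mul_mem (inv_mem (mul_mem hτ hσ)) (mul_mem hσ hτ)) fun b => ?_
  let L := IntermediateField.normalClosure ℚ (IntermediateField.adjoin ℚ {(b : Qb)}) Qb
  have : FiniteDimensional ℚ (IntermediateField.adjoin ℚ {(b : Qb)}) :=
    IntermediateField.adjoin.finiteDimensional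
      (((AlgebraicClosure.isAlgebraic ℚ).isAlgebraic (b : Qb)).isIntegral)
  have : FiniteDimensional ℚ L := normalClosure.is_finiteDimensional ℚ _ Qb
  have : Normal ℚ L := normalClosure.normal ℚ _ Qb
  have hb : (b : Qb) ∈ L := IntermediateField.le_normalClosure _
    (IntermediateField.mem_adjoin_simple_self ℚ (b : Qb))
  have hc : ∀ {g : GQ}, g ∈ A.decompositionSubgroup ℚ → ∀ {x : ZB},
      x ∈ RT.centre A → g • x ∈ RT.centre A := fun {g} hg {x} hx => by
    rw [← TW.smul_centre_eq hg]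
    exact Ideal.smul_mem_pointwise_smul g x _ hx
  obtain ⟨m, hm⟩ := TW.exists_frobenius_pow_aux hℓ hA L hσ
  obtain ⟨n, hn⟩ := TW.exists_frobenius_pow_aux hℓ hA L hτ
  have hpow : ∀ (i : ℕ), ((b ^ i : ZB) : Qb) ∈ L := fun i => by
    rw [SubmonoidClass.coe_pow]; exact pow_mem hb i
  have h1 : σ • τ • b - b ^ ℓ ^ (n + m) ∈ RT.centre A := by
    have e : σ • τ • b - b ^ ℓ ^ (n + m) =
        σ • (τ • b - b ^ ℓ ^ n) + (σ • (b ^ ℓ ^ n) - (b ^ ℓ ^ n) ^ ℓ ^ m) := by
      rw [smul_sub, ← pow_mul, ← pow_add]; abel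
    rw [e]
    exact add_mem (hc hσ (hn b hb)) (hm _ (hpow _))
  have h2 : τ • σ • b - b ^ ℓ ^ (n + m) ∈ RT.centre A := by
    have e : τ • σ • b - b ^ ℓ ^ (n + m) =
        τ • (σ • b - b ^ ℓ ^ m) + (τ • (b ^ ℓ ^ m) - (b ^ ℓ ^ m) ^ ℓ ^ n) := by
      rw [smul_sub, ← pow_mul, ← pow_add, add_comm n m]; abel
    rw [e]
    exact add_mem (hc hτ (hm b hb)) (hn _ (hpow _))
  have h3 := hc (inv_mem (mul_mem hτ hσ)) (sub_mem h1 h2)
  rw [sub_sub_sub_cancel_right, smul_sub, ← mul_smul σ τ b, ← mul_smul τ σ b, inv_smul_smul,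
    ← mul_smul] at h3
  exact h3

variable (p : ℕ) [Fact p.Prime] {K : IntermediateField ℚ Qb}

lemma val_smul_eq_one_of_zpw (hℓ : ℓ.Prime) (hA : A.LiesOverPrime ℓ) (hℓp : ℓ ≠ p) {ζ : Qb}
    (hζ : IsPrimitiveRoot ζ p) {i : ZMod p} (h : A.valuation (Local.zpw p ζ i - 1) < 1) : i = 0 := by
  by_contra hi
  have hp : A.valuation (p : Qb) = 1 := val_natCast_eq_one hℓ hA fun hd =>
    hℓp ((Nat.prime_dvd_prime_iff_eq hℓ (Fact.out : p.Prime)).1 hd)
  set η := Local.zpw p ζ i
  have hη : η ^ p = 1 := Local.zpw_pow_eq_one hζ i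
  have hη1 : η ≠ 1 := fun e => hi ((Local.zpw_eq_one_iff hζ).1 e)
  have hg : ∑ j ∈ Finset.range p, η ^ j = 0 := by
    have := geom_sum_mul η p
    rw [hη, sub_self, mul_eq_zero] at this
    exact this.resolve_right (sub_ne_zero.2 hη1)
  have hv : A.valuation η = 1 := by
    have h1 : A.valuation η ^ p = 1 := by rw [← map_pow, hη, map_one]
    exact (pow_eq_one_iff.1 h1).resolve_right (Fact.out : p.Prime).ne_zero
  have hlt : ∀ j : ℕ, A.valuation (η ^ j - 1) < 1 := fun j => by
    rw [← geom_sum_mul, map_mul]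
    exact lt_of_le_of_lt (mul_le_of_le_one_left' (val_le_one_of_mem
      (sum_mem fun k _ => pow_mem ((A.valuation_le_one_iff _).1 hv.le) k))) h
  have hsum : A.valuation (∑ j ∈ Finset.range p, (η ^ j - 1)) < 1 :=
    A.valuation.map_sum_lt one_ne_zero fun j _ => hlt j
  rw [Finset.sum_sub_distrib, hg, zero_sub, Finset.sum_const, Finset.card_range, nsmul_one,
    Valuation.map_neg, hp] at hsum
  exact lt_irrefl _ hsum

/-- The root of a unit at `A` is fixed by inertia, away from `p`. -/
theorem kapFun_eq_zero_of_unit {D : Subgroup GQ} (μ : Local.MuData p D) (hℓ : ℓ.Prime)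
    (hA : A.LiesOverPrime ℓ) (hℓp : ℓ ≠ p) {a : Local.fixedUnits D}
    (ha : A.valuation ((a : Qbˣ) : Qb) = 1) {σ : D}
    (hσ : (σ : GQ) ∈ A.inertiaSubgroupIn ℚ) : Local.kapFun μ a σ = 0 := by
  refine val_smul_eq_one_of_zpw p hℓ hA hℓp μ.isPrimitiveRoot ?_
  set r := Local.rootP p ((a : Qbˣ) : Qb)
  have hr : r ^ p = ((a : Qbˣ) : Qb) := Local.rootP_pow _
  have hv : A.valuation r = 1 := by
    have h1 : A.valuation r ^ p = 1 := by rw [← map_pow, hr, ha]
    exact (pow_eq_one_iff.1 h1).resolve_right (Fact.out : p.Prime).ne_zero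
  have h1 := inertia_val_sub_lt_one hσ ((A.valuation_le_one_iff r).1 hv.le)
  rw [Local.kapFun_spec μ a hr σ, ← sub_one_mul, map_mul, hv, mul_one] at h1
  exact h1

variable {p}

/-- The scalar by which the decomposition group acts on local `H²` away from `p`. -/
theorem cjT2_local (hℓ : ℓ.Prime) (hℓp : ℓ ≠ p) [FiniteDimensional ℚ K] (hK : ContainsMuP p K)
    (hA : A.LiesOverPrime ℓ) {d : GQ} (hd : d ∈ A.decompositionSubgroup ℚ)
    (hnorm : ∀ n ∈ localGroup K A, d⁻¹ * n * d ∈ localGroup K A) (z : localH2 p K A) :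
    cjT2 (k := ZMod p) qLevels d hnorm z = (((ExtCitation.cycloChar p d)⁻¹ : (ZMod p)ˣ) : ZMod p) • z := by
  have hLD := localDualityAt p hℓ K hK hA
  have := hLD.finite_H1
  let μ := Local.muDataLocal p K hK A
  set c : ZMod p := (((ExtCitation.cycloChar p d)⁻¹ : (ZMod p)ˣ) : ZMod p)
  let T1 : localH1 p K A →ₗ[ZMod p] localH1 p K A := cjT1 (k := ZMod p) qLevels d hnorm
  -- an unramified class is fixed
  have hfix : ∀ x ∈ unramifiedH1 p K A, T1 x = x := by
    intro x hx
    induction x using Submodule.Quotient.induction_on with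
    | _ f =>
    have hI : ∀ i : localInertia K A, f.1 i = 0 := by
      intro i
      obtain ⟨m, hm⟩ := (cl1_eq_zero_iff _ _ _).1 (LinearMap.mem_ker.1 hx)
      exact (congrFun hm i).symm.trans (by simp [dd₀])
    have hadd : ∀ a b : localGroup K A, f.1 (a * b) = f.1 b + f.1 a := fun a b => f.2.2 a b
    refine congrArg (fun z => cl1 (localLevels K A) (triv (ZMod p) (localGroup K A)) z)
      (Subtype.ext (funext fun n => ?_))
    show f.1 (cjHom d hnorm n) = f.1 n
    have hmem : (n⁻¹ * cjHom d hnorm n : localGroup K A) ∈ localInertia K A := by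
      show ((n : GQ)⁻¹ * (d⁻¹ * n * d) : GQ) ∈ A.inertiaSubgroupIn ℚ
      simpa [mul_assoc] using commutator_mem_inertia hℓ hA n.2.2 hd
    have h := hadd n (n⁻¹ * cjHom d hnorm n)
    rw [mul_inv_cancel_left, hI ⟨_, hmem⟩, zero_add] at h
    exact h
  -- every class is multiplied by `c` modulo unramified ones
  have hmult : ∀ y : localH1 p K A, T1 y - c • y ∈ unramifiedH1 p K A := by
    intro y
    obtain ⟨f, rfl⟩ := Submodule.mkQ_surjective _ y
    obtain ⟨a, rfl⟩ := Local.kap_surjective μ f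
    have hda : A.valuation (d ((a : Qbˣ) : Qb)) = A.valuation ((a : Qbˣ) : Qb) :=
      val_galois_eq hd _
    let a' : Local.fixedUnits (localGroup K A) :=
      ⟨Units.map (d : Qb →* Qb) (a : Qbˣ), fun n hn => by
        have h := a.2 _ (hnorm n hn)
        show n (d ((a : Qbˣ) : Qb)) = d ((a : Qbˣ) : Qb)
        have := congrArg d h
        simpa [AlgEquiv.mul_apply] using this⟩
    have hconj : ∀ n, Local.kapFun μ a (cjHom d hnorm n) = c * Local.kapFun μ a' n := by
      intro n
      refine Local.kapFun_eq_of μ a (r := d⁻¹ (Local.rootP p ((a' : Qbˣ) : Qb))) ?_ _ _ ?_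
      · rw [← map_pow, Local.rootP_pow]
        exact d.symm_apply_apply _
      · show (d⁻¹ * n * d : GQ) (d⁻¹ _) = _
        rw [AlgEquiv.mul_apply, AlgEquiv.mul_apply, ← AlgEquiv.mul_apply d, mul_inv_cancel,
          AlgEquiv.one_apply, Local.kapFun_spec μ a' (Local.rootP_pow _) n, map_mul]
        congr 1
        set i := Local.kapFun μ a' n
        have hspec := modularCyclotomicCharacter.spec Qb (ExtCitation.card_rootsOfUnity_eq_self p)
          ((d⁻¹ : GQ) : Qb ≃+* Qb) (t := Units.mk0 (Local.zpw p μ.ζ i)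
            (Local.zpw_ne_zero μ.isPrimitiveRoot i))
          (by rw [mem_rootsOfUnity]
              exact Units.ext (by simpa using Local.zpw_pow_eq_one μ.isPrimitiveRoot i))
        refine hspec.trans ?_
        show Local.zpw p μ.ζ i ^ ((ExtCitation.cycloChar p d⁻¹ : (ZMod p)ˣ) : ZMod p).val = _
        rw [map_inv]
        show Local.zpw p μ.ζ i ^ c.val = _
        conv_rhs => rw [show c * i = ((c.val * i.val : ℕ) : ZMod p) by
          have : NeZero p := ⟨(Fact.out : p.Prime).ne_zero⟩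
          simp, Local.zpw_natCast μ.isPrimitiveRoot, mul_comm, pow_mul]
        rfl
    have hq : Local.kapFun μ a' = fun n => Local.kapFun μ (a' / a) n + Local.kapFun μ a n := by
      funext n
      have h := congrArg (fun z => z.1 n) (Local.kap_mul μ (a' / a) a)
      rw [div_mul_cancel] at h
      exact h
    show res1 (localLevels K A) (triv (ZMod p) (localGroup K A)) (localInertia K A) _ = 0
    refine (cl1_eq_zero_iff _ _ _).2 ⟨0, funext fun i => ?_⟩
    show _ = Local.kapFun μ a (cjHom d hnorm i) - c * Local.kapFun μ a i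
    rw [hconj, hq, mul_add, add_sub_cancel_right,
      kapFun_eq_zero_of_unit p μ hℓ hA hℓp ?_ i.2, mul_zero]
    · simp [dd₀]
    · rw [Subgroup.coe_div, Units.val_div_eq_div_val, map_div₀]
      show A.valuation (d ((a : Qbˣ) : Qb)) / _ = 1
      rw [hda, div_self ((_root_.map_ne_zero _).2 (a : Qbˣ).ne_zero)]
  obtain ⟨⟨u, hu⟩, hu0⟩ := Module.finrank_pos_iff_exists_ne_zero.1
    (by rw [hLD.finrank_unramified]; exact one_pos :
      0 < Module.finrank (ZMod p) (unramifiedH1 p K A))
  have hu0' : u ≠ 0 := fun e => hu0 (Subtype.ext e)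
  obtain ⟨y, hy⟩ : ∃ y, cupTriv (ZMod p) (localLevels K A) u y ≠ 0 := by
    by_contra h
    push Not at h
    exact hu0' (hLD.cup_nondegenerate u h)
  obtain ⟨t, rfl⟩ := exists_smul_eq_of_finrank_eq_one hLD.finrank_H2 hy z
  let T2 : localH2 p K A →ₗ[ZMod p] localH2 p K A := cjT2 (k := ZMod p) qLevels d hnorm
  have hnat : T2 (cupTriv (ZMod p) (localLevels K A) u y) =
      cupTriv (ZMod p) (localLevels K A) (T1 u) (T1 y) :=
    map2_cupTriv _ u y
  have hr := hLD.cup_unramified hℓp u hu _ (hmult y)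
  rw [map_sub, map_smul, sub_eq_zero] at hr
  show T2 (t • _) = _
  rw [map_smul, hnat, hfix u hu, hr, smul_comm]

end

end FermatAgent.Duality.Euler
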