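import Fermat.Agent.Duality.Euler.GalAction
import Fermat.Agent.Duality.Euler.LocalScalar
import Fermat.Agent.Duality.Euler.Exact
import Fermat.Agent.Duality.Global.Defs

/-!
# `H²(G_{L,S}, 𝔽_p)` as a representation of `Gal(L)`

By global duality it is the kernel of the sum inside the functions on the places over `S`. If
every element of `Gal(L)` fixes a place not over `p`, the Galois group acts there through the
permutation of the places twisted by the inverse of the cyclotomic character.
-/

set_option autoImplicit false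

open scoped Pointwise

namespace FermatAgent.Duality.Euler

open FermatAgent.Duality Module

noncomputable section

local notation "Qb" => AlgebraicClosure ℚ
local notation "GQ" => AlgebraicClosure ℚ ≃ₐ[ℚ] AlgebraicClosure ℚ

variable {p : ℕ} [Fact p.Prime] {L : IntermediateField ℚ Qb} [FiniteDimensional ℚ L]
  [L.fixingSubgroup.Normal] {S : Finset Nat.Primes}

omit [FiniteDimensional ℚ L] in
lemma conj_mem_localGroup {A B : ValuationSubring Qb} {g : GQ} (h : g • A = B) :
    ∀ n ∈ localGroup L B, g⁻¹ * n * g ∈ localGroup L A := by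
  intro n hn
  refine ⟨by simpa using (inferInstance : L.fixingSubgroup.Normal).conj_mem n hn.1 g⁻¹, ?_⟩
  show (g⁻¹ * n * g) • A = A
  rw [mul_smul, mul_smul, h, show n • B = B from hn.2, ← h, inv_smul_smul]

omit [FiniteDimensional ℚ L] in
lemma loc2_gal2 {A B : ValuationSubring Qb} {g : GQ} (h : g • A = B) (v : globalH2 p L S) :
    loc2 p L S B (gal2 p L S (g : GalL L) v) =
      cjT2 (k := ZMod p) qLevels g (conj_mem_localGroup h) (loc2 p L S A v) := by
  rw [gal2_mk]
  induction v using Submodule.Quotient.induction_on with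
  | _ f => rfl

variable (P : PlaceSystem L S) (inv : LocalFunctionals (p := p) P)

/-- The coordinates of a class of degree `2`. -/
def locCoord : globalH2 p L S →ₗ[ZMod p] (P.ι → ZMod p) :=
  LinearMap.pi fun i => inv i ∘ₗ loc2 p L S (P.place i)

omit [FiniteDimensional ℚ L] [L.fixingSubgroup.Normal] in
lemma locCoord_apply (v : globalH2 p L S) (i : P.ι) :
    locCoord P inv v i = inv i (loc2 p L S (P.place i) v) := rfl

variable (hL : ContainsMuP p L) (hinv : ∀ i, inv i ≠ 0)

include hL hinv in
omit [L.fixingSubgroup.Normal] in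
lemma inv_injective (i : P.ι) : Function.Injective (inv i) := by
  have h1 := (localDualityAt p (P.prime i).2 L hL (P.liesOver i)).finrank_H2
  obtain ⟨z, hz⟩ : ∃ z, inv i z ≠ 0 := by
    by_contra h
    push Not at h
    exact hinv i (LinearMap.ext h)
  refine (injective_iff_map_eq_zero (inv i)).2 fun x hx => ?_
  obtain ⟨t, rfl⟩ := exists_smul_eq_of_finrank_eq_one h1
    (show z ≠ 0 from fun e => hz (by rw [e, map_zero])) x
  rw [map_smul, smul_eq_mul, mul_eq_zero] at hx
  rw [hx.resolve_right hz, zero_smul]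

include hinv in
omit [FiniteDimensional ℚ L] [L.fixingSubgroup.Normal] in
lemma inv_surjective (i : P.ι) : Function.Surjective (inv i) := by
  obtain ⟨z, hz⟩ : ∃ z, inv i z ≠ 0 := by
    by_contra h
    push Not at h
    exact hinv i (LinearMap.ext h)
  exact fun c => ⟨(c * (inv i z)⁻¹) • z, by
    rw [map_smul, smul_eq_mul, mul_assoc, inv_mul_cancel₀ hz, mul_one]⟩

variable (hloc : ∀ x : globalH2 p L S, (∀ i, loc2 p L S (P.place i) x = 0) → x = 0)
  (hrange : ∀ z : ∀ i, localH2 p L (P.place i),
    (∑ i, inv i (z i) = 0) ↔ ∃ x : globalH2 p L S, ∀ i, loc2 p L S (P.place i) x = z i)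

include hL hinv hloc in
omit [L.fixingSubgroup.Normal] in
lemma locCoord_injective : Function.Injective (locCoord P inv) :=
  (injective_iff_map_eq_zero _).2 fun v hv => hloc v fun i =>
    inv_injective P inv hL hinv i (by rw [map_zero]; exact congrFun hv i)

include hinv hrange in
omit [FiniteDimensional ℚ L] [L.fixingSubgroup.Normal] in
lemma mem_range_locCoord_iff (f : P.ι → ZMod p) :
    f ∈ LinearMap.range (locCoord P inv) ↔ ∑ i, f i = 0 := by
  constructor
  · rintro ⟨v, rfl⟩
    exact (hrange fun i => loc2 p L S (P.place i) v).2 ⟨v, fun _ => rfl⟩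
  · intro hf
    choose z hz using fun i => inv_surjective P inv hinv i (f i)
    obtain ⟨v, hv⟩ := (hrange z).1 (by simp only [hz]; exact hf)
    exact ⟨v, funext fun i => by rw [locCoord_apply, hv, hz]⟩

include hL hinv hloc in
omit [L.fixingSubgroup.Normal] in
lemma finite_globalH2_of_duality : Module.Finite (ZMod p) (globalH2 p L S) :=
  Module.Finite.of_injective _ (locCoord_injective P inv hL hinv hloc)

variable (hfix : ∀ x : GalL L, ∃ i : P.ι, (P.prime i : ℕ) ≠ p ∧ x • i = i)

include hL hinv hrange hfix in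
/-- The Galois group permutes the coordinates, with the inverse cyclotomic character. -/
theorem locCoord_gal2 (x : GalL L) (v : globalH2 p L S) (i : P.ι) :
    locCoord P inv (gal2 p L S x v) (x • i) =
      (((omegaL hL x)⁻¹ : (ZMod p)ˣ) : ZMod p) * locCoord P inv v i := by
  classical
  set c : ZMod p := (((omegaL hL x)⁻¹ : (ZMod p)ˣ) : ZMod p)
  have hcoord : ∀ i, ∃ t : ZMod p, ∀ v,
      locCoord P inv (gal2 p L S x v) (x • i) = t * locCoord P inv v i := by
    intro i
    obtain ⟨g, rfl, hg⟩ := exists_lift_smul P x i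
    obtain ⟨z, hz⟩ := inv_surjective P inv hinv i 1
    refine ⟨inv _ (cjT2 (k := ZMod p) qLevels g (conj_mem_localGroup hg) z), fun v => ?_⟩
    obtain ⟨s, hs⟩ := exists_smul_eq_of_finrank_eq_one
      (localDualityAt p (P.prime i).2 L hL (P.liesOver i)).finrank_H2
      (show z ≠ 0 from fun e => by rw [e, map_zero] at hz; exact zero_ne_one hz)
      (loc2 p L S (P.place i) v)
    rw [locCoord_apply, locCoord_apply, loc2_gal2 hg v, ← hs, map_smul, hz, smul_eq_mul, mul_one]
    erw [map_smul, map_smul]
    rw [smul_eq_mul, mul_comm]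
  choose t ht using hcoord
  obtain ⟨i₀, hp₀, hi₀⟩ := hfix x
  have ht₀ : ∀ v, locCoord P inv (gal2 p L S x v) (x • i₀) = c * locCoord P inv v i₀ := by
    intro v
    obtain ⟨g, hgx, hg⟩ := exists_lift_smul P x i₀
    rw [hi₀] at hg ⊢
    rw [locCoord_apply, locCoord_apply, ← hgx, loc2_gal2 hg v,
      cjT2_local (P.prime i₀).2 hp₀ hL (P.liesOver i₀) hg]
    erw [map_smul]
    rw [smul_eq_mul]
    subst hgx
    rfl
  by_cases e : i = i₀
  · subst e; exact ht₀ v
  obtain ⟨w, hw⟩ := (mem_range_locCoord_iff P inv hinv hrange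
    (Pi.single i 1 - Pi.single i₀ 1)).2 (by simp)
  have h0 : ∑ a, locCoord P inv (gal2 p L S x w) a = 0 :=
    (mem_range_locCoord_iff P inv hinv hrange _).1 ⟨_, rfl⟩
  rw [← Equiv.sum_comp (MulAction.toPerm x : Equiv.Perm P.ι)] at h0
  simp only [MulAction.toPerm_apply, ht, hw, Pi.sub_apply, mul_sub, Finset.sum_sub_distrib,
    Pi.single_apply, mul_ite, mul_one, mul_zero, Finset.sum_ite_eq', Finset.mem_univ,
    if_true] at h0
  have h1 := (ht i₀ w).symm.trans (ht₀ w)
  rw [hw, Pi.sub_apply, Pi.single_eq_same, Pi.single_eq_of_ne (Ne.symm e), zero_sub] at h1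
  rw [ht]
  linear_combination (locCoord P inv v i) * h0 - (locCoord P inv v i) * h1

variable (p) in
/-- `H²(G_{L,S}, 𝔽_p)`, bundled. -/
@[reducible] def h2Rep (h : Module.Finite (ZMod p) (globalH2 p L S)) : FinRep (ZMod p) (GalL L) :=
  haveI := h
  ⟨globalH2 p L S, gal2 p L S⟩

include hL hinv hloc hrange hfix in
/-- The characteristic polynomials on `H²(G_{L,S}, 𝔽_p)`. -/
theorem cp_h2Rep [Finite (GalL L)] (x : GalL L) :
    (charRep ((omegaL hL)⁻¹)).cp x *
        (h2Rep p (finite_globalH2_of_duality P inv hL hinv hloc)).cp x =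
      (permRep P.ι (charRep ((omegaL hL)⁻¹))).cp x := by
  have := finite_globalH2_of_duality P inv hL hinv hloc
  let R := h2Rep p (finite_globalH2_of_duality P inv hL hinv hloc)
  let T : FinRep (ZMod p) (GalL L) := charRep ((omegaL hL)⁻¹)
  let Q := permRep P.ι T
  let σ : Q.V →ₗ[ZMod p] T.V :=
    { toFun := fun φ => ∑ i, φ i
      map_add' := fun φ ψ => Finset.sum_add_distrib
      map_smul' := fun r φ => (Finset.smul_sum (r := r) (f := φ) (s := Finset.univ)).symm }
  have hi : ∀ y (v : R.V), (locCoord P inv (R.ρ y v) : Q.V) = Q.ρ y (locCoord P inv v) := by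
    intro y v
    funext a
    obtain ⟨i, rfl⟩ := MulAction.surjective y a
    show locCoord P inv (gal2 p L S y v) (y • i) =
      (((omegaL hL y)⁻¹ : (ZMod p)ˣ) : ZMod p) *
        locCoord P inv v ((MulAction.toPerm y : Equiv.Perm P.ι).symm (y • i))
    rw [locCoord_gal2 P inv hL hinv hrange hfix,
      show (MulAction.toPerm y : Equiv.Perm P.ι).symm (y • i) = i from inv_smul_smul y i]
  have hσ : ∀ y (φ : Q.V), σ (Q.ρ y φ) = T.ρ y (σ φ) := by
    intro y φ
    show ∑ a, T.ρ y (φ ((MulAction.toPerm y : Equiv.Perm P.ι).symm a)) = T.ρ y (∑ a, φ a)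
    rw [map_sum]
    exact Equiv.sum_comp ((MulAction.toPerm y : Equiv.Perm P.ι).symm) fun a => T.ρ y (φ a)
  rw [mul_comm]
  refine (cp_of_exact (R := R) (S := Q) (T := T) (locCoord P inv) σ hi hσ
    (locCoord_injective P inv hL hinv hloc) ?_ ?_ x).symm
  · intro r
    obtain ⟨i, -, -⟩ := hfix 1
    classical
    exact ⟨Pi.single i r, by simp [σ]⟩
  · refine le_antisymm (fun f hf => ?_) (fun f hf => ?_)
    · exact LinearMap.mem_ker.2 ((mem_range_locCoord_iff P inv hinv hrange f).1 hf)
    · exact (mem_range_locCoord_iff P inv hinv hrange f).2 (LinearMap.mem_ker.1 hf)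

omit [FiniteDimensional ℚ L] in
/-- Every element of `Gal(L)` fixes a place over `S` which does not lie over `p`. -/
def FixesPlace (p : ℕ) (P : PlaceSystem L S) : Prop :=
  ∀ x : GalL L, ∃ i : P.ι, (P.prime i : ℕ) ≠ p ∧ x • i = i

end

end FermatAgent.Duality.Euler
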