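import Fermat.Agent.Duality.Euler.CpH1
import Fermat.Agent.Duality.Euler.H2Rep
import Fermat.Agent.Duality.Global.Interface

/-!
# The identity of characteristic polynomials over the big field

For `L ⊇ μ_p` normal and `S` big, in the Grothendieck group of `Gal(L)`:
`H⁰ - H¹ + H² = -(infinite places) ⊗ ω⁻¹`.
-/

set_option autoImplicit false

open scoped Pointwise

namespace FermatAgent.Duality.Euler

open FermatAgent.Duality Module

noncomputable section

local notation "Qb" => AlgebraicClosure ℚ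
local notation "GQ" => AlgebraicClosure ℚ ≃ₐ[ℚ] AlgebraicClosure ℚ

attribute [local instance] Global.numberField_of_finite

section Twist

variable {k : Type} [Field k] {G : Type} [Group G]

lemma cp_tw_prodRep (χ : G →* kˣ) (R S : FinRep k G) (g : G) :
    ((R.prodRep S).tw χ).cp g = (R.tw χ).cp g * (S.tw χ).cp g := by
  rw [← cp_prodRep]
  rfl

lemma cp_tw_charRep (χ ψ : G →* kˣ) (g : G) :
    ((charRep ψ).tw χ).cp g = (charRep (χ * ψ)).cp g := by
  show ((χ g : k) • (charRep ψ).ρ g).charpoly = _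
  congr 1
  refine LinearMap.ext fun (c : k) => ?_
  show (χ g : k) * ((ψ g : k) * c) = (((χ * ψ) g : kˣ) : k) * c
  rw [MonoidHom.mul_apply, Units.val_mul, mul_assoc]

lemma cp_tw_permRep (X : Type) [MulAction G X] [Finite X] (χ ψ : G →* kˣ) (g : G) :
    ((permRep X (charRep ψ)).tw χ).cp g = (permRep X (charRep (χ * ψ))).cp g := by
  show ((χ g : k) • (permRep X (charRep ψ)).ρ g).charpoly = _
  congr 1
  refine LinearMap.ext fun (φ : X → k) => funext fun x => ?_
  show (χ g : k) * ((ψ g : k) * φ _) = (((χ * ψ) g : kˣ) : k) * φ _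
  rw [MonoidHom.mul_apply, Units.val_mul, mul_assoc]

lemma cp_tw_tw (χ ψ : G →* kˣ) (R : FinRep k G) (g : G) :
    ((R.tw ψ).tw χ).cp g = (R.tw (χ * ψ)).cp g := by
  show ((χ g : k) • ((ψ g : k) • R.ρ g)).charpoly = _
  rw [smul_smul, ← Units.val_mul]
  rfl

lemma cp_tw_one (R : FinRep k G) (g : G) : (R.tw 1).cp g = R.cp g := by
  show (((1 : G →* kˣ) g : k) • R.ρ g).charpoly = _
  rw [MonoidHom.one_apply, Units.val_one, one_smul]
  rfl

end Twist

variable {p : ℕ} [Fact p.Prime] {L : IntermediateField ℚ Qb} [FiniteDimensional ℚ L]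
  [L.fixingSubgroup.Normal] {S : Finset Nat.Primes} (P : PlaceSystem L S)

/-- The identity `cp(H⁰) cp(H²) cp(∞) = cp(H¹)`. -/
theorem exists_cp_identity [Finite (GalL L)] (hp : p ≠ 2) (hL : ContainsMuP p L)
    (hS : L.IsUnramifiedOutside S) (hpS : ExtCitation.pPrime p ∈ S)
    (hbig : ClassGroupGenerated p L S) (hsurj : Function.Surjective (kappaS hL hS hpS))
    (hfix : FixesPlace p P) :
    ∃ (h1 : Module.Finite (ZMod p) (globalH1 p L S))
      (h2 : Module.Finite (ZMod p) (globalH2 p L S)), ∀ x : GalL L,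
      (charRep (1 : GalL L →* (ZMod p)ˣ)).cp x * (h2Rep p h2).cp x *
          (permRep (GalL L ⧸ Subgroup.zpowers (ccL L)) (charRep (omegaL hL)⁻¹)).cp x =
        (h1Rep p L S h1).cp x := by
  obtain ⟨inv, hinv, -, hloc, hrange, -⟩ := exists_globalDuality p L S hp hL hS hpS hbig P
  refine ⟨finite_globalH1_of_kappaS hL hS hpS P hsurj,
    finite_globalH2_of_duality P inv hL hinv hloc, fun x => ?_⟩
  set W₁ := h1Rep p L S (finite_globalH1_of_kappaS hL hS hpS P hsurj)
  set W₂ := h2Rep p (finite_globalH2_of_duality P inv hL hinv hloc)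
  set ω := omegaL hL
  obtain ⟨e, he⟩ := exists_equiv_infinitePlace (L := L)
  have hperm : (permRep (GalL L ⧸ Subgroup.zpowers (ccL L)) (charRep ω⁻¹)).cp x =
      (permRep (NumberField.InfinitePlace L) (charRep ω⁻¹)).cp x :=
    charpoly_twistEnd_conj (MulAction.toPerm x) (MulAction.toPerm x) e (fun q => he x q) _
  have h2 : (charRep ω⁻¹).cp x * W₂.cp x = (permRep P.ι (charRep ω⁻¹)).cp x :=
    cp_h2Rep P inv hL hinv hloc hrange hfix x
  have key : ((((W₁.tw ω).prodRep (charRep 1))).tw ω⁻¹).cp x =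
      (((charRep ω).prodRep ((permRep (NumberField.InfinitePlace L) (charRep 1)).prodRep
        (permRep P.ι (charRep 1)))).tw ω⁻¹).cp x :=
    cp_tw_congr _ (by
      rw [cp_prodRep, cp_prodRep, cp_prodRep]
      exact cp_h1Rep hL hS hpS P hp hsurj x)
  have hω1 : ω⁻¹ * ω = 1 := MonoidHom.ext fun g => by simp
  have hω2 : ω⁻¹ * 1 = ω⁻¹ := MonoidHom.ext fun g => by simp
  rw [cp_tw_prodRep, cp_tw_prodRep, cp_tw_prodRep, cp_tw_tw, cp_tw_charRep, cp_tw_charRep,
    cp_tw_permRep, cp_tw_permRep, hω1, hω2, cp_tw_one, ← h2] at key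
  rw [hperm]
  have hne : (charRep ω⁻¹).cp x ≠ 0 := (LinearMap.charpoly_monic ((charRep ω⁻¹).ρ x)).ne_zero
  refine mul_right_cancel₀ hne ?_
  rw [key]
  ring

end

end FermatAgent.Duality.Euler
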