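import Fermat.Agent.Duality.Euler.Invariants

/-!
# The Euler characteristic on induced modules, from an identity of characteristic polynomials
-/

set_option autoImplicit false

namespace FermatAgent.Duality.Euler

open Module Representation

section NegDim

variable {k : Type} [Field k] {G : Type} [Group G]

/-- The dimension of the `-1`-eigenspace of `c`. -/
noncomputable def negDim (c : G) (R : FinRep k G) : ℤ :=
  finrank k (LinearMap.ker (R.ρ c + 1))

lemma mem_ker_add_one {R : FinRep k G} {c : G} {v : R.V} :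
    v ∈ LinearMap.ker (R.ρ c + 1) ↔ R.ρ c v = -v := by
  rw [LinearMap.mem_ker, LinearMap.add_apply, Module.End.one_apply, add_eq_zero_iff_eq_neg]

theorem isExactAdditive_negDim {c : G} (hc : c * c = 1) (h2 : (2 : k) ≠ 0) :
    IsExactAdditive (negDim c : FinRep k G → ℤ) := by
  intro R S T i π hi hπ hinj hsurj hexact
  let i' : LinearMap.ker (R.ρ c + 1) →ₗ[k] LinearMap.ker (S.ρ c + 1) :=
    (i ∘ₗ Submodule.subtype _).codRestrict _ fun v => by
      rw [mem_ker_add_one]
      show S.ρ c (i v.1) = -i v.1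
      rw [← hi, mem_ker_add_one.mp v.2, map_neg]
  let π' : LinearMap.ker (S.ρ c + 1) →ₗ[k] LinearMap.ker (T.ρ c + 1) :=
    (π ∘ₗ Submodule.subtype _).codRestrict _ fun v => by
      rw [mem_ker_add_one]
      show T.ρ c (π v.1) = -π v.1
      rw [← hπ, mem_ker_add_one.mp v.2, map_neg]
  have hcc : ∀ v, S.ρ c (S.ρ c v) = v := fun v => by
    rw [← Module.End.mul_apply, ← map_mul, hc, map_one]; rfl
  have hs' : Function.Surjective π' := by
    rintro ⟨w, hw⟩
    obtain ⟨v, rfl⟩ := hsurj w
    refine ⟨⟨(2 : k)⁻¹ • (v - S.ρ c v), ?_⟩, Subtype.ext ?_⟩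
    · rw [mem_ker_add_one, map_smul, map_sub, hcc, ← smul_neg, neg_sub]
    · show π ((2 : k)⁻¹ • (v - S.ρ c v)) = π v
      rw [map_smul, map_sub, hπ, mem_ker_add_one.mp hw, sub_neg_eq_add, ← two_smul k (π v),
        inv_smul_smul₀ h2]
  have hker : LinearMap.ker π' = LinearMap.range i' := by
    refine le_antisymm (fun v hv => ?_) ?_
    · have hv' : π v.1 = 0 := congrArg Subtype.val (LinearMap.mem_ker.mp hv)
      obtain ⟨u, hu⟩ := (hexact.ge (LinearMap.mem_ker.mpr hv') : v.1 ∈ LinearMap.range i)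
      refine ⟨⟨u, ?_⟩, Subtype.ext hu⟩
      rw [mem_ker_add_one]
      apply hinj
      rw [hi, map_neg, hu, mem_ker_add_one.mp v.2]
    · rintro _ ⟨u, rfl⟩
      exact LinearMap.mem_ker.mpr (Subtype.ext
        (LinearMap.mem_ker.mp (hexact.le ⟨u.1, rfl⟩ : i u.1 ∈ LinearMap.ker π)))
  have hi' : Function.Injective i' := fun a b h => Subtype.ext (hinj (congrArg Subtype.val h))
  have h1 := π'.finrank_range_add_finrank_ker
  rw [LinearMap.range_eq_top.mpr hs', finrank_top, hker,
    LinearMap.finrank_range_of_inj hi'] at h1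
  simp only [negDim]
  omega

end NegDim

variable {k : Type} [Field k] {G : Type} [Group G]

/-- Evaluation identifies `V` with the maps `Vᵛ → k`. -/
theorem homInv_charRep_one {B : Type} [Group B] [Finite B] (V : FinRep k B) :
    homInv B V (charRep 1) = finrank k V.ρ.invariants := by
  let e : V.V ≃ₗ[k] (Dual k V.V →ₗ[k] k) := Module.evalEquiv k V.V
  have he : ∀ b v, linHom (dual V.ρ) (charRep (1 : B →* kˣ)).ρ b (e v) = e (V.ρ b v) := by
    intro b v
    ext l
    show (((1 : B →* kˣ) b : kˣ) : k) • l (V.ρ b⁻¹⁻¹ v) = l (V.ρ b v)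
    rw [inv_inv, MonoidHom.one_apply, Units.val_one, one_smul]
  have hmap : (linHom (dual V.ρ) (charRep (1 : B →* kˣ)).ρ).invariants =
      V.ρ.invariants.map e.toLinearMap := by
    refine le_antisymm (fun T hT => ?_) ?_
    · refine ⟨e.symm T, fun b => e.injective ((he b _).symm.trans ?_), e.apply_symm_apply T⟩
      show linHom _ _ b (e (e.symm T)) = e (e.symm T)
      rw [e.apply_symm_apply]
      exact hT b
    · rintro _ ⟨v, hv, rfl⟩ b
      exact (he b v).trans (congrArg e (hv b))
  rw [homInv, hmap]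
  exact congrArg Nat.cast (LinearEquiv.finrank_map_eq e V.ρ.invariants)

variable [Finite G]

/-- The comparison between the twisted permutation module of the infinite places and the
`-1`-eigenspace of complex conjugation on an induced module. -/
theorem homInv_perm_eq_negDim {c : G} (hc : c * c = 1) (ω : G →* kˣ) (hω : (ω c : k) = -1)
    (B : Subgroup G) (R : FinRep k G) :
    homInv B (R.res B) ((permRep (G ⧸ Subgroup.zpowers c) (charRep ω⁻¹)).res B) =
      negDim c (permRep (G ⧸ B) R) := by
  classical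
  let X := G ⧸ Subgroup.zpowers c
  let W := (permRep X (charRep ω⁻¹)).res B
  -- maps `Vᵛ → (X → k)` are functions `X → V`
  let Φ : (X → R.V) →ₗ[k] (Dual k R.V →ₗ[k] W.V) :=
    LinearMap.mk₂ k (fun φ l x => l (φ x)) (fun φ ψ l => by funext x; exact map_add l _ _)
      (fun r φ l => by funext x; exact map_smul l r _) (fun φ l m => rfl) (fun r φ l => rfl)
  have hΦinj : Function.Injective Φ := fun φ ψ h => funext fun x =>
    (Module.evalEquiv k R.V).injective (LinearMap.ext fun l =>
      congrFun (LinearMap.congr_fun h l) x)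
  have hΦsurj : Function.Surjective Φ := fun T => by
    refine ⟨fun x => (Module.evalEquiv k R.V).symm (LinearMap.proj x ∘ₗ T), ?_⟩
    refine LinearMap.ext fun l => funext fun x => ?_
    exact LinearMap.congr_fun
      ((Module.evalEquiv k R.V).apply_symm_apply (LinearMap.proj x ∘ₗ T)) l
  let act : B → (X → R.V) → X → R.V := fun b φ x =>
    ((ω⁻¹ (b : G) : kˣ) : k) • R.ρ b (φ (((b : G))⁻¹ • x))
  have hΦact : ∀ (b : B) φ, linHom (dual (R.res B).ρ) W.ρ b (Φ φ) = Φ (act b φ) := by
    intro b φ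
    refine LinearMap.ext fun l => funext fun x => ?_
    show ((ω⁻¹ (b : G) : kˣ) : k) * l (R.ρ ((b⁻¹ : B)⁻¹ : B) (φ (((b : G))⁻¹ • x))) =
      l (((ω⁻¹ (b : G) : kˣ) : k) • R.ρ b (φ (((b : G))⁻¹ • x)))
    rw [inv_inv]
    exact (l.map_smul _ _).symm
  let Θ : Submodule k (X → R.V) :=
    { carrier := {φ | ∀ b : B, act b φ = φ}
      add_mem' := fun {φ ψ} hφ hψ b => funext fun x => by
        have h1 := congrFun (hφ b) x
        have h2 := congrFun (hψ b) x
        simp only [act] at h1 h2 ⊢
        simp only [Pi.add_apply, map_add, smul_add, h1, h2]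
      zero_mem' := fun b => funext fun x => by simp [act]
      smul_mem' := fun r φ hφ b => funext fun x => by
        have h1 := congrFun (hφ b) x
        simp only [act] at h1 ⊢
        simp only [Pi.smul_apply, map_smul]
        rw [smul_comm, h1] }
  have hinv : (linHom (dual (R.res B).ρ) W.ρ).invariants = Θ.map Φ := by
    refine le_antisymm (fun T hT => ?_) ?_
    · obtain ⟨φ, rfl⟩ := hΦsurj T
      exact ⟨φ, fun b => hΦinj ((hΦact b φ).symm.trans (hT b)), rfl⟩
    · rintro _ ⟨φ, hφ, rfl⟩ b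
      rw [hΦact, hφ b]
  -- functions on `X` and on `G ⧸ B`
  let χ : G → k := fun y => ((ω⁻¹ y : kˣ) : k)
  have χmul : ∀ y z, χ (y * z) = χ y * χ z := fun y z => by simp [χ, mul_comm]
  have χc : χ c = -1 := by
    show (((ω c)⁻¹ : kˣ) : k) = -1
    rw [Units.val_inv_eq_inv_val, hω, inv_neg, inv_one]
  have hmod : ∀ (θ : Θ) (y : G) (b : B),
      χ (y * b) • R.ρ (y * b) (θ.1 (((y * b)⁻¹ : G) : X)) = χ y • R.ρ y (θ.1 ((y⁻¹ : G) : X)) := by
    intro θ y b
    have h := congrFun (θ.2 b) ((y⁻¹ : G) : X)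
    simp only [act, X, MulAction.Quotient.smul_coe, smul_eq_mul] at h
    conv_rhs => rw [← h, map_smul, smul_smul, ← Module.End.mul_apply, ← map_mul]
    rw [χmul, _root_.mul_inv_rev]
  let F : Θ →ₗ[k] LinearMap.ker ((permRep (G ⧸ B) R).ρ c + 1) :=
    { toFun := fun θ => ⟨Quotient.lift (fun y => χ y • R.ρ y (θ.1 ((y⁻¹ : G) : X)))
          (fun y z hyz => by
            have hb : y⁻¹ * z ∈ B := (QuotientGroup.leftRel_apply).mp hyz
            have := hmod θ y ⟨_, hb⟩
            simp only [mul_inv_cancel_left] at this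
            exact this.symm), by
        rw [mem_ker_add_one]
        funext q
        induction q using QuotientGroup.induction_on with
        | _ y =>
        show R.ρ c (χ (c⁻¹ * y) • R.ρ (c⁻¹ * y) (θ.1 (((c⁻¹ * y)⁻¹ : G) : X))) =
          -(χ y • R.ρ y (θ.1 ((y⁻¹ : G) : X)))
        have hX : (((c⁻¹ * y)⁻¹ : G) : X) = ((y⁻¹ : G) : X) := by
          rw [QuotientGroup.eq, inv_inv, mul_assoc, mul_inv_cancel, mul_one]
          exact inv_mem (Subgroup.mem_zpowers c)
        rw [hX, χmul, show c⁻¹ = c from inv_eq_of_mul_eq_one_left hc, χc, map_smul,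
          ← Module.End.mul_apply, ← map_mul, ← mul_assoc, hc, one_mul, neg_one_mul, neg_smul]⟩
      map_add' := fun θ θ' => Subtype.ext (funext fun q => by
        induction q using QuotientGroup.induction_on with
        | _ y => show χ y • R.ρ y _ = χ y • R.ρ y _ + χ y • R.ρ y _
                 simp [smul_add])
      map_smul' := fun r θ => Subtype.ext (funext fun q => by
        induction q using QuotientGroup.induction_on with
        | _ y => show χ y • R.ρ y _ = r • χ y • R.ρ y _
                 simp [smul_comm (χ y) r]) }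
  have hFinj : Function.Injective F := by
    intro θ θ' h
    refine Subtype.ext (funext fun x => ?_)
    induction x using QuotientGroup.induction_on with
    | _ y =>
    have h1 := congrFun (congrArg Subtype.val h) ((y⁻¹ : G) : G ⧸ B)
    change χ y⁻¹ • R.ρ y⁻¹ (θ.1 (((y⁻¹)⁻¹ : G) : X)) =
      χ y⁻¹ • R.ρ y⁻¹ (θ'.1 (((y⁻¹)⁻¹ : G) : X)) at h1
    have h2 := congrArg (R.ρ y) (smul_right_injective R.V (r := χ y⁻¹) (Units.ne_zero _) h1)
    simpa only [← Module.End.mul_apply, ← map_mul, mul_inv_cancel, map_one,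
      Module.End.one_apply, inv_inv] using h2
  have hFsurj : Function.Surjective F := by
    rintro ⟨ψ, hψ⟩
    rw [mem_ker_add_one] at hψ
    have hψc : ∀ y : G, R.ρ c (ψ ((c⁻¹ * y : G) : G ⧸ B)) = -ψ (y : G ⧸ B) := fun y =>
      congrFun hψ (y : G ⧸ B)
    have hcinv : c⁻¹ = c := inv_eq_of_mul_eq_one_left hc
    let θ0 : G → R.V := fun z => χ z • R.ρ z (ψ ((z⁻¹ : G) : G ⧸ B))
    have hθc : ∀ z, θ0 (z * c) = θ0 z := fun z => by
      simp only [θ0]
      rw [χmul, χc, map_mul, Module.End.mul_apply, _root_.mul_inv_rev, hψc, map_neg, smul_neg,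
        mul_neg_one, neg_smul, neg_neg]
    have hcmem : ∀ z, z ∈ Subgroup.zpowers c → z = 1 ∨ z = c := by
      intro z hz
      obtain ⟨m, rfl⟩ := Subgroup.mem_zpowers_iff.mp hz
      rcases Int.even_or_odd m with ⟨r, rfl⟩ | ⟨r, rfl⟩
      · left; rw [zpow_add, ← (Commute.refl c).mul_zpow, hc, one_zpow]
      · right
        rw [zpow_add, two_mul, zpow_add, ← (Commute.refl c).mul_zpow, hc, one_zpow, one_mul,
          zpow_one]
    let θ : X → R.V := Quotient.lift θ0 (fun y z hyz => by
      rcases hcmem _ ((QuotientGroup.leftRel_apply).mp hyz) with e | e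
      · rw [inv_mul_eq_one.mp e]
      · rw [inv_mul_eq_iff_eq_mul.mp e, hθc])
    refine ⟨⟨θ, fun b => funext fun x => ?_⟩, Subtype.ext (funext fun q => ?_)⟩
    · induction x using QuotientGroup.induction_on with
      | _ z =>
      show χ b • R.ρ (b : G) (θ0 ((b : G)⁻¹ * z)) = θ0 z
      simp only [θ0]
      have hq : ((((b : G)⁻¹ * z)⁻¹ : G) : G ⧸ B) = ((z⁻¹ : G) : G ⧸ B) := by
        rw [QuotientGroup.eq, inv_inv, mul_assoc, mul_inv_cancel, mul_one]
        exact inv_mem b.2
      rw [hq, map_smul, smul_smul, ← χmul, mul_inv_cancel_left, ← Module.End.mul_apply, ← map_mul,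
        mul_inv_cancel_left]
    · induction q using QuotientGroup.induction_on with
      | _ y =>
      show χ y • R.ρ y (χ y⁻¹ • R.ρ y⁻¹ (ψ (((y⁻¹)⁻¹ : G) : G ⧸ B))) = ψ (y : G ⧸ B)
      rw [map_smul, smul_smul, ← χmul, mul_inv_cancel, ← Module.End.mul_apply, ← map_mul,
        mul_inv_cancel, map_one, Module.End.one_apply, inv_inv]
      simp [χ]
  rw [homInv, negDim, hinv]
  exact congrArg Nat.cast ((Submodule.equivMapOfInjective Φ hΦinj Θ).finrank_eq.symm.trans
    (LinearEquiv.ofBijective F ⟨hFinj, hFsurj⟩).finrank_eq)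

/-- If the cohomology of the big field has the class of `-(infinite places)`, the Euler
characteristic formula holds on modules induced from cyclic subgroups of order prime to `p`. -/
theorem euler_of_cp_identity [Finite k] {c : G} (hc : c * c = 1) (ω : G →* kˣ)
    (hω : (ω c : k) = -1) (W₁ W₂ : FinRep k G)
    (hid : ∀ g, (charRep (1 : G →* kˣ)).cp g * W₂.cp g *
      (permRep (G ⧸ Subgroup.zpowers c) (charRep ω⁻¹)).cp g = W₁.cp g)
    (B : Subgroup G) (hB : (Nat.card B : k) ≠ 0) (R : FinRep k G) :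
    (finrank k (R.res B).ρ.invariants : ℤ) - homInv B (R.res B) (W₁.res B) +
      homInv B (R.res B) (W₂.res B) = -negDim c (permRep (G ⧸ B) R) := by
  have hf := isExactAdditive_homInv (k := k) B (R.res B) hB
  have key := eq_of_cp_eq hf
    (R := ((((charRep (1 : G →* kˣ)).prodRep W₂).prodRep
      (permRep (G ⧸ Subgroup.zpowers c) (charRep ω⁻¹))).res B))
    (S := W₁.res B) (fun g => by rw [cp_res, cp_res, cp_prodRep, cp_prodRep, hid])
  have hsplit : homInv B (R.res B) ((((charRep (1 : G →* kˣ)).prodRep W₂).prodRep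
      (permRep (G ⧸ Subgroup.zpowers c) (charRep ω⁻¹))).res B) =
      homInv B (R.res B) ((charRep (1 : G →* kˣ)).res B) + homInv B (R.res B) (W₂.res B) +
        homInv B (R.res B) ((permRep (G ⧸ Subgroup.zpowers c) (charRep ω⁻¹)).res B) := by
    rw [← hf.map_prodRep, ← hf.map_prodRep]
    exact hf.map_iso ⟨LinearEquiv.refl k _, fun _ _ => rfl⟩
  have h1 : homInv B (R.res B) ((charRep (1 : G →* kˣ)).res B) =
      finrank k (R.res B).ρ.invariants := by
    rw [← homInv_charRep_one]
    exact hf.map_iso ⟨LinearEquiv.refl k _, fun _ _ => rfl⟩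
  rw [hsplit, h1, homInv_perm_eq_negDim hc ω hω] at key
  linarith

end FermatAgent.Duality.Euler
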