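import Fermat.Agent.Duality.Euler.H2Rep
import Fermat.Agent.Duality.Global.LocalDegrees
import Fermat.Agent.GalRep.Density.Frobenius

/-!
# Place systems, and auxiliary primes whose decomposition groups cover a finite Galois group
-/

set_option autoImplicit false

open scoped Pointwise

namespace FermatAgent.Duality.Euler

open FermatAgent.Duality IsDedekindDomain NumberField

noncomputable section

local notation "Qb" => AlgebraicClosure ℚ
local notation "GQ" => AlgebraicClosure ℚ ≃ₐ[ℚ] AlgebraicClosure ℚ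

attribute [local instance] FermatAgent.RT.isGalois_algClosureRat Global.numberField_of_finite

variable (L : IntermediateField ℚ Qb) [FiniteDimensional ℚ L]

/-- Every finite extension has a place system over every finite set of primes. -/
theorem nonempty_placeSystem (S : Finset Nat.Primes) : Nonempty (PlaceSystem L S) := by
  classical
  let T := {v : HeightOneSpectrum (𝓞 L) | ∃ q ∈ S, ((q : ℕ) : 𝓞 L) ∈ v.asIdeal}
  have hT : T.Finite := by
    refine (S.finite_toSet.biUnion fun q _ =>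
      Ideal.finite_factors (I := Ideal.span {((q : ℕ) : 𝓞 L)}) ?_).subset fun v hv => ?_
    · simp [q.2.ne_zero]
    · obtain ⟨q, hq, hqv⟩ := hv
      exact Set.mem_biUnion hq (Ideal.dvd_span_singleton.2 hqv)
  have : Fintype T := hT.fintype
  have h : ∀ v : T, ∃ (A : ValuationSubring Qb) (q : Nat.Primes),
      Global.Over L A v.1 ∧ q ∈ S ∧ A.LiesOverPrime (q : ℕ) := by
    rintro ⟨v, q, hq, hqv⟩
    obtain ⟨A, hA⟩ := Global.exists_place v
    obtain ⟨l, hl, hlA⟩ := hA.1
    refine ⟨A, q, hA, hq, ?_⟩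
    have h1 := hqv
    rw [← hA.2, Ideal.mem_comap, map_natCast, ← Int.cast_natCast,
      RT.intCast_mem_centre_iff hl hlA, Int.natCast_dvd_natCast] at h1
    rwa [← (Nat.prime_dvd_prime_iff_eq hl q.2).1 h1]
  choose A q hA hq hlies using h
  refine ⟨{
    ι := T
    prime := q
    place := A
    prime_mem := hq
    liesOver := hlies
    exhausts := fun r hr B hB => ?_
    inj := fun i j g hg e => Subtype.ext (((hA i).smul hg).eq (e ▸ hA j)) }⟩
  obtain ⟨v, hv⟩ := Global.exists_over (K := L) (A := B) ⟨_, r.2, hB⟩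
  let i : T := ⟨v, r, hr, hv.natCast_mem hB⟩
  obtain ⟨g, hg, e⟩ := Global.exists_smul_eq_of_over (hA i) hv
  refine ⟨i, Subtype.ext ?_, g, hg, e⟩
  have h1 := (hA i).natCast_mem (hlies i)
  rw [show (i.1 : HeightOneSpectrum (𝓞 L)) = v from rfl, ← hv.2, Ideal.mem_comap, map_natCast,
    ← Int.cast_natCast, RT.intCast_mem_centre_iff r.2 hB, Int.natCast_dvd_natCast] at h1
  exact ((Nat.prime_dvd_prime_iff_eq r.2 (q i).2).1 h1).symm

variable [L.fixingSubgroup.Normal]

/-- Every element of `Gal(L)` lies in the decomposition group of a place over `S` not above `p`. -/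
def HasFrobPrimes (p : ℕ) (S : Finset Nat.Primes) : Prop :=
  ∀ x : GalL L, ∃ q ∈ S, (q : ℕ) ≠ p ∧ ∃ A : ValuationSubring Qb, A.LiesOverPrime (q : ℕ) ∧
    ∃ g : GQ, (g : GalL L) = x ∧ g ∈ A.decompositionSubgroup ℚ

variable {L}

omit [FiniteDimensional ℚ L] [L.fixingSubgroup.Normal] in
lemma HasFrobPrimes.mono {p : ℕ} {S T : Finset Nat.Primes} (h : HasFrobPrimes L p S) (hST : S ⊆ T) :
    HasFrobPrimes L p T := fun x => by
  obtain ⟨q, hq, h⟩ := h x
  exact ⟨q, hST hq, h⟩

omit [FiniteDimensional ℚ L] in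
theorem HasFrobPrimes.fixesPlace {p : ℕ} {S : Finset Nat.Primes} (h : HasFrobPrimes L p S)
    (P : PlaceSystem L S) : FixesPlace p P := by
  intro x
  obtain ⟨q, hq, hqp, A, hA, g, rfl, hg⟩ := h x
  obtain ⟨i, hi, n, hn, rfl⟩ := P.exhausts q hq A hA
  refine ⟨i, by rw [hi]; exact hqp, ?_⟩
  have hn' : g * n⁻¹ * g⁻¹ * n ∈ L.fixingSubgroup :=
    mul_mem ((inferInstance : L.fixingSubgroup.Normal).conj_mem _ (inv_mem hn) g) hn
  refine smul_eq_self_of_mem P hn' ?_
  have hfix : g • n • P.place i = n • P.place i := hg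
  calc g • P.place i = (g * n⁻¹) • (n • P.place i) := by rw [mul_smul, inv_smul_smul]
    _ = (g * n⁻¹ * g⁻¹) • (n • P.place i) := by
        conv_rhs => rw [mul_smul, ← hfix, inv_smul_smul]
    _ = _ := (mul_smul _ _ _).symm

omit [L.fixingSubgroup.Normal] in
variable (L) in
/-- Such primes exist, by the theorem of Frobenius. -/
theorem exists_hasFrobPrimes (p : ℕ) : ∃ S : Finset Nat.Primes, HasFrobPrimes L p S := by
  classical
  have := finite_galL L
  have : Fintype (GalL L) := Fintype.ofFinite _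
  have h : ∀ x : GalL L, ∃ q : Nat.Primes, (q : ℕ) ≠ p ∧ ∃ A : ValuationSubring Qb,
      A.LiesOverPrime (q : ℕ) ∧ ∃ g : GQ, (g : GalL L) = x ∧ g ∈ A.decompositionSubgroup ℚ := by
    intro x
    induction x using QuotientGroup.induction_on with
    | _ σ =>
    obtain ⟨q, hq, hqp, A, hA, τ, hτ, m, k, hm, -⟩ :=
      GalRep.exists_isFrobeniusAt_pow_eq L σ (Set.finite_singleton p)
    refine ⟨⟨q, hq⟩, hqp, A, hA, τ ^ m, ?_, pow_mem hτ.mem_decompositionSubgroup m⟩
    refine QuotientGroup.eq.2 fun y => ?_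
    show (τ ^ m)⁻¹ (σ (y : Qb)) = y
    rw [← hm y y.2, ← AlgEquiv.mul_apply, inv_mul_cancel, AlgEquiv.one_apply]
  choose q hq A hA g hg hd using h
  exact ⟨Finset.univ.image q, fun x =>
    ⟨q x, Finset.mem_image_of_mem _ (Finset.mem_univ x), hq x, A x, hA x, g x, hg x, hd x⟩⟩

omit [L.fixingSubgroup.Normal] in
/-- More primes keep the class group generated. -/
theorem classGroupGenerated_mono {p : ℕ} {S T : Finset Nat.Primes}
    (h : ClassGroupGenerated p L S) (hST : S ⊆ T) : ClassGroupGenerated p L T := by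
  unfold ClassGroupGenerated at h ⊢
  refine eq_top_iff.2 (h.symm.le.trans (sup_le_sup_right (Subgroup.closure_mono ?_) _))
  rintro c ⟨P, hP, ⟨q, hq, hqP⟩, hc⟩
  exact ⟨P, hP, ⟨q, hST hq, hqP⟩, hc⟩

end

end FermatAgent.Duality.Euler
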