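import Fermat.Agent.Duality.Euler.Conj
import Fermat.Agent.Duality.Global.Places
import Fermat.Agent.TW.Places

/-!
# The Galois group of a normal field acting on its cohomology and on its places
-/

set_option autoImplicit false

open scoped Pointwise

namespace FermatAgent.Duality.Euler

open FermatAgent.Duality

noncomputable section

local notation "Qb" => AlgebraicClosure ℚ
local notation "GQ" => AlgebraicClosure ℚ ≃ₐ[ℚ] AlgebraicClosure ℚ

variable (p : ℕ) [Fact p.Prime] (L : IntermediateField ℚ Qb) [L.fixingSubgroup.Normal]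
  (S : Finset Nat.Primes)

/-- The Galois group of `L`. -/
abbrev GalL : Type := GQ ⧸ L.fixingSubgroup

omit [L.fixingSubgroup.Normal] in
lemma finite_galL [FiniteDimensional ℚ L] : Finite (GalL L) := by
  have := finiteIndex_fixingSubgroup L
  infer_instance

/-- `Gal(L)` acting on `H¹(G_{L,S}, 𝔽_p)`. -/
def gal1 : Representation (ZMod p) (GalL L) (globalH1 p L S) :=
  QuotientGroup.lift L.fixingSubgroup
    { toFun := fun g => conjT1 (ZMod p) (sLevels S) L.fixingSubgroup g
      map_one' := conjT1_of_mem (ZMod p) (sLevels S) (one_mem L.fixingSubgroup)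
      map_mul' := fun g h => conjT1_mul (ZMod p) (sLevels S) L.fixingSubgroup g h }
    fun _ hg => conjT1_of_mem (ZMod p) (sLevels S) hg

lemma gal1_mk (g : GQ) :
    gal1 p L S (g : GalL L) = conjT1 (ZMod p) (sLevels S) L.fixingSubgroup g := rfl

/-- `Gal(L)` acting on `H²(G_{L,S}, 𝔽_p)`. -/
def gal2 : Representation (ZMod p) (GalL L) (globalH2 p L S) :=
  QuotientGroup.lift L.fixingSubgroup
    { toFun := fun g => conjT2 (ZMod p) (sLevels S) L.fixingSubgroup g
      map_one' := conjT2_of_mem (ZMod p) (sLevels S) (one_mem L.fixingSubgroup)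
      map_mul' := fun g h => conjT2_mul (ZMod p) (sLevels S) L.fixingSubgroup g h }
    fun _ hg => conjT2_of_mem (ZMod p) (sLevels S) hg

lemma gal2_mk (g : GQ) :
    gal2 p L S (g : GalL L) = conjT2 (ZMod p) (sLevels S) L.fixingSubgroup g := rfl

variable {p L S}

/-- The cyclotomic character of a normal field containing `μ_p`. -/
def omegaL (hL : ContainsMuP p L) : GalL L →* (ZMod p)ˣ :=
  QuotientGroup.lift L.fixingSubgroup (ExtCitation.cycloChar p) hL

lemma omegaL_mk (hL : ContainsMuP p L) (g : GQ) :
    omegaL hL (g : GalL L) = ExtCitation.cycloChar p g := rfl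

section Places

variable (P : PlaceSystem L S)

omit [L.fixingSubgroup.Normal] in
lemma exists_placeIdx (g : GQ) (i : P.ι) :
    ∃ j, P.prime j = P.prime i ∧ ∃ n ∈ L.fixingSubgroup, g • P.place i = n • P.place j :=
  P.exhausts _ (P.prime_mem i) _ (TW.smul_liesOverPrime (P.liesOver i) g)

/-- The index of the translate of a place. -/
def placeIdx (g : GQ) (i : P.ι) : P.ι := (exists_placeIdx P g i).choose

omit [L.fixingSubgroup.Normal] in
lemma prime_placeIdx (g : GQ) (i : P.ι) : P.prime (placeIdx P g i) = P.prime i :=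
  (exists_placeIdx P g i).choose_spec.1

omit [L.fixingSubgroup.Normal] in
lemma placeIdx_eq_of {g : GQ} {i j : P.ι} {n : GQ} (hn : n ∈ L.fixingSubgroup)
    (h : g • P.place i = n • P.place j) : placeIdx P g i = j := by
  obtain ⟨m, hm, hm'⟩ := (exists_placeIdx P g i).choose_spec.2
  refine (P.inj j _ (m⁻¹ * n) (mul_mem (inv_mem hm) hn) ?_).symm
  rw [mul_smul, ← h, hm', inv_smul_smul]
  rfl

/-- The action of `GQ` on the places. -/
def placePerm : GQ →* Equiv.Perm P.ι where
  toFun g :=
    { toFun := placeIdx P g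
      invFun := placeIdx P g⁻¹
      left_inv := fun i => by
        obtain ⟨n, hn, h⟩ := (exists_placeIdx P g i).choose_spec.2
        refine placeIdx_eq_of P (n := g⁻¹ * n⁻¹ * g)
          (by simpa using (inferInstance : L.fixingSubgroup.Normal).conj_mem _ (inv_mem hn) g⁻¹) ?_
        show g⁻¹ • P.place (placeIdx P g i) = _
        rw [mul_smul, h, mul_smul, inv_smul_smul]
        rfl
      right_inv := fun i => by
        obtain ⟨n, hn, h⟩ := (exists_placeIdx P g⁻¹ i).choose_spec.2
        refine placeIdx_eq_of P (n := g * n⁻¹ * g⁻¹)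
          ((inferInstance : L.fixingSubgroup.Normal).conj_mem _ (inv_mem hn) g) ?_
        show g • P.place (placeIdx P g⁻¹ i) = _
        rw [mul_smul, h, mul_smul, inv_smul_smul]
        rfl }
  map_one' := Equiv.ext fun i =>
    placeIdx_eq_of P (one_mem _) (by rw [Equiv.Perm.one_apply, one_smul])
  map_mul' g h := Equiv.ext fun i => by
    obtain ⟨n, hn, e⟩ := (exists_placeIdx P h i).choose_spec.2
    obtain ⟨m, hm, e'⟩ := (exists_placeIdx P g (placeIdx P h i)).choose_spec.2
    refine placeIdx_eq_of P (n := g * n * g⁻¹ * m)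
      (mul_mem ((inferInstance : L.fixingSubgroup.Normal).conj_mem _ hn g) hm) ?_
    show (g * h) • P.place i = _ • P.place (placeIdx P g (placeIdx P h i))
    rw [mul_smul, e, mul_smul _ m]
    refine Eq.trans ?_ (congrArg ((g * n * g⁻¹) • ·) e')
    show g • n • P.place (placeIdx P h i) = (g * n * g⁻¹) • g • P.place (placeIdx P h i)
    rw [mul_smul, mul_smul, inv_smul_smul]

/-- `Gal(L)` acting on the places. -/
instance placeAction : MulAction (GalL L) P.ι :=
  MulAction.compHom P.ι
    (QuotientGroup.lift L.fixingSubgroup (placePerm P) fun _ hn => Equiv.ext fun _ =>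
      placeIdx_eq_of P hn rfl)

lemma mk_smul_place (g : GQ) (i : P.ι) : (g : GalL L) • i = placeIdx P g i := rfl

lemma prime_smul (x : GalL L) (i : P.ι) : P.prime (x • i) = P.prime i := by
  induction x using QuotientGroup.induction_on with
  | _ g => rw [mk_smul_place, prime_placeIdx]

/-- Some lift of an element of `Gal(L)` maps a place exactly to its translate. -/
lemma exists_lift_smul (x : GalL L) (i : P.ι) :
    ∃ g : GQ, (g : GalL L) = x ∧ g • P.place i = P.place (x • i) := by
  induction x using QuotientGroup.induction_on with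
  | _ g =>
  obtain ⟨n, hn, h⟩ := (exists_placeIdx P g i).choose_spec.2
  refine ⟨n⁻¹ * g, ?_, ?_⟩
  · rw [QuotientGroup.mk_mul, show ((n⁻¹ : GQ) : GalL L) = 1 from
      (QuotientGroup.eq_one_iff _).2 (inv_mem hn), one_mul]
  · rw [mul_smul, h, inv_smul_smul]
    rfl

lemma smul_eq_self_of_mem {g : GQ} {i : P.ι} {n : GQ} (hn : n ∈ L.fixingSubgroup)
    (h : g • P.place i = n • P.place i) : (g : GalL L) • i = i :=
  placeIdx_eq_of P hn h

end Places

end

end FermatAgent.Duality.Euler
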