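import Fermat.Agent.Duality.Euler.SUnit
import Fermat.Agent.Duality.Euler.LocalScalar
import Fermat.Agent.Duality.Global.LocalSymbol

/-!
# Equivariant Kummer theory for `S`-units

`kappaS` sends an `S`-unit `a` of `L ⊇ μ_p` to the class of `σ ↦ σ r / r`, `r ^ p = a`, in
`H¹(G_{L,S}, 𝔽_p)`. Conjugation by `g` corresponds to `ω(g)⁻¹` times the action on `S`-units.
-/

set_option autoImplicit false

open scoped Pointwise

namespace FermatAgent.Duality.Euler

open FermatAgent.Duality

noncomputable section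

local notation "Qb" => AlgebraicClosure ℚ
local notation "GQ" => AlgebraicClosure ℚ ≃ₐ[ℚ] AlgebraicClosure ℚ

attribute [local instance] FermatAgent.RT.isGalois_algClosureRat isGalois_of_normal_fixingSubgroup
  Global.numberField_of_finite

variable {p : ℕ} [Fact p.Prime]

/-- Kummer cocycles under conjugation. -/
theorem kapFun_conj {D : Subgroup GQ} (μ : Local.MuData p D) (d : GQ)
    (a a' : Local.fixedUnits D) (ha : ((a' : Qbˣ) : Qb) = d ((a : Qbˣ) : Qb)) (m n : D)
    (hm : (m : GQ) = d⁻¹ * n * d) :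
    Local.kapFun μ a m =
      (((ExtCitation.cycloChar p d)⁻¹ : (ZMod p)ˣ) : ZMod p) * Local.kapFun μ a' n := by
  set c : ZMod p := (((ExtCitation.cycloChar p d)⁻¹ : (ZMod p)ˣ) : ZMod p)
  refine Local.kapFun_eq_of μ a (r := d⁻¹ (Local.rootP p ((a' : Qbˣ) : Qb))) ?_ _ _ ?_
  · rw [← map_pow, Local.rootP_pow, ha]
    exact d.symm_apply_apply _
  · rw [hm, AlgEquiv.mul_apply, AlgEquiv.mul_apply, ← AlgEquiv.mul_apply d, mul_inv_cancel,
      AlgEquiv.one_apply, Local.kapFun_spec μ a' (Local.rootP_pow _) n, map_mul]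
    congr 1
    set i := Local.kapFun μ a' n
    have hspec := modularCyclotomicCharacter.spec Qb (ExtCitation.card_rootsOfUnity_eq_self p)
      ((d⁻¹ : GQ) : Qb ≃+* Qb) (t := Units.mk0 (Local.zpw p μ.ζ i)
        (Local.zpw_ne_zero μ.isPrimitiveRoot i))
      (by rw [mem_rootsOfUnity]
          exact Units.ext (by simpa using Local.zpw_pow_eq_one μ.isPrimitiveRoot i))
    refine hspec.trans ?_
    show Local.zpw p μ.ζ i ^ ((ExtCitation.cycloChar p d⁻¹ : (ZMod p)ˣ) : ZMod p).val = _
    rw [map_inv]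
    show Local.zpw p μ.ζ i ^ c.val = _
    conv_rhs => rw [show c * i = ((c.val * i.val : ℕ) : ZMod p) by
      have : NeZero p := ⟨(Fact.out : p.Prime).ne_zero⟩
      simp, Local.zpw_natCast μ.isPrimitiveRoot, mul_comm, pow_mul]
    rfl

variable {L : IntermediateField ℚ Qb} [FiniteDimensional ℚ L] [L.fixingSubgroup.Normal]
  {S : Finset Nat.Primes} (hL : ContainsMuP p L) (hS : L.IsUnramifiedOutside S)
  (hpS : ExtCitation.pPrime p ∈ S)

omit [L.fixingSubgroup.Normal] in
/-- The root of an `S`-unit generates an extension unramified outside `S`. -/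
theorem kapFun_sUnit_mem_Z1 (a : sUnitsL L S)
    (hS : L.IsUnramifiedOutside S) (hpS : ExtCitation.pPrime p ∈ S) :
    Local.kapFun (Global.muGlobal hL) (Global.toFix (a : Lˣ)) ∈
      Z1 (globalLevels L S) (triv (ZMod p) L.fixingSubgroup) := by
  set μ := Global.muGlobal (p := p) hL
  set a' : Local.fixedUnits L.fixingSubgroup := Global.toFix (a : Lˣ)
  refine ⟨?_, (Local.kapFun_mem_Z1 μ a').2⟩
  set r := Local.rootP p ((a' : Qbˣ) : Qb)
  have hr : r ^ p = ((a' : Qbˣ) : Qb) := Local.rootP_pow _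
  have hfd : FiniteDimensional ℚ (IntermediateField.adjoin ℚ {r}) :=
    IntermediateField.adjoin.finiteDimensional
      (((AlgebraicClosure.isAlgebraic ℚ).isAlgebraic r).isIntegral)
  let F := L ⊔ IntermediateField.adjoin ℚ {r}
  have hF : F.IsUnramifiedOutside S := by
    refine ⟨IntermediateField.finiteDimensional_sup L _, fun q hq A hA σ hσ => ?_⟩
    have hσL : σ ∈ L.fixingSubgroup := hS.2 q hq A hA hσ
    rw [IntermediateField.fixingSubgroup_sup]
    refine ⟨hσL, ?_⟩
    show σ ∈ (IntermediateField.adjoin ℚ {r}).fixingSubgroup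
    rw [← Subgroup.zpowers_le, ← IntermediateField.le_iff_le, IntermediateField.adjoin_simple_le_iff,
      IntermediateField.mem_fixedField_iff]
    intro τ hτ
    obtain ⟨k, rfl⟩ := Subgroup.mem_zpowers_iff.1 hτ
    refine (MulAction.mem_stabilizer_iff.1
      ((MulAction.stabilizer GQ r).zpow_mem (show σ ∈ MulAction.stabilizer GQ r from ?_) k) : _)
    show σ r = r
    have h0 : Local.kapFun μ a' ⟨σ, hσL⟩ = 0 :=
      kapFun_eq_zero_of_unit p μ q.2 hA (fun e => hq (by
        convert hpS using 1; exact Subtype.ext e)) (a.2 q hq A hA) hσ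
    simpa [h0, Local.zpw_zero] using Local.kapFun_spec μ a' hr ⟨σ, hσL⟩
  refine ⟨_, ⟨F.fixingSubgroup, ⟨F, hF, rfl⟩, rfl⟩, fun g s hs => ?_⟩
  have hs' : (s : GQ) r = r := hs ⟨r, (le_sup_right : _ ≤ F) (IntermediateField.mem_adjoin_simple_self ℚ r)⟩
  have h0 : Local.kapFun μ a' s = 0 :=
    Local.kapFun_eq_of μ a' hr s 0 (by rw [hs', Local.zpw_zero, one_mul])
  have h := (Local.kapFun_mem_Z1 μ a').2 g s
  rw [h0, map_zero, zero_add] at h
  exact h

/-- The Kummer map on `S`-units. -/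
def kappaS (hS : L.IsUnramifiedOutside S) (hpS : ExtCitation.pPrime p ∈ S) :
    Additive (sUnitsL L S) →+ globalH1 p L S :=
  AddMonoidHom.mk'
    (fun a => cl1 (globalLevels L S) (triv (ZMod p) L.fixingSubgroup)
      ⟨_, kapFun_sUnit_mem_Z1 hL a.toMul hS hpS⟩)
    fun a b => by
      rw [← map_add]
      congr 1
      refine Subtype.ext (funext fun σ => ?_)
      show Local.kapFun (Global.muGlobal (p := p) hL) (Global.toFix ((a + b).toMul : Lˣ)) σ = _
      rw [toMul_add, Subgroup.coe_mul, map_mul]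
      exact congrArg (fun z => z.1 σ) (Local.kap_mul (Global.muGlobal (p := p) hL) _ _)

omit [L.fixingSubgroup.Normal] in
lemma kappaS_apply (a : sUnitsL L S) :
    kappaS hL hS hpS (Additive.ofMul a) =
      cl1 (globalLevels L S) (triv (ZMod p) L.fixingSubgroup)
        ⟨_, kapFun_sUnit_mem_Z1 hL a hS hpS⟩ := rfl

omit [L.fixingSubgroup.Normal] in
theorem kappaS_eq_zero_iff (a : Additive (sUnitsL L S)) :
    kappaS hL hS hpS a = 0 ↔ ∃ b, (p : ℤ) • b = a := by
  constructor
  · intro h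
    have h' : Local.kap (Global.muGlobal hL) (Global.toFix ((a.toMul : sUnitsL L S) : Lˣ)) = 0 := by
      have := (map_eq_zero_iff (cl1 _ _) cl1_triv_injective).1 h
      exact Subtype.ext (congrArg (fun z : Z1 (globalLevels L S) (triv (ZMod p) L.fixingSubgroup) => z.1) this)
    obtain ⟨b, hb⟩ := (Local.kap_eq_zero_iff _).1 h'
    obtain ⟨y, rfl⟩ := Global.toFix_surjective (K := L) b
    rw [← map_pow] at hb
    have hy : y ^ p = ((a.toMul : sUnitsL L S) : Lˣ) := Global.toFix_injective hb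
    have hmem : y ∈ sUnitsL L S := fun q hq A hA => by
      have h1 := (a.toMul : sUnitsL L S).2 q hq A hA
      rw [← hy, Units.val_pow_eq_pow_val, SubmonoidClass.coe_pow, map_pow] at h1
      exact (pow_eq_one_iff.1 h1).resolve_right (Fact.out : p.Prime).ne_zero
    refine ⟨Additive.ofMul ⟨y, hmem⟩, ?_⟩
    rw [natCast_zsmul, ← ofMul_pow]
    exact congrArg Additive.ofMul (Subtype.ext hy)
  · rintro ⟨b, rfl⟩
    rw [map_zsmul, ← Int.cast_smul_eq_zsmul (ZMod p), Int.cast_natCast, ZMod.natCast_self, zero_smul]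

/-- Conjugation and the Galois action on `S`-units. -/
theorem gal1_kappaS (x : GalL L) (a : Additive (sUnitsL L S)) :
    gal1 p L S x (kappaS hL hS hpS a) =
      (((omegaL hL x)⁻¹ : (ZMod p)ˣ) : ZMod p) • kappaS hL hS hpS (addE x a) := by
  induction x using QuotientGroup.induction_on with
  | _ g =>
  rw [omegaL_mk, gal1_mk]
  show conjT1 (ZMod p) (sLevels S) L.fixingSubgroup g (cl1 (globalLevels L S) (triv (ZMod p) L.fixingSubgroup) _) = _
  rw [← ofMul_toMul a, addE_apply, kappaS_apply, ← map_smul]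
  refine conjT1_cl1_eq (ZMod p) (sLevels S) (N := L.fixingSubgroup) fun n => ?_
  exact kapFun_conj (Global.muGlobal hL) g _ _ (coe_galE g a.toMul) _ n rfl

variable (p S) in
/-- The form of surjectivity of Kummer theory on `S`-units used below. -/
def SUnitRoots (L : IntermediateField ℚ Qb) (ζ : Qb) : Prop :=
  ∀ f : Z1 (globalLevels L S) (triv (ZMod p) L.fixingSubgroup),
    ∃ r : Qb, r ≠ 0 ∧ r ^ p ∈ L ∧
      (∀ q : Nat.Primes, q ∉ S → ∀ A : ValuationSubring Qb, A.LiesOverPrime (q : ℕ) →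
        A.valuation (r ^ p) = 1) ∧
      ∀ σ : L.fixingSubgroup, (σ : GQ) r = Local.zpw p ζ (f.1 σ) * r

omit [L.fixingSubgroup.Normal] in
theorem kappaS_surjective (h : SUnitRoots p S L (Global.muGlobal hL).ζ) :
    Function.Surjective (kappaS hL hS hpS) := by
  intro c
  obtain ⟨f, rfl⟩ := Submodule.mkQ_surjective _ c
  obtain ⟨r, hr0, hrL, hval, hσ⟩ := h f
  let y : Lˣ := Units.mk0 ⟨r ^ p, hrL⟩ fun e => pow_ne_zero p hr0 (congrArg Subtype.val e)
  refine ⟨Additive.ofMul ⟨y, hval⟩, ?_⟩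
  refine congrArg (fun z => cl1 (globalLevels L S) (triv (ZMod p) L.fixingSubgroup) z) (Subtype.ext (funext fun σ => ?_))
  exact Local.kapFun_eq_of _ _ (r := r) rfl σ _ (hσ σ)

end

end FermatAgent.Duality.Euler
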