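import Fermat.Agent.Duality.Euler.Additive
import Fermat.Agent.Duality.Euler.Cyclic
import Fermat.Agent.Duality.Euler.FrobPlaces
import Fermat.Agent.Duality.Euler.CpIdentity
import Fermat.Agent.Duality.Global.Kummer

/-!
# The global Euler characteristic

For `p` odd, `L ⊇ μ_p` normal and unramified outside `S ∋ p`, `S` big, and a finite `𝔽_p`-module
`V` of `G_ℚ` on which `G_L` acts trivially: `h⁰ - h¹ + h² = -dim ker (c + 1)`.
-/

set_option autoImplicit false

namespace FermatAgent.Duality.Euler

open FermatAgent.Duality Module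

noncomputable section

local notation "Qb" => AlgebraicClosure ℚ
local notation "GQ" => AlgebraicClosure ℚ ≃ₐ[ℚ] AlgebraicClosure ℚ

variable {p : ℕ} [Fact p.Prime] {L : IntermediateField ℚ Qb} [FiniteDimensional ℚ L]
  [L.fixingSubgroup.Normal] {S : Finset Nat.Primes}

/-- What is asked of `S`. -/
structure BigEnough (p : ℕ) [Fact p.Prime] (L : IntermediateField ℚ Qb) [FiniteDimensional ℚ L]
    [L.fixingSubgroup.Normal] (S : Finset Nat.Primes) : Prop where
  unramified : L.IsUnramifiedOutside S
  p_mem : ExtCitation.pPrime p ∈ S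
  classGroup : ClassGroupGenerated p L S
  frob : HasFrobPrimes L p S

/-- Big sets of primes exist, and larger sets are big. -/
theorem exists_bigEnough (L : IntermediateField ℚ Qb) [FiniteDimensional ℚ L]
    [L.fixingSubgroup.Normal] {S₀ : Finset Nat.Primes} (hS : L.IsUnramifiedOutside S₀) :
    ∃ S₁, S₀ ⊆ S₁ ∧ ∀ S, S₁ ⊆ S → BigEnough p L S := by
  classical
  obtain ⟨F, hF⟩ := exists_hasFrobPrimes L p
  obtain ⟨S', hle, hS'⟩ := exists_classGroupGenerated p L (insert (ExtCitation.pPrime p) (S₀ ∪ F))
  refine ⟨S', (Finset.subset_union_left.trans (Finset.subset_insert _ _)).trans hle,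
    fun S hS'S => ?_⟩
  have hsub := hle.trans hS'S
  exact ⟨hS.mono ((Finset.subset_union_left.trans (Finset.subset_insert _ _)).trans hsub),
    hsub (Finset.mem_insert_self _ _), classGroupGenerated_mono hS' hS'S,
    hF.mono ((Finset.subset_union_right.trans (Finset.subset_insert _ _)).trans hsub)⟩

/-- The Euler characteristic on the representations of `Gal(L)`. -/
theorem chiS_eq (hp : p ≠ 2) (hL : ContainsMuP p L) (hS : BigEnough p L S)
    (hR : RightExact2 p (sLevels S) L.fixingSubgroup) (R : FinRep (ZMod p) (GalL L)) :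
    chiS S R = -negDim (ccL L) R := by
  have := finite_galL L
  obtain ⟨P⟩ := nonempty_placeSystem L S
  obtain ⟨h1, h2, hid⟩ := exists_cp_identity P hp hL hS.unramified hS.p_mem hS.classGroup
    (kappaS_surjective hL hS.unramified hS.p_mem
      (Global.exists_sUnit_root_muGlobal hL hS.unramified hS.p_mem hS.classGroup))
    (hS.frob.fixesPlace P)
  have hp2 : (2 : ZMod p) ≠ 0 := fun h => hp (by
    have h' := (ZMod.natCast_eq_zero_iff 2 p).1 (by simpa using h)
    exact (Nat.prime_dvd_prime_iff_eq (Fact.out : p.Prime) Nat.prime_two).1 h')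
  have hadd := isExactAdditive_negDim (c := ccL L) (k := ZMod p) ccL_mul_self hp2
  have hneg : IsExactAdditive fun R : FinRep (ZMod p) (GalL L) => -negDim (ccL L) R :=
    fun A B C i π a b c d e => by
      simp only [hadd A B C i π a b c d e]
      abel
  refine eq_of_permRep (isExactAdditive_chiS hS.unramified h1 h2 hR) hneg (fun B _ hB Q => ?_) R
  have hB' : (Nat.card B : ZMod p) ≠ 0 := fun h => hB ((ZMod.natCast_eq_zero_iff _ p).1 h)
  rw [chiS_permRep B Q hS.unramified, finrank_H1c_preB S B Q hS.unramified hB' h1,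
    finrank_H2c_preB S B Q hS.unramified hB' h2]
  exact euler_of_cp_identity ccL_mul_self (omegaL hL) (omegaL_ccL hL) (h1Rep p L S h1) (h2Rep p h2)
    hid B hB' Q

/-- **The global Euler characteristic formula** for big `S`. -/
theorem euler_characteristic (hp : p ≠ 2) (hL : ContainsMuP p L) (hS : BigEnough p L S)
    (hR : RightExact2 p (sLevels S) L.fixingSubgroup) {V : Type} [AddCommGroup V]
    [Module (ZMod p) V] [FiniteDimensional (ZMod p) V] (ρ : Representation (ZMod p) GQ V)
    (hρ : TrivialOn L.fixingSubgroup ρ) :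
    (finrank (ZMod p) ρ.invariants : ℤ) - finrank (ZMod p) (H1c (sLevels S) ρ) +
        finrank (ZMod p) (H2c (sLevels S) ρ) =
      -(finrank (ZMod p) (LinearMap.ker (ρ complexConjugation + 1)) : ℤ) := by
  let ρ' : Representation (ZMod p) (GalL L) V :=
    QuotientGroup.lift L.fixingSubgroup ρ fun g hg => LinearMap.ext (hρ g hg)
  have h := chiS_eq hp hL hS hR ⟨V, ρ'⟩
  exact h

end

end FermatAgent.Duality.Euler
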