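import Fermat.Agent.Duality.Euler.GalAction
import Fermat.Agent.Duality.Euler.Invariants
import Fermat.Agent.Duality.Core.Functorial
import Fermat.Agent.Duality.Core.Mackey

/-!
# Cohomology of an intermediate group of index prime to `p` over a big field

For `B ≤ Gal(L)` of order invertible mod `p` with preimage `U`, and `V` a representation of
`Gal(L)`, the classes of `U` in degrees `1` and `2` are the `B`-invariant maps
`Vᵛ → H^i(G_{L,S}, 𝔽_p)`.
-/

set_option autoImplicit false

namespace FermatAgent.Duality.Euler

open FermatAgent.Duality Module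

open scoped Classical

noncomputable section

local notation "Qb" => AlgebraicClosure ℚ
local notation "GQ" => AlgebraicClosure ℚ ≃ₐ[ℚ] AlgebraicClosure ℚ

/-- Restriction and corestriction with trace the sum over a group identify the source with the
invariants of the target. -/
theorem finrank_eq_of_trace {k : Type*} [Field k] {B : Type*} [Group B] [Fintype B]
    (hB : (Fintype.card B : k) ≠ 0) {X Y H : Type*} [AddCommGroup X] [Module k X]
    [AddCommGroup Y] [Module k Y] [AddCommGroup H] [Module k H] (res : X →ₗ[k] Y)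
    (cores : Y →ₗ[k] X) (T : Y ≃ₗ[k] H) (act : Representation k B H)
    (h1 : ∀ x, cores (res x) = Fintype.card B • x)
    (h2 : ∀ y, T (res (cores y)) = ∑ b, act b (T y)) :
    finrank k X = finrank k act.invariants := by
  have hfix : ∀ x, T (res x) ∈ act.invariants := by
    intro x b
    have e : (Fintype.card B : k) • T (res x) = ∑ c, act c (T (res x)) := by
      rw [← h2, h1, map_nsmul, map_nsmul, Nat.cast_smul_eq_nsmul]
    refine smul_right_injective _ hB ?_
    show (Fintype.card B : k) • act b (T (res x)) = (Fintype.card B : k) • T (res x)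
    rw [← map_smul, e, map_sum]
    exact Fintype.sum_equiv (Equiv.mulLeft b) _ _ fun c => by
      rw [← Module.End.mul_apply, ← map_mul]
      rfl
  let F : X →ₗ[k] act.invariants := (T.toLinearMap ∘ₗ res).codRestrict _ hfix
  refine (LinearEquiv.ofBijective F ⟨?_, fun z => ?_⟩).finrank_eq
  · refine (injective_iff_map_eq_zero F).2 fun x hx => ?_
    have h0 : res x = 0 := T.map_eq_zero_iff.1 (congrArg Subtype.val hx)
    have := h1 x
    rw [h0, map_zero, ← Nat.cast_smul_eq_nsmul k] at this
    exact (smul_eq_zero.1 this.symm).resolve_left hB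
  · refine ⟨(Fintype.card B : k)⁻¹ • cores (T.symm z.1), Subtype.ext ?_⟩
    show T (res _) = z.1
    rw [map_smul, map_smul, h2, T.apply_symm_apply, Finset.sum_congr rfl fun b _ => z.2 b,
      Finset.sum_const, Finset.card_univ, ← Nat.cast_smul_eq_nsmul k, smul_smul,
      inv_mul_cancel₀ hB, one_smul]

variable {p : ℕ} [Fact p.Prime] {L : IntermediateField ℚ Qb} [L.fixingSubgroup.Normal]
  {S : Finset Nat.Primes}

/-- Inflation to `G_ℚ`. -/
abbrev infl {V : Type} [AddCommGroup V] [Module (ZMod p) V]
    (ρ : Representation (ZMod p) (GalL L) V) : Representation (ZMod p) GQ V :=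
  MonoidHom.comp ρ (QuotientGroup.mk' L.fixingSubgroup)

lemma infl_of_mem {V : Type} [AddCommGroup V] [Module (ZMod p) V]
    (ρ : Representation (ZMod p) (GalL L) V) {g : GQ} (hg : g ∈ L.fixingSubgroup) :
    infl ρ g = 1 := by
  show ρ (g : GalL L) = 1
  rw [(QuotientGroup.eq_one_iff g).2 hg, map_one]

variable (B : Subgroup (GalL L))

/-- The preimage of `B`. -/
abbrev preB : Subgroup GQ := B.comap (QuotientGroup.mk' L.fixingSubgroup)

/-- `G_L` inside the preimage. -/
abbrev baseU : Subgroup (preB B) := L.fixingSubgroup.subgroupOf (preB B)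

lemma le_preB : L.fixingSubgroup ≤ preB B := fun g hg => by
  show ((g : GQ) : GalL L) ∈ B
  rw [(QuotientGroup.eq_one_iff g).2 hg]
  exact one_mem B

/-- `G_L → baseU`. -/
def toBase : L.fixingSubgroup →* baseU B where
  toFun n := ⟨⟨n, le_preB B n.2⟩, n.2⟩
  map_one' := rfl
  map_mul' _ _ := rfl

/-- `baseU → G_L`. -/
def ofBase : baseU B →* L.fixingSubgroup where
  toFun u := ⟨(u : preB B), u.2⟩
  map_one' := rfl
  map_mul' _ _ := rfl

variable (S)

/-- The levels of the preimage. -/
abbrev levU : LevelSystem (preB B) := (sLevels S).comap (preB B).subtype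

/-- The levels of `baseU`. -/
abbrev levN : LevelSystem (baseU B) := (levU S B).comap (baseU B).subtype

lemma isLevHom_toBase : IsLevHom (globalLevels L S) (levN S B) (toBase B) := by
  rintro _ ⟨_, ⟨U, hU, rfl⟩, rfl⟩
  exact ⟨_, ⟨U, hU, rfl⟩, fun _ h => h⟩

lemma isLevHom_ofBase : IsLevHom (levN S B) (globalLevels L S) (ofBase B) := by
  rintro _ ⟨U, hU, rfl⟩
  exact ⟨_, ⟨_, ⟨U, hU, rfl⟩, rfl⟩, fun _ h => h⟩

variable (R : FinRep (ZMod p) (GalL L))

/-- The representation on the preimage. -/
abbrev repU : Representation (ZMod p) (preB B) R.V := MonoidHom.comp (infl R.ρ) (preB B).subtype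

/-- The representation on `baseU`. -/
abbrev repN : Representation (ZMod p) (baseU B) R.V := MonoidHom.comp (repU B R) (baseU B).subtype

lemma repN_eq_one (u : baseU B) : repN B R u = 1 := infl_of_mem R.ρ u.2

lemma isEquivariant_dual (l : Dual (ZMod p) R.V) :
    IsEquivariant (repN B R) (triv (ZMod p) L.fixingSubgroup) (toBase B) l := fun n m => by
  rw [repN_eq_one]
  rfl

lemma isEquivariant_span (m : R.V) :
    IsEquivariant (triv (ZMod p) L.fixingSubgroup) (repN B R) (ofBase B)
      (LinearMap.toSpanSingleton (ZMod p) R.V m) := fun u c => by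
  rw [repN_eq_one]
  rfl

/-- A class of `baseU` as a map on the dual. -/
def toHom1 : H1c (levN S B) (repN B R) →ₗ[ZMod p] Dual (ZMod p) R.V →ₗ[ZMod p] globalH1 p L S :=
  LinearMap.mk₂ (ZMod p) (fun y l => map1 _ _ (isLevHom_toBase S B) (isEquivariant_dual B R l) y)
    (fun y y' l => map_add _ _ _) (fun c y l => map_smul _ _ _)
    (fun y l l' => by induction y using Submodule.Quotient.induction_on with | _ z => rfl)
    (fun c y l => by induction y using Submodule.Quotient.induction_on with | _ z => rfl)

/-- A class of `baseU` as a map on the dual. -/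
def toHom2 : H2c (levN S B) (repN B R) →ₗ[ZMod p] Dual (ZMod p) R.V →ₗ[ZMod p] globalH2 p L S :=
  LinearMap.mk₂ (ZMod p) (fun y l => map2 _ _ (isLevHom_toBase S B) (isEquivariant_dual B R l) y)
    (fun y y' l => map_add _ _ _) (fun c y l => map_smul _ _ _)
    (fun y l l' => by induction y using Submodule.Quotient.induction_on with | _ z => rfl)
    (fun c y l => by induction y using Submodule.Quotient.induction_on with | _ z => rfl)

lemma toHom1_apply (y : H1c (levN S B) (repN B R)) (l : Dual (ZMod p) R.V) :
    toHom1 S B R y l = map1 _ _ (isLevHom_toBase S B) (isEquivariant_dual B R l) y := rfl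

lemma toHom2_apply (y : H2c (levN S B) (repN B R)) (l : Dual (ZMod p) R.V) :
    toHom2 S B R y l = map2 _ _ (isLevHom_toBase S B) (isEquivariant_dual B R l) y := rfl

theorem toHom1_bijective : Function.Bijective (toHom1 S B R) := by
  let b := Free.chooseBasis (ZMod p) R.V
  let inv' : (Dual (ZMod p) R.V →ₗ[ZMod p] globalH1 p L S) → H1c (levN S B) (repN B R) := fun Φ =>
    ∑ j, map1 _ _ (isLevHom_ofBase S B) (isEquivariant_span B R (b j)) (Φ (b.coord j))
  have hid : IsEquivariant (repN B R) (repN B R) (MonoidHom.id _) LinearMap.id := fun _ _ => rfl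
  have hleft : ∀ y, inv' (toHom1 S B R y) = y := by
    intro y
    simp only [inv', toHom1_apply, map1_map1]
    refine Eq.trans ?_ (map1_id_apply (hL := isLevHom_id _) (h := hid) y)
    refine (map1_eq_sum ((isLevHom_toBase S B).trans (isLevHom_ofBase S B))
      (φ := LinearMap.id) (hφ := fun _ _ => rfl)
      (fun j => (isEquivariant_dual B R (b.coord j)).trans (isEquivariant_span B R (b j)))
      (LinearMap.ext fun v => ?_) y).symm.trans (map1_congr _ _ (fun _ => rfl) (fun _ => rfl) y)
    simp [LinearMap.sum_apply, b.sum_repr]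
  have hright : ∀ Φ, toHom1 S B R (inv' Φ) = Φ := by
    intro Φ
    refine LinearMap.ext fun l => ?_
    have hΦ : Φ l = ∑ j, l (b j) • Φ (b.coord j) := by
      simp only [← map_smul, ← map_sum]
      exact congrArg Φ (b.sum_dual_apply_smul_coord l).symm
    rw [hΦ]
    simp only [inv', map_sum, LinearMap.sum_apply, toHom1_apply, map1_map1]
    refine Finset.sum_congr rfl fun j _ => ?_
    induction Φ (b.coord j) using Submodule.Quotient.induction_on with
    | _ z =>
    refine congrArg (fun w => cl1 (globalLevels L S) (triv (ZMod p) L.fixingSubgroup) w)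
      (Subtype.ext (funext fun n => ?_))
    show l (z.1 n • b j) = l (b j) * z.1 n
    rw [map_smul, smul_eq_mul, mul_comm]
  exact ⟨Function.LeftInverse.injective hleft, Function.RightInverse.surjective hright⟩

theorem toHom2_bijective : Function.Bijective (toHom2 S B R) := by
  let b := Free.chooseBasis (ZMod p) R.V
  let inv' : (Dual (ZMod p) R.V →ₗ[ZMod p] globalH2 p L S) → H2c (levN S B) (repN B R) := fun Φ =>
    ∑ j, map2 _ _ (isLevHom_ofBase S B) (isEquivariant_span B R (b j)) (Φ (b.coord j))
  have hid : IsEquivariant (repN B R) (repN B R) (MonoidHom.id _) LinearMap.id := fun _ _ => rfl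
  have hleft : ∀ y, inv' (toHom2 S B R y) = y := by
    intro y
    simp only [inv', toHom2_apply, map2_map2]
    refine Eq.trans ?_ (map2_id_apply (hL := isLevHom_id _) (h := hid) y)
    refine (map2_eq_sum ((isLevHom_toBase S B).trans (isLevHom_ofBase S B))
      (φ := LinearMap.id) (hφ := fun _ _ => rfl)
      (fun j => (isEquivariant_dual B R (b.coord j)).trans (isEquivariant_span B R (b j)))
      (LinearMap.ext fun v => ?_) y).symm.trans (map2_congr _ _ (fun _ => rfl) (fun _ => rfl) y)
    simp [LinearMap.sum_apply, b.sum_repr]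
  have hright : ∀ Φ, toHom2 S B R (inv' Φ) = Φ := by
    intro Φ
    refine LinearMap.ext fun l => ?_
    have hΦ : Φ l = ∑ j, l (b j) • Φ (b.coord j) := by
      simp only [← map_smul, ← map_sum]
      exact congrArg Φ (b.sum_dual_apply_smul_coord l).symm
    rw [hΦ]
    simp only [inv', map_sum, LinearMap.sum_apply, toHom2_apply, map2_map2]
    refine Finset.sum_congr rfl fun j _ => ?_
    induction Φ (b.coord j) using Submodule.Quotient.induction_on with
    | _ z =>
    refine congrArg (fun w => cl2 (globalLevels L S) (triv (ZMod p) L.fixingSubgroup) w)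
      (Subtype.ext (funext fun n => ?_))
    show l (z.1 n • b j) = l (b j) * z.1 n
    rw [map_smul, smul_eq_mul, mul_comm]
  exact ⟨Function.LeftInverse.injective hleft, Function.RightInverse.surjective hright⟩

lemma toHom1_conj1 (u : preB B) (y : H1c (levN S B) (repN B R)) :
    toHom1 S B R (conj1 (levU S B) (repU B R) (baseU B) u y) =
      Representation.linHom (Representation.dual R.ρ) (gal1 p L S) ((u : GQ) : GalL L)
        (toHom1 S B R y) := by
  refine LinearMap.ext fun l => ?_
  rw [Representation.linHom_apply, LinearMap.comp_apply, LinearMap.comp_apply,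
    toHom1_apply, toHom1_apply, gal1_mk]
  induction y using Submodule.Quotient.induction_on with
  | _ z =>
  refine congrArg (fun w => cl1 (globalLevels L S) (triv (ZMod p) L.fixingSubgroup) w)
    (Subtype.ext (funext fun n => ?_))
  show l (R.ρ ((u : GQ) : GalL L) (z.1 _)) = l (R.ρ (((u : GQ) : GalL L)⁻¹)⁻¹ (z.1 _))
  rw [inv_inv]
  rfl

lemma toHom2_conj2 (u : preB B) (y : H2c (levN S B) (repN B R)) :
    toHom2 S B R (conj2 (levU S B) (repU B R) (baseU B) u y) =
      Representation.linHom (Representation.dual R.ρ) (gal2 p L S) ((u : GQ) : GalL L)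
        (toHom2 S B R y) := by
  refine LinearMap.ext fun l => ?_
  rw [Representation.linHom_apply, LinearMap.comp_apply, LinearMap.comp_apply,
    toHom2_apply, toHom2_apply, gal2_mk]
  induction y using Submodule.Quotient.induction_on with
  | _ z =>
  refine congrArg (fun w => cl2 (globalLevels L S) (triv (ZMod p) L.fixingSubgroup) w)
    (Subtype.ext (funext fun n => ?_))
  show l (R.ρ ((u : GQ) : GalL L) (z.1 _)) = l (R.ρ (((u : GQ) : GalL L)⁻¹)⁻¹ (z.1 _))
  rw [inv_inv]
  rfl

variable [FiniteDimensional ℚ L]

instance finiteIndex_baseU : (baseU B).FiniteIndex :=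
  have := finiteIndex_fixingSubgroup L
  inferInstance

omit [FiniteDimensional ℚ L] in
/-- Cosets of `baseU` are elements of `B`. -/
lemma cosetToB_bijective :
    Function.Bijective fun c : preB B ⧸ baseU B =>
      (⟨(((coresSec (baseU B) c : preB B) : GQ) : GalL L), (coresSec (baseU B) c).2⟩ : B) := by
  constructor
  · intro c d h
    rw [← mk_coresSec (baseU B) c, ← mk_coresSec (baseU B) d, QuotientGroup.eq,
      Subgroup.mem_subgroupOf, Subgroup.coe_mul, Subgroup.coe_inv]
    exact QuotientGroup.eq.1 (congrArg Subtype.val h)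
  · rintro ⟨x, hx⟩
    induction x using QuotientGroup.induction_on with
    | _ g =>
    refine ⟨QuotientGroup.mk (⟨g, hx⟩ : preB B), Subtype.ext (QuotientGroup.eq.2 ?_)⟩
    have h := QuotientGroup.eq.1 (mk_coresSec (baseU B) (QuotientGroup.mk (⟨g, hx⟩ : preB B)))
    simpa [Subgroup.mem_subgroupOf] using h

omit [FiniteDimensional ℚ L] in
lemma exists_level_baseU (hS : L.IsUnramifiedOutside S) :
    ∃ V ∈ (levU S B).lev, V ≤ baseU B :=
  ⟨_, ⟨L.fixingSubgroup, ⟨L, hS, rfl⟩, rfl⟩, le_rfl⟩

variable (hS : L.IsUnramifiedOutside S) (hB : (Nat.card B : ZMod p) ≠ 0)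

include hS hB in
/-- Degree `1`. -/
theorem finrank_H1c_preB (h : Module.Finite (ZMod p) (globalH1 p L S)) :
    (finrank (ZMod p) (H1c (levU S B) (repU B R)) : ℤ) =
      homInv B (R.res B) ((⟨globalH1 p L S, gal1 p L S⟩ : FinRep (ZMod p) (GalL L)).res B) := by
  have := finite_galL L
  have : Fintype B := Fintype.ofFinite _
  have : Fintype (preB B ⧸ baseU B) := Fintype.ofFinite _
  have hcard : Fintype.card (preB B ⧸ baseU B) = Fintype.card B :=
    Fintype.card_of_bijective (cosetToB_bijective B)
  rw [homInv, Nat.cast_inj]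
  refine finrank_eq_of_trace (k := ZMod p) (by rwa [← Nat.card_eq_fintype_card])
    (res1 (levU S B) (repU B R) (baseU B))
    (cores1 (baseU B) (repU B R) (levU S B) (exists_level_baseU S B hS))
    (LinearEquiv.ofBijective (toHom1 S B R) (toHom1_bijective S B R))
    (Representation.linHom (Representation.dual (R.res B).ρ) (MonoidHom.comp (gal1 p L S) B.subtype))
    (fun x => by rw [cores1_res1, hcard]) fun y => ?_
  show toHom1 S B R _ = _
  rw [res1_cores1, map_sum]
  exact Fintype.sum_bijective _ (cosetToB_bijective B) _ _ fun c => toHom1_conj1 S B R _ y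

include hS hB in
/-- Degree `2`. -/
theorem finrank_H2c_preB (h : Module.Finite (ZMod p) (globalH2 p L S)) :
    (finrank (ZMod p) (H2c (levU S B) (repU B R)) : ℤ) =
      homInv B (R.res B) ((⟨globalH2 p L S, gal2 p L S⟩ : FinRep (ZMod p) (GalL L)).res B) := by
  have := finite_galL L
  have : Fintype B := Fintype.ofFinite _
  have : Fintype (preB B ⧸ baseU B) := Fintype.ofFinite _
  have hcard : Fintype.card (preB B ⧸ baseU B) = Fintype.card B :=
    Fintype.card_of_bijective (cosetToB_bijective B)
  rw [homInv, Nat.cast_inj]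
  refine finrank_eq_of_trace (k := ZMod p) (by rwa [← Nat.card_eq_fintype_card])
    (res2 (levU S B) (repU B R) (baseU B))
    (cores2 (baseU B) (repU B R) (levU S B) (exists_level_baseU S B hS))
    (LinearEquiv.ofBijective (toHom2 S B R) (toHom2_bijective S B R))
    (Representation.linHom (Representation.dual (R.res B).ρ) (MonoidHom.comp (gal2 p L S) B.subtype))
    (fun x => by rw [cores2_res2, hcard]) fun y => ?_
  show toHom2 S B R _ = _
  rw [res2_cores2, map_sum]
  exact Fintype.sum_bijective _ (cosetToB_bijective B) _ _ fun c => toHom2_conj2 S B R _ y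

end

end FermatAgent.Duality.Euler
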