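import Fermat.Agent.Duality.Euler.GalAction
import Fermat.Agent.Duality.Global.SUnits

/-!
# The `S`-units of a normal field as a Galois module

`sUnitsL L S` are the elements of `L` which are units at every place over a prime outside `S`;
they are the `T`-units for the set `T` of primes of `L` over `S`, and `Gal(L)` permutes the
orders at these primes as it permutes the places.
-/

set_option autoImplicit false

open scoped Pointwise

namespace FermatAgent.Duality.Euler

open FermatAgent.Duality IsDedekindDomain NumberField Module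

noncomputable section

local notation "Qb" => AlgebraicClosure ℚ
local notation "GQ" => AlgebraicClosure ℚ ≃ₐ[ℚ] AlgebraicClosure ℚ

attribute [local instance] FermatAgent.RT.isGalois_algClosureRat Global.numberField_of_finite

variable (L : IntermediateField ℚ Qb) [L.fixingSubgroup.Normal]

/-- A field with normal Galois group is Galois. -/
theorem isGalois_of_normal_fixingSubgroup : IsGalois ℚ L :=
  (InfiniteGalois.normal_iff_isGalois L).mp inferInstance

attribute [local instance] isGalois_of_normal_fixingSubgroup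

/-- `Gal(L)` as automorphisms of `L`. -/
def galAut : GalL L →* (L ≃ₐ[ℚ] L) :=
  QuotientGroup.lift L.fixingSubgroup (AlgEquiv.restrictNormalHom L) fun g hg => by
    exact (@IntermediateField.restrictNormalHom_ker _ _ _ _ _ L (isGalois_of_normal_fixingSubgroup L).to_normal).ge hg

variable {L}

lemma coe_galAut (g : GQ) (y : L) : ((galAut L (g : GalL L) y : L) : Qb) = g (y : Qb) :=
  AlgEquiv.restrictNormal_commutes g L y

lemma galAut_injective : Function.Injective (galAut L) := by
  refine (injective_iff_map_eq_one _).2 fun x hx => ?_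
  induction x using QuotientGroup.induction_on with
  | _ g =>
  refine (QuotientGroup.eq_one_iff g).2 fun y => ?_
  show g (y : Qb) = y
  rw [← coe_galAut g y, hx]
  rfl

section Valuations

omit [L.fixingSubgroup.Normal]

lemma val_le_iff_div_mem {A : ValuationSubring Qb} {y z : Qb} (hz : z ≠ 0) :
    A.valuation y ≤ A.valuation z ↔ y / z ∈ A := by
  rw [← A.valuation_le_one_iff, map_div₀,
    div_le_one₀ (zero_lt_iff.2 ((_root_.map_ne_zero _).2 hz))]

lemma val_smul_le_iff (g : GQ) (A : ValuationSubring Qb) {y z : Qb} (hz : z ≠ 0) :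
    (g • A).valuation (g y) ≤ (g • A).valuation (g z) ↔ A.valuation y ≤ A.valuation z := by
  rw [val_le_iff_div_mem ((_root_.map_ne_zero g).2 hz), val_le_iff_div_mem hz, TW.mem_smul_iff,
    ← map_div₀, show g⁻¹ (g (y / z)) = y / z from g.symm_apply_apply _]

lemma val_smul_eq_one_iff (g : GQ) (A : ValuationSubring Qb) {y : Qb} (hy : y ≠ 0) :
    (g • A).valuation (g y) = 1 ↔ A.valuation y = 1 := by
  have h1 := val_smul_le_iff g A (y := y) one_ne_zero
  have h2 := val_smul_le_iff g A (y := 1) hy
  simp only [map_one] at h1 h2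
  rw [le_antisymm_iff, le_antisymm_iff, h1, h2]

end Valuations

variable (L)

/-- The units at all places over primes outside `S`. -/
def sUnitsL (S : Finset Nat.Primes) : Subgroup Lˣ where
  carrier := {x | ∀ q : Nat.Primes, q ∉ S → ∀ A : ValuationSubring Qb, A.LiesOverPrime (q : ℕ) →
    A.valuation ((x : L) : Qb) = 1}
  one_mem' := fun q _ A _ => by simp
  mul_mem' := fun {x y} hx hy q hq A hA => by
    rw [Units.val_mul, MulMemClass.coe_mul, map_mul, hx q hq A hA, hy q hq A hA, one_mul]
  inv_mem' := fun {x} hx q hq A hA => by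
    rw [Units.val_inv_eq_inv_val, IntermediateField.coe_inv, map_inv₀, hx q hq A hA, inv_one]

variable {L} {S : Finset Nat.Primes}

/-- An element of `Gal(L)` on the `S`-units. -/
def galE (x : GalL L) : sUnitsL L S →* sUnitsL L S :=
  ((Units.map (galAut L x : L ≃ₐ[ℚ] L).toMulEquiv.toMonoidHom).comp (sUnitsL L S).subtype).codRestrict
    _ fun u q hq A hA => by
    induction x using QuotientGroup.induction_on with
    | _ g =>
    show A.valuation ((galAut L (g : GalL L) ((u : Lˣ) : L) : L) : Qb) = 1
    rw [coe_galAut, ← smul_inv_smul g A, val_smul_eq_one_iff g _ (by simp)]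
    exact u.2 q hq _ (TW.smul_liesOverPrime hA g⁻¹)

lemma coe_galE (g : GQ) (u : sUnitsL L S) :
    ((((galE (g : GalL L) u : sUnitsL L S) : Lˣ) : L) : Qb) = g (((u : Lˣ) : L) : Qb) :=
  coe_galAut g _

/-- An element of `Gal(L)` on the `S`-units, additively. -/
def addE (x : GalL L) : Additive (sUnitsL L S) →ₗ[ℤ] Additive (sUnitsL L S) :=
  (MonoidHom.toAdditive (galE x)).toIntLinearMap

lemma addE_apply (x : GalL L) (u : sUnitsL L S) :
    addE x (Additive.ofMul u) = Additive.ofMul (galE x u) := rfl

variable [FiniteDimensional ℚ L] (P : PlaceSystem L S)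

omit [L.fixingSubgroup.Normal] [FiniteDimensional ℚ L] in
lemma exists_primeOf (i : P.ι) : ∃ v, Global.Over L (P.place i) v :=
  Global.exists_over ⟨_, (P.prime i).2, P.liesOver i⟩

/-- The prime of `L` under a place. -/
def primeOf (i : P.ι) : HeightOneSpectrum (𝓞 L) := (exists_primeOf P i).choose

omit [L.fixingSubgroup.Normal] [FiniteDimensional ℚ L] in
lemma over_primeOf (i : P.ι) : Global.Over L (P.place i) (primeOf P i) :=
  (exists_primeOf P i).choose_spec

omit [L.fixingSubgroup.Normal] in
lemma primeOf_injective : Function.Injective (primeOf P) := fun i j h => by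
  obtain ⟨g, hg, e⟩ := Global.exists_smul_eq_of_over (over_primeOf P i) (h ▸ over_primeOf P j)
  exact P.inj i j g hg e

/-- The primes of `L` over `S`. -/
def primesOverS : Finset (HeightOneSpectrum (𝓞 L)) :=
  Finset.univ.map ⟨primeOf P, primeOf_injective P⟩

omit [L.fixingSubgroup.Normal] in
lemma card_primesOverS : (primesOverS P).card = Fintype.card P.ι := by
  rw [primesOverS, Finset.card_map, Finset.card_univ]

omit [L.fixingSubgroup.Normal] in
lemma primeOf_mem (i : P.ι) : primeOf P i ∈ primesOverS P :=
  Finset.mem_map.2 ⟨i, Finset.mem_univ i, rfl⟩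

omit [L.fixingSubgroup.Normal] in
theorem sUnitsL_eq : sUnitsL L S = Global.tUnits (primesOverS P) := by
  ext x
  constructor
  · intro hx v hv
    obtain ⟨A, hA⟩ := Global.exists_place v
    obtain ⟨l, hl, hlA⟩ := hA.1
    by_cases hq : (⟨l, hl⟩ : Nat.Primes) ∈ S
    · obtain ⟨i, -, g, hg, rfl⟩ := P.exhausts _ hq A hlA
      exact absurd (hA.eq ((over_primeOf P i).smul hg) ▸ primeOf_mem P i) hv
    · exact (hA.val_eq_one_iff x).1 (hx ⟨l, hl⟩ hq A hlA)
  · intro hx q hq A hA
    obtain ⟨v, hv⟩ := Global.exists_over (K := L) (A := A) ⟨_, q.2, hA⟩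
    refine (hv.val_eq_one_iff x).2 (hx v fun hm => ?_)
    obtain ⟨i, -, rfl⟩ := Finset.mem_map.1 hm
    refine hq ?_
    have h1 := hv.natCast_mem hA
    change _ ∈ (primeOf P i).asIdeal at h1
    rw [← (over_primeOf P i).2, Ideal.mem_comap, map_natCast, ← Int.cast_natCast,
      RT.intCast_mem_centre_iff (P.prime i).2 (P.liesOver i), Int.natCast_dvd_natCast] at h1
    have he : P.prime i = q :=
      Subtype.ext ((Nat.prime_dvd_prime_iff_eq (P.prime i).2 q.2).1 h1)
    exact he ▸ P.prime_mem i

/-- The orders at the places over `S`. -/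
def ordS : Additive (sUnitsL L S) →+ (P.ι → ℤ) :=
  AddMonoidHom.mk' (fun x i => Global.ord (primeOf P i) ((x.toMul : sUnitsL L S) : Lˣ))
    fun x y => funext fun i => by
      rw [toMul_add, Subgroup.coe_mul, Global.ord_mul, Pi.add_apply]

/-- The orders are permuted with the places. -/
theorem ord_galAut (x : GalL L) (i : P.ι) (y : Lˣ) :
    Global.ord (primeOf P (x • i)) (Units.map (galAut L x : L ≃ₐ[ℚ] L).toMulEquiv.toMonoidHom y) =
      Global.ord (primeOf P i) y := by
  obtain ⟨g, rfl, hg⟩ := exists_lift_smul P x i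
  set h : Lˣ →* Lˣ := Units.map (galAut L (g : GalL L) : L ≃ₐ[ℚ] L).toMulEquiv.toMonoidHom
  set P' := primeOf P ((g : GalL L) • i)
  have hov : Global.Over L (g • P.place i) P' := hg ▸ over_primeOf P _
  have key : ∀ a b : Lˣ, Global.ord P' (h a) ≤ Global.ord P' (h b) ↔
      Global.ord (primeOf P i) a ≤ Global.ord (primeOf P i) b := by
    intro a b
    rw [← hov.val_le_iff, ← (over_primeOf P i).val_le_iff]
    show (g • P.place i).valuation ((galAut L (g : GalL L) (b : L) : L) : Qb) ≤
      (g • P.place i).valuation ((galAut L (g : GalL L) (a : L) : L) : Qb) ↔ _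
    rw [coe_galAut, coe_galAut, val_smul_le_iff g _ (by simp)]
  obtain ⟨π, hπ⟩ := Global.exists_ord_eq_one (primeOf P i)
  have hlin : ∀ a : Lˣ, Global.ord P' (h a) =
      Global.ord (primeOf P i) a * Global.ord P' (h π) := by
    intro a
    have e : Global.ord (primeOf P i) a = Global.ord (primeOf P i) (π ^ Global.ord (primeOf P i) a) := by
      rw [Global.ord_zpow, hπ, mul_one]
    rw [le_antisymm ((key a _).2 e.le) ((key _ a).2 e.ge), map_zpow, Global.ord_zpow]
  obtain ⟨π', hπ'⟩ := Global.exists_ord_eq_one P'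
  have hsurj : ∃ a, Global.ord P' (h a) = 1 :=
    ⟨Units.map (galAut L (g : GalL L)).symm.toMulEquiv.toMonoidHom π', by
      rw [show h (Units.map (galAut L (g : GalL L)).symm.toMulEquiv.toMonoidHom π') = π' from
        Units.ext ((galAut L (g : GalL L)).apply_symm_apply _), hπ']⟩
  obtain ⟨a, ha⟩ := hsurj
  have hpos : 0 ≤ Global.ord P' (h π) := by
    have := (key 1 π).2 (by rw [Global.ord_one, hπ]; exact zero_le_one)
    rwa [map_one, Global.ord_one] at this
  have h1 : Global.ord P' (h π) = 1 := by
    rw [hlin] at ha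
    exact Int.eq_one_of_dvd_one hpos ⟨_, by rw [mul_comm]; exact ha.symm⟩
  rw [hlin, h1, mul_one]

lemma ordS_addE (x : GalL L) (u : Additive (sUnitsL L S)) (i : P.ι) :
    ordS P (addE x u) (x • i) = ordS P u i :=
  ord_galAut P x i _

end

end FermatAgent.Duality.Euler
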