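import Mathlib

/-!
# Separating pairwise non-isomorphic simple representations by traces

For finitely many pairwise non-isomorphic simple representations of `G` over a finite field and
one of them, some element of the group algebra has nonzero trace on it and zero trace on the
others.
-/

set_option autoImplicit false

namespace FermatAgent.Duality.Euler

open Module
open scoped MonoidAlgebra

/-- A finite dimensional representation, bundled. -/
structure FinRep (k : Type) [Field k] (G : Type) [Monoid G] where
  /-- The space. -/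
  V : Type
  [acg : AddCommGroup V]
  [mod : Module k V]
  [fin : FiniteDimensional k V]
  /-- The action. -/
  ρ : Representation k G V

attribute [instance] FinRep.acg FinRep.mod FinRep.fin

variable {k G : Type} [Field k] [Monoid G]

/-- An invariant subspace. -/
def IsInvariantSub {V : Type} [AddCommGroup V] [Module k V] (ρ : Representation k G V)
    (W : Submodule k V) : Prop :=
  ∀ g, W ≤ W.comap (ρ g)

/-- A simple representation. -/
def FinRep.IsSimple (R : FinRep k G) : Prop :=
  Nontrivial R.V ∧ ∀ W : Submodule k R.V, IsInvariantSub R.ρ W → W = ⊥ ∨ W = ⊤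

/-- Isomorphism of representations. -/
def FinRep.Iso (R S : FinRep k G) : Prop :=
  ∃ e : R.V ≃ₗ[k] S.V, ∀ g v, e (R.ρ g v) = S.ρ g (e v)

lemma FinRep.Iso.refl (R : FinRep k G) : R.Iso R := ⟨LinearEquiv.refl _ _, fun _ _ => rfl⟩

lemma FinRep.Iso.symm {R S : FinRep k G} : R.Iso S → S.Iso R := by
  rintro ⟨e, he⟩
  exact ⟨e.symm, fun g v => e.injective (by rw [he, e.apply_symm_apply, e.apply_symm_apply])⟩

lemma FinRep.Iso.trans {R S T : FinRep k G} : R.Iso S → S.Iso T → R.Iso T := by
  rintro ⟨e, he⟩ ⟨f, hf⟩
  exact ⟨e.trans f, fun g v => by simp [he, hf]⟩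

lemma FinRep.IsSimple.isSimpleModule {R : FinRep k G} (h : R.IsSimple) :
    IsSimpleModule k[G] R.ρ.asModule := by
  have hn : Nontrivial R.V := h.1
  have : Nontrivial R.ρ.asModule := R.ρ.asModuleEquiv.toEquiv.nontrivial
  rw [isSimpleModule_iff]
  refine ⟨fun W => ?_⟩
  let W' : Submodule k R.V := (W.restrictScalars k).map R.ρ.asModuleEquiv.toLinearMap
  have hinv : IsInvariantSub R.ρ W' := by
    rintro g _ ⟨w, hw, rfl⟩
    refine ⟨MonoidAlgebra.of k G g • w, W.smul_mem _ hw, ?_⟩
    show R.ρ.asModuleEquiv (MonoidAlgebra.of k G g • w) = _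
    rw [Representation.asModuleEquiv_map_smul, Representation.asAlgebraHom_of]
    rfl
  rcases h.2 W' hinv with e | e
  · refine Or.inl ((Submodule.eq_bot_iff W).mpr fun w hw => ?_)
    have : R.ρ.asModuleEquiv w ∈ W' := ⟨w, hw, rfl⟩
    rw [e, Submodule.mem_bot] at this
    exact R.ρ.asModuleEquiv.map_eq_zero_iff.mp this
  · refine Or.inr (Submodule.eq_top_iff'.mpr fun w => ?_)
    have : R.ρ.asModuleEquiv w ∈ W' := by rw [e]; trivial
    obtain ⟨w', hw', h'⟩ := this
    rwa [← R.ρ.asModuleEquiv.injective h']

lemma eq_zero_of_not_iso {R S : FinRep k G} (hR : R.IsSimple) (hS : S.IsSimple) (h : ¬ R.Iso S)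
    (f : R.ρ.asModule →ₗ[k[G]] S.ρ.asModule) : f = 0 := by
  have := hR.isSimpleModule
  have := hS.isSimpleModule
  refine (LinearMap.bijective_or_eq_zero f).resolve_left fun hb => h ?_
  let e := (LinearEquiv.ofBijective f hb).restrictScalars k
  refine ⟨(R.ρ.asModuleEquiv.symm.trans e).trans S.ρ.asModuleEquiv, fun g v => ?_⟩
  show S.ρ.asModuleEquiv (f (R.ρ.asModuleEquiv.symm (R.ρ g v))) = _
  rw [Representation.asModuleEquiv_symm_map_rho, map_smul, Representation.asModuleEquiv_map_smul,
    Representation.asAlgebraHom_of]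
  rfl

variable [Finite k]

/-- An element commuting with all endomorphisms and with nonzero trace. -/
lemma exists_centralizer_trace_ne_zero {R : FinRep k G} (hR : R.IsSimple) :
    ∃ x : R.ρ.asModule →ₗ[k] R.ρ.asModule,
      (∀ (d : Module.End k[G] R.ρ.asModule) v, x (d v) = d (x v)) ∧
      LinearMap.trace k R.ρ.asModule x ≠ 0 := by
  classical
  have := hR.isSimpleModule
  have : Finite R.ρ.asModule := Module.finite_of_finite k
  let D := Module.End k[G] R.ρ.asModule
  have : Finite D := Finite.of_injective _ DFunLike.coe_injective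
  let : DivisionRing D := Module.End.instDivisionRing
  let : Field D := littleWedderburn D
  have : SMulCommClass k[G] k R.ρ.asModule := IsScalarTower.to_smulCommClass' (R := k)
  let : Algebra k D := inferInstanceAs (Algebra k (Module.End k[G] R.ρ.asModule))
  have := hR.1
  have : Nontrivial R.ρ.asModule := R.ρ.asModuleEquiv.toEquiv.nontrivial
  have : Module.Finite k D := Module.Finite.of_finite
  obtain ⟨c, hc⟩ : ∃ c : D, Algebra.trace k D c ≠ 0 := by
    by_contra hne
    push Not at hne
    exact Algebra.trace_ne_zero k D (LinearMap.ext hne)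
  let b := Module.Free.chooseBasis D R.ρ.asModule
  have hne : Nonempty (Module.Free.ChooseBasisIndex D R.ρ.asModule) := b.index_nonempty
  obtain ⟨i⟩ := hne
  let π : R.ρ.asModule →ₗ[k] D := (b.coord i).restrictScalars k
  let ι : D →ₗ[k] R.ρ.asModule := (LinearMap.toSpanSingleton D R.ρ.asModule (b i)).restrictScalars k
  let m : D →ₗ[k] D := Algebra.lmul k D c
  refine ⟨ι ∘ₗ m ∘ₗ π, fun d v => ?_, ?_⟩
  · show (c * b.coord i (d • v)) • b i = d • ((c * b.coord i v) • b i)
    rw [map_smul, smul_eq_mul, smul_smul, mul_left_comm]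
  · rw [LinearMap.trace_comp_comm']
    have : (m ∘ₗ π) ∘ₗ ι = m := by
      refine LinearMap.ext fun d => ?_
      show c * b.coord i (d • b i) = c * d
      simp
    rw [this]
    exact hc

/-- Trace separation of simple representations. -/
theorem exists_trace_separating {ι : Type*} [Fintype ι] (T : ι → FinRep k G)
    (hT : ∀ i, (T i).IsSimple) (hne : ∀ i j, i ≠ j → ¬ (T i).Iso (T j)) (i₀ : ι) :
    ∃ a : k[G], LinearMap.trace k (T i₀).V ((T i₀).ρ.asAlgebraHom a) ≠ 0 ∧
      ∀ j, j ≠ i₀ → LinearMap.trace k (T j).V ((T j).ρ.asAlgebraHom a) = 0 := by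
  classical
  have hs : ∀ i, IsSimpleModule k[G] (T i).ρ.asModule := fun i => (hT i).isSimpleModule
  obtain ⟨x, hx, hxt⟩ := exists_centralizer_trace_ne_zero (hT i₀)
  let N := ∀ i, (T i).ρ.asModule
  have hcomm : ∀ (d : Module.End k[G] N) (v : N),
      d (Pi.single i₀ (x (v i₀))) = Pi.single i₀ (x ((d v) i₀)) := by
    intro d v
    let comp := fun i j => (LinearMap.proj j).comp
      (d.comp (LinearMap.single k[G] (fun i => (T i).ρ.asModule) i))
    have hzero : ∀ i j, i ≠ j → comp i j = 0 := fun i j hij =>
      eq_zero_of_not_iso (hT i) (hT j) (hne i j hij) _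
    have hd : ∀ w : N, ∀ j, d w j = comp j j (w j) := fun w j => by
      conv_lhs => rw [← Finset.univ_sum_single w]
      rw [map_sum, Finset.sum_apply, Finset.sum_eq_single j]
      · rfl
      · intro i _ hij
        exact congrArg (fun f : _ →ₗ[k[G]] _ => f (w i)) (hzero i j hij)
      · simp
    funext j
    rw [hd]
    by_cases hj : j = i₀
    · subst hj
      rw [Pi.single_eq_same, Pi.single_eq_same, hd v]
      exact (hx (comp j j) (v j)).symm
    · simp [Pi.single_eq_of_ne hj]
  let φ : Module.End (Module.End k[G] N) N :=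
    { toFun := fun v => Pi.single i₀ (x (v i₀))
      map_add' := fun v w => by
        rw [← Pi.single_add, ← map_add]
        rfl
      map_smul' := fun d v => (hcomm d v).symm }
  have : ∀ i, Finite (T i).ρ.asModule := fun i => Module.finite_of_finite k
  have : Fintype N := Fintype.ofFinite N
  have hss : ∀ i, IsSemisimpleModule k[G] (T i).ρ.asModule := fun i => by
    have := (hs i).toIsSimpleOrder
    refine (isSemisimpleModule_iff _ _).mpr ⟨fun W => ?_⟩
    rcases eq_bot_or_eq_top W with rfl | rfl
    · exact ⟨⊤, isCompl_bot_top⟩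
    · exact ⟨⊥, isCompl_top_bot⟩
  have hNss : IsSemisimpleModule k[G] N :=
    isSemisimpleModule_of_isSemisimpleModule_submodule'
      (p := fun i => LinearMap.range (LinearMap.single k[G] (fun i => (T i).ρ.asModule) i))
      (fun i => @IsSemisimpleModule.range _ _ _ _ _ _ _ _ (hss i) _) (by
        rw [Submodule.eq_top_iff']
        intro v
        rw [← Finset.univ_sum_single v]
        exact Submodule.sum_mem _ fun i _ => Submodule.mem_iSup_of_mem i ⟨v i, rfl⟩)
  obtain ⟨a, ha⟩ := jacobson_density (R := k[G]) φ Finset.univ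
  have hj : ∀ (j : ι) (v : (T j).ρ.asModule),
      a • v = if hjj : j = i₀ then hjj ▸ (x (hjj ▸ v)) else 0 := by
    intro j v
    have := congrFun (ha (Pi.single j v) (Finset.mem_univ _)) j
    change Pi.single (M := fun i => (T i).ρ.asModule) i₀ _ j =
      a • Pi.single (M := fun i => (T i).ρ.asModule) j v j at this
    rw [Pi.single_eq_same] at this
    rw [← this]
    by_cases hjj : j = i₀
    · subst hjj; simp
    · simp [hjj]
  refine ⟨a, ?_, fun j hji => ?_⟩
  · have : (T i₀).ρ.asAlgebraHom a =
        (T i₀).ρ.asModuleEquiv.toLinearMap ∘ₗ x ∘ₗ (T i₀).ρ.asModuleEquiv.symm.toLinearMap := by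
      ext v
      have := hj i₀ ((T i₀).ρ.asModuleEquiv.symm v)
      simp only [dite_true] at this
      exact (congrArg (T i₀).ρ.asModuleEquiv this.symm).symm
    rw [this, LinearMap.trace_comp_comm', LinearMap.comp_assoc]
    simpa using hxt
  · have : (T j).ρ.asAlgebraHom a = 0 := by
      ext v
      have := hj j ((T j).ρ.asModuleEquiv.symm v)
      rw [dif_neg hji] at this
      exact congrArg (T j).ρ.asModuleEquiv this
    simp [this]

end FermatAgent.Duality.Euler
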